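/-
PROJECT M (S15), block [D], leaf (TP-const), step 1a (helper23): PONTRYAGIN COUNT.

For a finite abelian group `X` and an algebraically closed field `K` of characteristic zero, the
characters `X →+ Additive Kˣ` separate the points of `X`, there are `|X|` of them, every character
of the character group is the evaluation at a point, and consequently for a subgroup `D` of the
character group the index of `D` is at most the number of points killed by all of `D`.
Mathlib only.
-/
import Mathlib

set_option autoImplicit false

namespace Fermat.Agent.S15.D.DualCount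

variable (K : Type*) [Field K] [CharZero K] [IsAlgClosed K]

section Basic

variable (X : Type*) [AddCommGroup X] [Finite X]

/-- `K` has enough roots of unity for the finite group `Multiplicative X`. -/
lemma hasEnough : HasEnoughRootsOfUnity K (Monoid.exponent (Multiplicative X)) := by
  haveI : NeZero (Monoid.exponent (Multiplicative X)) := ⟨Monoid.exponent_ne_zero_of_finite⟩
  haveI : NeZero ((Monoid.exponent (Multiplicative X) : ℕ) : K) := NeZero.charZero
  infer_instance

/-- There are exactly `|X|` characters of `X`. -/
theorem card_addHom : Nat.card (X →+ Additive Kˣ) = Nat.card X := by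
  haveI := hasEnough K X
  rw [Nat.card_congr (AddMonoidHom.toMultiplicativeLeft (α := X) (β := Kˣ)),
    CommGroup.card_monoidHom_of_hasEnoughRootsOfUnity (Multiplicative X) K]
  exact Nat.card_congr Multiplicative.toAdd

instance finite_addHom : Finite (X →+ Additive Kˣ) := by
  haveI := hasEnough K X
  have h := card_addHom K X
  have hpos : 0 < Nat.card (X →+ Additive Kˣ) := by
    rw [h]; exact Nat.card_pos
  exact (Nat.card_pos_iff.1 hpos).2

variable {X}

/-- Characters separate points. -/
theorem eq_of_forall_addHom {x y : X} (h : ∀ d : X →+ Additive Kˣ, d x = d y) : x = y := by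
  haveI := hasEnough K X
  have h1 : ∀ φ : Multiplicative X →* Kˣ, φ (Multiplicative.ofAdd x) = φ (Multiplicative.ofAdd y) := by
    intro φ
    have h2 := h (AddMonoidHom.toMultiplicativeLeft.symm φ)
    exact congrArg Additive.toMul h2
  have h3 := (CommGroup.forall_apply_eq_apply_iff (G := Multiplicative X) (M := K)).1 h1
  exact congrArg Multiplicative.toAdd h3

/-- Every character of the character group is the evaluation at a point. -/
theorem exists_eval (η : (X →+ Additive Kˣ) →+ Additive Kˣ) : ∃ x : X, ∀ d, η d = d x := by
  let evl : X → ((X →+ Additive Kˣ) →+ Additive Kˣ) := fun x =>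
    { toFun := fun d => d x
      map_zero' := rfl
      map_add' := fun _ _ => rfl }
  have hinj : Function.Injective evl := by
    intro x y hxy
    refine eq_of_forall_addHom K fun d => ?_
    exact DFunLike.congr_fun hxy d
  have hcard : Nat.card ((X →+ Additive Kˣ) →+ Additive Kˣ) = Nat.card X := by
    rw [card_addHom K (X →+ Additive Kˣ), card_addHom K X]
  have hbij : Function.Bijective evl :=
    (Nat.bijective_iff_injective_and_card evl).2 ⟨hinj, hcard.symm⟩
  obtain ⟨x, hx⟩ := hbij.2 η
  exact ⟨x, fun d => by rw [← hx]; rfl⟩

end Basic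

instance isAddCommutative_addHom (X : Type*) [AddCommGroup X] :
    IsAddCommutative (X →+ Additive Kˣ) := ⟨⟨fun a b => add_comm a b⟩⟩

/-- **Pontryagin count.** The index of a subgroup `D` of the character group of `X` is at most the
number of points of `X` killed by every element of `D`. -/
theorem card_quot_le {X : Type*} [AddCommGroup X] [Finite X] (D : AddSubgroup (X →+ Additive Kˣ)) :
    Nat.card ((X →+ Additive Kˣ) ⧸ D) ≤ Nat.card {x : X // ∀ d ∈ D, d x = 0} := by
  haveI : Finite (X →+ Additive Kˣ) := finite_addHom K X
  haveI : Finite ((X →+ Additive Kˣ) ⧸ D) := inferInstance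
  rw [← card_addHom K ((X →+ Additive Kˣ) ⧸ D)]
  have hex : ∀ ψ : ((X →+ Additive Kˣ) ⧸ D) →+ Additive Kˣ,
      ∃ x : X, ∀ d, ψ (QuotientAddGroup.mk d) = d x := fun ψ =>
    exists_eval K (ψ.comp (QuotientAddGroup.mk' D))
  let Θ : (((X →+ Additive Kˣ) ⧸ D) →+ Additive Kˣ) → {x : X // ∀ d ∈ D, d x = 0} := fun ψ =>
    ⟨(hex ψ).choose, fun d hd => by
      rw [← (hex ψ).choose_spec d, (QuotientAddGroup.eq_zero_iff d).2 hd, map_zero]⟩
  have hΘ : Function.Injective Θ := by
    intro ψ ψ' h
    have hx : (hex ψ).choose = (hex ψ').choose := congrArg Subtype.val h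
    refine DFunLike.ext _ _ fun q => ?_
    obtain ⟨d, rfl⟩ := QuotientAddGroup.mk_surjective q
    rw [(hex ψ).choose_spec d, (hex ψ').choose_spec d, hx]
  haveI : Finite {x : X // ∀ d ∈ D, d x = 0} := inferInstance
  exact Nat.card_le_card_of_injective Θ hΘ

end Fermat.Agent.S15.D.DualCount
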