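/-
PROJECT M (S15), junction leaf (LAB) (helper28): THE LABEL HYPOTHESIS OF THE FLAG FROM THE
CYCLOTOMIC ACTION OF INERTIA ON `A0`.

helper2's `G/Flag.exists_flag` (and `G/CoarseJ.exists_flag_Gk`) need, for `P` odd, ONE element `s₀`
with `χ(s₀) ≠ 1` acting trivially on `A / A0` and by integers `≡ χ(s₀) mod P` on `A0`.  We produce
it from helper23's hypothesis `hcyc` of (T-P) ("the inertia group at `P` acts on `A0` through the
cyclotomic character", character form) and `OrdDatum.inertia`: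

* `exists_mem_Iq_cycloChar_ne_one` : for `P` odd the mod `P` cyclotomic character is non-trivial on
  the inertia group at the fixed place over `P` (Minkowski in helper21's character form
  `Struct/Irred.char_eq_of_inertia`);
* `exists_int_pow` : an element of `G_ℚ` acts on the `P ^ j`-th roots of unity by `z ↦ z ^ m` with
  `m ≡ χ mod P`;
* `hlab_of_hcyc` : the label hypothesis (characters separate points: helper23's `DualCount`).
-/
import Fermat.Agent.S15.D.Greenberg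
import Fermat.Agent.S15.D.DualCount
import Fermat.Agent.S15.Struct.Irred
import Fermat.Agent.CFT.Bridge.Cyclo

set_option autoImplicit false

namespace Fermat.Agent.S15.D.Label

open ExtCitation
open Fermat.Agent.S56.Coh Fermat.Agent.CFT.LC Fermat.Agent.CFT.Bridge
  Fermat.Agent.CFT.LocalBridge
open Fermat.Agent.S15.D Fermat.Agent.S15.D.Greenberg

variable {P : ℕ} [Fact P.Prime]

/-- For `P` odd the mod `P` cyclotomic character is non-trivial on the inertia group at the fixed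
place over `P`. -/
theorem exists_mem_Iq_cycloChar_ne_one (hP2 : P ≠ 2) : ∃ s₀ ∈ Iq P, cycloChar P s₀ ≠ 1 := by
  by_contra hcon0
  have hcon : ∀ s ∈ Iq P, cycloChar P s = 1 := fun s hs =>
    by_contra fun h => hcon0 ⟨s, hs, h⟩
  obtain ⟨g, hg⟩ := Fermat.Agent.S15.D.BaseKummer.exists_om_ne_one hP2
  let θ₁ : GQ →* ZMod P := (Units.coeHom (ZMod P)).comp (cycloChar P)
  have hθ₁ : ∀ s, θ₁ s = ((cycloChar P s : (ZMod P)ˣ) : ZMod P) := fun _ => rfl
  have key := Fermat.Agent.S15.Struct.Irred.char_eq_of_inertia (⊥ : Ideal (ZMod P))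
    (fun x hx => by simpa using hx 1) θ₁ 1 (t := 1) one_ne_zero (fun j => ?_)
    (fun q _ s hs => ?_) g
  · rw [hθ₁, MonoidHom.one_apply] at key
    exact hg key
  · obtain ⟨F, hF, hχ⟩ := exists_finite_cycloChar_eq_one P
    refine ⟨F, hF, fun s hs => ?_⟩
    rw [hθ₁, hχ s hs, MonoidHom.one_apply, Units.val_one, sub_self, mul_zero]
    exact zero_mem _
  · rw [hθ₁, MonoidHom.one_apply]
    by_cases hq : q = P
    · subst hq
      rw [hcon s hs, Units.val_one]
    · rw [cycloChar_eq_one_of_mem_inertia P (Fact.out : q.Prime) hq (padicPlace q)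
        (liesOverPrime_padicPlace q) hs, Units.val_one]

/-- An element of `G_ℚ` acts on the `P ^ j`-th roots of unity (`j ≥ 1`) by `z ↦ z ^ m` for an
integer `m` lifting the mod `P` cyclotomic character. -/
theorem exists_int_pow (s : GQ) (j : ℕ) (hj : 0 < j) :
    ∃ m : ℤ, ((m : ℤ) : ZMod P) = ((cycloChar P s : (ZMod P)ˣ) : ZMod P) ∧
      ∀ z : Qbar, z ^ (P ^ j) = 1 → s z = z ^ m := by
  have hP : P.Prime := Fact.out
  haveI : NeZero P := ⟨hP.ne_zero⟩
  haveI : NeZero (P ^ j) := ⟨pow_ne_zero j hP.ne_zero⟩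
  obtain ⟨m, hm⟩ := rootsOfUnity.integer_power_of_ringEquiv' (L := Qbar) (P ^ j)
    (s : Qbar ≃+* Qbar)
  have hz : ∀ z : Qbar, z ^ (P ^ j) = 1 → s z = z ^ m := by
    intro z hz
    have hz0 : z ≠ 0 := by
      rintro rfl
      rw [zero_pow (pow_ne_zero j hP.ne_zero)] at hz
      exact zero_ne_one hz
    have h1 := hm (Units.mk0 z hz0) (by
      rw [mem_rootsOfUnity]
      ext
      rw [Units.val_pow_eq_pow_val, Units.val_mk0, hz, Units.val_one])
    rw [Units.val_mk0, Units.val_zpow_eq_zpow_val, Units.val_mk0] at h1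
    exact h1
  refine ⟨m, ?_, hz⟩
  obtain ⟨ζ, hζ⟩ := exists_isPrimitiveRoot_Qbar P
  have h1 : ζ ^ (P ^ j) = 1 := by
    obtain ⟨i, rfl⟩ := Nat.exists_eq_succ_of_ne_zero hj.ne'
    rw [pow_succ', pow_mul, hζ.pow_eq_one, one_pow]
  have h2 := hz ζ h1
  have h3 := apply_eq_pow_cycloChar P hζ s
  set v : ℕ := ((cycloChar P s : (ZMod P)ˣ) : ZMod P).val with hv
  have hζ0 : ζ ≠ 0 := hζ.ne_zero hP.ne_zero
  have h4 : ζ ^ (m - (v : ℤ)) = 1 := by
    rw [zpow_sub₀ hζ0, zpow_natCast, ← h2, ← h3, div_self]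
    rw [h3]
    exact pow_ne_zero _ hζ0
  have h5 := (hζ.zpow_eq_one_iff_dvd _).1 h4
  have h6 : ((m - (v : ℤ) : ℤ) : ZMod P) = 0 := (ZMod.intCast_zmod_eq_zero_iff_dvd _ _).2 h5
  rw [Int.cast_sub, Int.cast_natCast, hv, ZMod.natCast_zmod_val, sub_eq_zero] at h6
  exact h6

variable {k : Type} [CommRing k] {N : ℕ} [Fact N.Prime] {A : Rep.{0} k GQ}
  {A0 : Submodule k A}

/-- `ev d` turns integer multiples into powers. -/
lemma ev_zsmul (d : Ch A) (m : ℤ) (a : A) : ev d (m • a) = ev d a ^ m := by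
  unfold ev
  rw [map_zsmul, toMul_zsmul, Units.val_zpow_eq_zpow_val]

lemma ev_nsmul (d : Ch A) (m : ℕ) (a : A) : ev d (m • a) = ev d a ^ m := by
  unfold ev
  rw [map_nsmul, toMul_nsmul, Units.val_pow_eq_pow_val]

/-- **(LAB)**: the label hypothesis of helper2's `exists_flag` from the cyclotomic action of the
inertia group at `P` on `A0` (helper23's `hcyc`) and `OrdDatum.inertia`. -/
theorem hlab_of_hcyc [Finite A] {j : ℕ} (h : OrdDatum P N A A0)
    (hA : ∀ a : A, (P ^ j) • a = 0)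
    (hcyc : ∀ s ∈ Iq P, ∀ a ∈ A0, ∀ d : Ch A, ev d (A.ρ s a) = s (ev d a)) :
    (∀ s, cycloChar P s = 1) ∨
      ∃ s₀ : GQ, cycloChar P s₀ ≠ 1 ∧ (∀ x, A.ρ s₀ x - x ∈ A0) ∧
        ∀ x ∈ A0, ∃ n : ℤ,
          ((n : ℤ) : ZMod P) = ((cycloChar P s₀ : (ZMod P)ˣ) : ZMod P) ∧ A.ρ s₀ x = n • x := by
  have hP : P.Prime := Fact.out
  haveI : NeZero P := ⟨hP.ne_zero⟩
  by_cases hP2 : P = 2
  · left
    intro s
    subst hP2
    exact Subsingleton.elim _ _
  · right
    obtain ⟨s₀, hs₀, hχ⟩ := exists_mem_Iq_cycloChar_ne_one hP2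
    refine ⟨s₀, hχ, fun x => h.inertia s₀ hs₀ x, fun x hx => ?_⟩
    rcases Nat.eq_zero_or_pos j with hj | hj
    · subst hj
      have hx0 : ∀ a : A, a = 0 := fun a => by simpa using hA a
      refine ⟨((((cycloChar P s₀ : (ZMod P)ˣ) : ZMod P).val : ℕ) : ℤ), ?_, ?_⟩
      · rw [Int.cast_natCast, ZMod.natCast_zmod_val]
      · rw [hx0 (A.ρ s₀ x), hx0 x, smul_zero]
    · obtain ⟨m, hm1, hm2⟩ := exists_int_pow (P := P) s₀ j hj
      refine ⟨m, hm1, ?_⟩
      apply Fermat.Agent.S15.D.DualCount.eq_of_forall_addHom Qbar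
      intro d
      have h1 := hcyc s₀ hs₀ x hx d
      have h2 : ev d x ^ (P ^ j) = 1 := by
        rw [← ev_nsmul, hA x, ev_zero]
      rw [hm2 _ h2, ← ev_zsmul] at h1
      apply Additive.toMul.injective
      apply Units.ext
      exact h1

end Fermat.Agent.S15.D.Label
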