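/-
PROJECT M (S15), block [D] (helper18), part 1: THE ABSTRACT DESCENT STEP.

Cocycle model of `S56/Coh/Defs`.  For a short exact sequence `0 → C → G → Q → 0` of finite
Galois modules, unramified outside `{N, P}`, with ARBITRARY conditions `LC, LG, LQ` at `P` which
are compatible with the two maps, the Selmer COCYCLES (unramified outside `P`, in `L` at `P`)
satisfy

  `|SelL G| * |G^(I_N)| ≤ |SelL C| * |C^(I_N)| * (|SelL Q| * |Q^(I_N)|)`.

Counting cocycles instead of classes removes the connecting map and `H⁰` from the six-term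
inequality; the factor `|·^(I_N)|` absorbs the failure of "unramified at `N`" to be an induced
condition.  Nothing here depends on the prime `P` being odd.
-/
import Fermat.Agent.S56.Coh.Defs

set_option autoImplicit false

namespace Fermat.Agent.S15.D

open Fermat.Agent.S56.Coh Fermat.Agent.CFT.LC Fermat.Agent.CFT.Bridge
  Fermat.Agent.CFT.LocalBridge

/-! ### Counting along an additive map -/

/-- If the kernel of `f` injects into `X` and the image of `f` lies in the finite set `Y`, then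
the source is finite of cardinality at most `|X| * |Y|`. -/
theorem card_le_of_ker_range {M M' X : Type} [AddCommGroup M] [AddCommGroup M'] [Finite X]
    (f : M →+ M') (Y : Set M') (hYf : Y.Finite) (hY : ∀ m, f m ∈ Y)
    (e : f.ker → X) (he : Function.Injective e) :
    Finite M ∧ Nat.card M ≤ Nat.card X * Nat.card Y := by
  have : Finite Y := hYf
  let E1 : M ≃ (M ⧸ f.ker) × f.ker := AddSubgroup.addGroupEquivQuotientProdAddSubgroup
  let E2 : M ⧸ f.ker ≃+ f.range := QuotientAddGroup.quotientKerEquivRange f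
  let ι : f.range → Y := fun y => ⟨y.1, by obtain ⟨m, hm⟩ := y.2; rw [← hm]; exact hY m⟩
  have hι : Function.Injective ι := fun a b h => Subtype.ext (congrArg (fun z : Y => z.1) h)
  let g : M → Y × X := fun m => (ι (E2 (E1 m).1), e (E1 m).2)
  have hg : Function.Injective g := by
    intro a b h
    apply E1.injective
    have h1 := congrArg Prod.fst h
    have h2 := congrArg Prod.snd h
    exact Prod.ext (E2.injective (hι h1)) (he h2)
  have : Finite M := Finite.of_injective g hg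
  refine ⟨inferInstance, ?_⟩
  calc Nat.card M ≤ Nat.card (Y × X) := Nat.card_le_card_of_injective g hg
    _ = Nat.card X * Nat.card Y := by rw [Nat.card_prod, mul_comm]

variable {k : Type} [CommRing k]

/-! ### Invariants of inertia and Selmer cocycles -/

/-- The invariants of the inertia group of the fixed place over `q`. -/
def invI (q : ℕ) [Fact q.Prime] (A : Rep.{0} k GQ) : Submodule k A where
  carrier := {x | ∀ s ∈ Iq q, A.ρ s x = x}
  add_mem' := fun {a b} ha hb s hs => by rw [map_add, ha s hs, hb s hs]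
  zero_mem' := fun s _ => map_zero _
  smul_mem' := fun r a ha s hs => by rw [map_smul, ha s hs]

lemma mem_invI_iff {q : ℕ} [Fact q.Prime] {A : Rep.{0} k GQ} {x : A} :
    x ∈ invI q A ↔ ∀ s ∈ Iq q, A.ρ s x = x := Iff.rfl

/-- Selmer cocycles: global cocycles, unramified at every `q ≠ P`, in `L` (a condition at `P`). -/
def SelL (P : ℕ) (A : Rep.{0} k GQ) (L : Submodule k (GQ → A)) : Submodule k (GQ → A) where
  carrier := {c | c ∈ Z1g A ∧ (∀ (q : ℕ) [Fact q.Prime], q ≠ P → IsUnramAt q c) ∧ c ∈ L}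
  add_mem' := by
    rintro c c' ⟨hc, hu, hL⟩ ⟨hc', hu', hL'⟩
    exact ⟨Submodule.add_mem _ hc hc', fun q _ hq => (hu q hq).add (hu' q hq),
      Submodule.add_mem _ hL hL'⟩
  zero_mem' := ⟨Submodule.zero_mem _, fun q _ _ => isUnramAt_zero q, Submodule.zero_mem _⟩
  smul_mem' := by
    rintro r c ⟨hc, hu, hL⟩
    exact ⟨Submodule.smul_mem _ r hc, fun q _ hq => (hu q hq).smul r, Submodule.smul_mem _ r hL⟩

lemma mem_SelL_iff {P : ℕ} {A : Rep.{0} k GQ} {L : Submodule k (GQ → A)} {c : GQ → A} :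
    c ∈ SelL P A L ↔
      c ∈ Z1g A ∧ (∀ (q : ℕ) [Fact q.Prime], q ≠ P → IsUnramAt q c) ∧ c ∈ L := Iff.rfl

/-- `SelL` is main's `SelZ` for the set `{P}` and the constant family `L`. -/
lemma SelL_eq_SelZ (P : ℕ) (A : Rep.{0} k GQ) (L : Submodule k (GQ → A)) :
    SelL P A L = SelZ ({P} : Finset ℕ) ⟨fun _ => L⟩ := by
  ext c
  rw [mem_SelL_iff, mem_SelZ_iff]
  constructor
  · rintro ⟨h1, h2, h3⟩
    exact ⟨h1, fun q _ hq => h2 q (by simpa using hq), fun q _ => h3⟩
  · rintro ⟨h1, h2, h3⟩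
    exact ⟨h1, fun q _ hq => h2 q (by simpa using hq), h3 P (by simp)⟩

/-! ### Short exact sequences of Galois modules, in elementary terms -/

/-- A short exact sequence `0 → C → G → Q → 0` of representations, given by equivariant linear
maps. -/
structure ExactSeq (C G Q : Rep.{0} k GQ) where
  /-- the injection -/
  i : C →ₗ[k] G
  /-- the surjection -/
  p : G →ₗ[k] Q
  hi : ∀ (s : GQ) (x : C), i (C.ρ s x) = G.ρ s (i x)
  hp : ∀ (s : GQ) (x : G), p (G.ρ s x) = Q.ρ s (p x)
  inj : Function.Injective i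
  surj : Function.Surjective p
  exact : ∀ x : G, p x = 0 ↔ ∃ y : C, i y = x

section Maps

variable {A B : Rep.{0} k GQ} (f : A →ₗ[k] B) (hf : ∀ (s : GQ) (x : A), f (A.ρ s x) = B.ρ s (f x))

include hf

lemma comp_mem_Z1g {c : GQ → A} (hc : c ∈ Z1g A) : (fun s => f (c s)) ∈ Z1g B := by
  rw [mem_Z1g_iff] at hc ⊢
  obtain ⟨h1, U, hU, h2, h3⟩ := hc
  refine ⟨fun g h => ?_, U, hU, fun g s hs => ?_, fun g s hs => ?_⟩
  · change f (c (g * h)) = B.ρ g (f (c h)) + f (c g)
    rw [h1 g h, map_add, hf]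
  · change f (c (g * s)) = f (c g)
    rw [h2 g s hs]
  · change B.ρ s (f (c g)) = f (c g)
    rw [← hf, h3 g s hs]

lemma mem_Z1g_of_comp (hinj : Function.Injective f) {c : GQ → A}
    (hc : (fun s => f (c s)) ∈ Z1g B) : c ∈ Z1g A := by
  rw [mem_Z1g_iff] at hc ⊢
  obtain ⟨h1, U, hU, h2, h3⟩ := hc
  refine ⟨fun g h => hinj ?_, U, hU, fun g s hs => hinj (h2 g s hs), fun g s hs => hinj ?_⟩
  · rw [h1 g h, map_add, hf]
  · rw [hf]; exact h3 g s hs

lemma isUnramAt_comp {q : ℕ} [Fact q.Prime] {c : GQ → A} (hc : IsUnramAt q c) :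
    IsUnramAt q (fun s => f (c s)) := by
  obtain ⟨a, ha⟩ := hc
  exact ⟨f a, fun s hs => by
    change f (c s) = B.ρ s (f a) - f a
    rw [ha s hs, map_sub, hf]⟩

lemma map_mem_invI {q : ℕ} [Fact q.Prime] {x : A} (hx : x ∈ invI q A) : f x ∈ invI q B :=
  fun s hs => by rw [← hf, hx s hs]

end Maps

/-! ### The step -/

section Step

variable {P N : ℕ} [Fact P.Prime] [Fact N.Prime] {C G Q : Rep.{0} k GQ} (E : ExactSeq C G Q)
  (LC : Submodule k (GQ → C)) (LG : Submodule k (GQ → G)) (LQ : Submodule k (GQ → Q))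

/-- The relative Selmer cocycles of the sub-object: those whose push-forward is Selmer. -/
def SelRel (P : ℕ) (E : ExactSeq C G Q) (LG : Submodule k (GQ → G)) : Submodule k (GQ → C) :=
  (SelL P G LG).comap (E.i.compLeft GQ)

lemma mem_SelRel_iff {c' : GQ → C} :
    c' ∈ SelRel P E LG ↔ (fun s => E.i (c' s)) ∈ SelL P G LG := Iff.rfl

/-- Kernel-image count for `c ↦ p ∘ c`. -/
theorem card_SelL_le (hpush : ∀ c ∈ LG, (fun s => E.p (c s)) ∈ LQ)
    (hfR : (SelRel P E LG : Set (GQ → C)).Finite) (hfQ : (SelL P Q LQ : Set (GQ → Q)).Finite) :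
    (SelL P G LG : Set (GQ → G)).Finite ∧
      Nat.card (SelL P G LG) ≤ Nat.card (SelRel P E LG) * Nat.card (SelL P Q LQ) := by
  have : Finite ↥(SelRel P E LG) := hfR.to_subtype
  let f : ↥(SelL P G LG) →+ (GQ → Q) :=
    ((E.p.compLeft GQ).domRestrict (SelL P G LG)).toAddMonoidHom
  have hf : ∀ c : ↥(SelL P G LG), f c = fun s => E.p (c.1 s) := fun c => rfl
  have hY : ∀ c, f c ∈ (SelL P Q LQ : Set (GQ → Q)) := by
    intro c
    obtain ⟨h1, h2, h3⟩ := c.2
    rw [hf]
    exact ⟨comp_mem_Z1g E.p E.hp h1, fun q _ hq => isUnramAt_comp E.p E.hp (h2 q hq),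
      hpush _ h3⟩
  have hker : ∀ c : f.ker, ∀ s, ∃ y : C, E.i y = c.1.1 s := by
    intro c s
    have h0 : f c.1 = 0 := c.2
    rw [hf] at h0
    exact (E.exact _).1 (congrFun h0 s)
  let e : f.ker → ↥(SelRel P E LG) := fun c =>
    ⟨fun s => Classical.choose (hker c s), by
      rw [mem_SelRel_iff]
      have : (fun s => E.i (Classical.choose (hker c s))) = c.1.1 :=
        funext fun s => Classical.choose_spec (hker c s)
      rw [this]
      exact c.1.2⟩
  have he : Function.Injective e := by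
    intro c c' h
    apply Subtype.ext
    apply Subtype.ext
    funext s
    have h1 : (e c).1 s = (e c').1 s := by rw [h]
    rw [← Classical.choose_spec (hker c s), ← Classical.choose_spec (hker c' s)]
    exact congrArg E.i h1
  obtain ⟨h1, h2⟩ := card_le_of_ker_range f _ hfQ hY e he
  exact ⟨Set.finite_coe_iff.mp h1, h2⟩

/-- The pairs `(c', a)`: a relative Selmer cocycle together with a trivialisation of its
push-forward on the inertia group at `N`. -/
def TN (N : ℕ) [Fact N.Prime] (E : ExactSeq C G Q) (S : Submodule k (GQ → C)) :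
    Submodule k ((GQ → C) × G) where
  carrier := {x | x.1 ∈ S ∧ ∀ s ∈ Iq N, E.i (x.1 s) = G.ρ s x.2 - x.2}
  add_mem' := by
    rintro x y ⟨hx, hx'⟩ ⟨hy, hy'⟩
    refine ⟨Submodule.add_mem _ hx hy, fun s hs => ?_⟩
    rw [Prod.fst_add, Prod.snd_add, Pi.add_apply, map_add, map_add, hx' s hs, hy' s hs]
    abel
  zero_mem' := ⟨Submodule.zero_mem _, fun s _ => by simp⟩
  smul_mem' := by
    rintro r x ⟨hx, hx'⟩
    refine ⟨Submodule.smul_mem _ r hx, fun s hs => ?_⟩
    rw [Prod.smul_fst, Prod.smul_snd, Pi.smul_apply, map_smul, map_smul, hx' s hs, smul_sub]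

lemma mem_TN_iff {S : Submodule k (GQ → C)} {x : (GQ → C) × G} :
    x ∈ TN N E S ↔ x.1 ∈ S ∧ ∀ s ∈ Iq N, E.i (x.1 s) = G.ρ s x.2 - x.2 := Iff.rfl

/-- A relative Selmer cocycle is a cocycle of the sub-object. -/
lemma mem_Z1g_of_mem_SelRel {c' : GQ → C} (h : c' ∈ SelRel P E LG) : c' ∈ Z1g C :=
  mem_Z1g_of_comp E.i E.hi E.inj ((mem_SelRel_iff E LG).1 h).1

/-- A relative Selmer cocycle which is trivialised on `I_N` by an element of the sub-object is a
Selmer cocycle of the sub-object. -/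
lemma mem_SelL_of_mem_SelRel
    (hpull : ∀ c' : GQ → C, (fun s => E.i (c' s)) ∈ LG → c' ∈ LC)
    (hunr : ∀ (q : ℕ) [Fact q.Prime], q ≠ N → q ≠ P → ∀ s ∈ Iq q, ∀ x : G, G.ρ s x = x)
    {c' : GQ → C} (h : c' ∈ SelRel P E LG) (a0 : C)
    (ha0 : ∀ s ∈ Iq N, E.i (c' s) = G.ρ s (E.i a0) - E.i a0) : c' ∈ SelL P C LC := by
  have h' := (mem_SelRel_iff E LG).1 h
  refine ⟨mem_Z1g_of_mem_SelRel E LG h, fun q _ hqP => ?_, hpull c' h'.2.2⟩
  by_cases hqN : q = N
  · subst hqN
    refine ⟨a0, fun s hs => E.inj ?_⟩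
    rw [ha0 s hs, map_sub, E.hi]
  · obtain ⟨a1, ha1⟩ := h'.2.1 q hqP
    refine ⟨0, fun s hs => E.inj ?_⟩
    have h5 : E.i (c' s) = G.ρ s a1 - a1 := ha1 s hs
    rw [hunr q hqN hqP s hs a1, sub_self] at h5
    rw [h5, map_zero, sub_zero, map_zero]

/-- The count of pairs: the defect of "unramified at `N`" as an induced condition. -/
theorem card_SelRel_mul_le (hNP : N ≠ P) [Finite G]
    (hpull : ∀ c' : GQ → C, (fun s => E.i (c' s)) ∈ LG → c' ∈ LC)
    (hunr : ∀ (q : ℕ) [Fact q.Prime], q ≠ N → q ≠ P → ∀ s ∈ Iq q, ∀ x : G, G.ρ s x = x)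
    (hfC : (SelL P C LC : Set (GQ → C)).Finite) :
    (SelRel P E LG : Set (GQ → C)).Finite ∧
      Nat.card (SelRel P E LG) * Nat.card (invI N G) ≤
        Nat.card (SelL P C LC) * Nat.card (invI N C) * Nat.card (invI N Q) := by
  have : Finite C := Finite.of_injective E.i E.inj
  have : Finite Q := Finite.of_surjective E.p E.surj
  set T := TN N E (SelRel P E LG) with hT
  -- the map `(c', a) ↦ p a`
  let f2 : ↥T →+ Q := (E.p.comp ((LinearMap.snd k (GQ → C) G).comp T.subtype)).toAddMonoidHom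
  have hf2 : ∀ x : ↥T, f2 x = E.p x.1.2 := fun x => rfl
  have hY2 : ∀ x, f2 x ∈ (invI N Q : Set Q) := by
    intro x s hs
    rw [hf2, ← E.hp]
    have h1 := x.2.2 s hs
    have h2 : G.ρ s x.1.2 = x.1.2 + E.i (x.1.1 s) := by rw [h1]; abel
    rw [h2, map_add]
    have h3 : E.p (E.i (x.1.1 s)) = 0 := (E.exact _).2 ⟨_, rfl⟩
    rw [h3, add_zero]
  -- its kernel, mapped to the cocycles of `C`
  let f3 : ↥f2.ker →+ (GQ → C) :=
    (((LinearMap.fst k (GQ → C) G).comp T.subtype).toAddMonoidHom).comp f2.ker.subtype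
  have hf3 : ∀ x : ↥f2.ker, f3 x = x.1.1.1 := fun x => rfl
  have hlift : ∀ x : ↥f2.ker, ∃ a0 : C, E.i a0 = x.1.1.2 := by
    intro x
    have h0 : f2 x.1 = 0 := x.2
    rw [hf2] at h0
    exact (E.exact _).1 h0
  have hY3 : ∀ x, f3 x ∈ (SelL P C LC : Set (GQ → C)) := by
    intro x
    obtain ⟨a0, ha0⟩ := hlift x
    rw [hf3]
    refine mem_SelL_of_mem_SelRel E LC LG hpull hunr x.1.2.1 a0 fun s hs => ?_
    rw [ha0]
    exact x.1.2.2 s hs
  have hmem3 : ∀ x : f3.ker, Classical.choose (hlift x.1) ∈ invI N C := by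
    intro x s hs
    apply E.inj
    have h0 : f3 x.1 = 0 := x.2
    rw [hf3] at h0
    have h1 := x.1.1.2.2 s hs
    rw [h0, Pi.zero_apply, map_zero] at h1
    rw [E.hi, Classical.choose_spec (hlift x.1)]
    exact (sub_eq_zero.1 h1.symm)
  let e3 : f3.ker → ↥(invI N C) := fun x => ⟨Classical.choose (hlift x.1), hmem3 x⟩
  have he3 : Function.Injective e3 := by
    intro x y h
    have h1 : Classical.choose (hlift x.1) = Classical.choose (hlift y.1) :=
      congrArg Subtype.val h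
    have h2 : x.1.1.1.2 = y.1.1.1.2 := by
      rw [← Classical.choose_spec (hlift x.1), ← Classical.choose_spec (hlift y.1), h1]
    have hx0 : f3 x.1 = 0 := x.2
    have hy0 : f3 y.1 = 0 := y.2
    rw [hf3] at hx0 hy0
    apply Subtype.ext
    apply Subtype.ext
    apply Subtype.ext
    exact Prod.ext (hx0.trans hy0.symm) h2
  obtain ⟨hK1, hK2⟩ := card_le_of_ker_range f3 _ hfC hY3 e3 he3
  have : Finite ↥f2.ker := hK1
  obtain ⟨hT1, hT2⟩ := card_le_of_ker_range f2 _ (Set.toFinite _) hY2 (fun x => x)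
    Function.injective_id
  have : Finite ↥T := hT1
  -- the injection `(c', x) ↦ (c', a(c') + x)`
  have hun : ∀ c' : ↥(SelRel P E LG), ∃ a : G, ∀ s ∈ Iq N, E.i (c'.1 s) = G.ρ s a - a :=
    fun c' => ((mem_SelRel_iff E LG).1 c'.2).2.1 N hNP
  let g : ↥(SelRel P E LG) × ↥(invI N G) → ↥T := fun y =>
    ⟨(y.1.1, Classical.choose (hun y.1) + y.2.1), by
      refine ⟨y.1.2, fun s hs => ?_⟩
      change E.i (y.1.1 s) = G.ρ s (Classical.choose (hun y.1) + y.2.1) -
        (Classical.choose (hun y.1) + y.2.1)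
      rw [Classical.choose_spec (hun y.1) s hs, map_add, y.2.2 s hs]
      abel⟩
  have hg : Function.Injective g := by
    intro y z h
    have h1 : y.1.1 = z.1.1 := congrArg (fun t : ↥T => t.1.1) h
    have h1' : y.1 = z.1 := Subtype.ext h1
    have h2 : Classical.choose (hun y.1) + y.2.1 = Classical.choose (hun z.1) + z.2.1 :=
      congrArg (fun t : ↥T => t.1.2) h
    rw [h1'] at h2
    exact Prod.ext h1' (Subtype.ext (add_left_cancel h2))
  have hfin : Finite ↥(SelRel P E LG) :=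
    Finite.of_injective (fun c' => g (c', 0)) fun a b h => (Prod.ext_iff.1 (hg h)).1
  refine ⟨Set.finite_coe_iff.mp hfin, ?_⟩
  calc Nat.card (SelRel P E LG) * Nat.card (invI N G)
      = Nat.card (↥(SelRel P E LG) × ↥(invI N G)) := (Nat.card_prod _ _).symm
    _ ≤ Nat.card ↥T := Nat.card_le_card_of_injective g hg
    _ ≤ Nat.card ↥f2.ker * Nat.card (invI N Q) := hT2
    _ ≤ (Nat.card (invI N C) * Nat.card (SelL P C LC)) * Nat.card (invI N Q) :=
        Nat.mul_le_mul_right _ hK2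
    _ = Nat.card (SelL P C LC) * Nat.card (invI N C) * Nat.card (invI N Q) := by ring

/-- **The abstract descent step.** -/
theorem step (hNP : N ≠ P) [Finite G]
    (hpush : ∀ c ∈ LG, (fun s => E.p (c s)) ∈ LQ)
    (hpull : ∀ c' : GQ → C, (fun s => E.i (c' s)) ∈ LG → c' ∈ LC)
    (hunr : ∀ (q : ℕ) [Fact q.Prime], q ≠ N → q ≠ P → ∀ s ∈ Iq q, ∀ x : G, G.ρ s x = x)
    (hfC : (SelL P C LC : Set (GQ → C)).Finite) (hfQ : (SelL P Q LQ : Set (GQ → Q)).Finite) :
    (SelL P G LG : Set (GQ → G)).Finite ∧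
      Nat.card (SelL P G LG) * Nat.card (invI N G) ≤
        Nat.card (SelL P C LC) * Nat.card (invI N C) *
          (Nat.card (SelL P Q LQ) * Nat.card (invI N Q)) := by
  obtain ⟨hR1, hR2⟩ := card_SelRel_mul_le (N := N) E LC LG hNP hpull hunr hfC
  obtain ⟨hG1, hG2⟩ := card_SelL_le E LG LQ hpush hR1 hfQ
  refine ⟨hG1, ?_⟩
  calc Nat.card (SelL P G LG) * Nat.card (invI N G)
      ≤ (Nat.card (SelRel P E LG) * Nat.card (SelL P Q LQ)) * Nat.card (invI N G) :=
        Nat.mul_le_mul_right _ hG2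
    _ = (Nat.card (SelRel P E LG) * Nat.card (invI N G)) * Nat.card (SelL P Q LQ) := by ring
    _ ≤ (Nat.card (SelL P C LC) * Nat.card (invI N C) * Nat.card (invI N Q)) *
          Nat.card (SelL P Q LQ) := Nat.mul_le_mul_right _ hR2
    _ = _ := by ring

end Step

end Fermat.Agent.S15.D
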