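/-
PROJECT M (S15), block [D] (helper18), part 2: THE CONDITION AT `P` AND THE EXTENSION STEP.

* `IsUnitCoc P A b` : for every character `d : A → ℚ̄ˣ`, the function `s ↦ d (b s)` on the inertia
  group at `P` is the Kummer cocycle `s ↦ s w / w` of a `P`-adic UNIT `w` of `ℚ̄`;
* `LP P A A0`       : functions with values in `A0` on `I_P` which are unit cocycles;
* `SelD P A A0`     : Selmer cocycles: unramified outside `P`, in `LP` at `P`;
* `OrdDatum P N A A0` : `A` is unramified outside `{N, P}`, `I_P` acts trivially on `A / A0`, and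
  `A` is "peu ramifié": all `s ↦ s g - g` are unit cocycles;
* `Good P N A A0`   : `|SelD| * |A^(I_N)| ≤ |A0| * |A|` (with finiteness);
* `Good.of_exact`   : `Good` is closed under extensions of ordinary data.

Characters are taken on ALL of `A`; since `ℚ̄ˣ` is divisible (`exists_extension`) this is the same
as characters of `A0`, and it makes the conditions stable under sub-objects and quotients.
The prime `P = 2` is allowed.
-/
import Fermat.Agent.S15.D.Step

set_option autoImplicit false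

namespace Fermat.Agent.S15.D

open Fermat.Agent.S56.Coh Fermat.Agent.CFT.LC Fermat.Agent.CFT.Bridge
  Fermat.Agent.CFT.LocalBridge

/-! ### Extension of characters -/

/-- The group `ℚ̄ˣ` is divisible. -/
noncomputable def divisibleUnitsQbar : DivisibleBy (Additive Qbarˣ) ℤ :=
  haveI : DivisibleBy (Additive Qbarˣ) ℕ := divisibleByOfSMulRightSurj _ _ fun {n} hn x => by
    obtain ⟨z, hz⟩ := IsAlgClosed.exists_pow_nat_eq ((Additive.toMul x : Qbarˣ) : Qbar)
      (Nat.pos_of_ne_zero hn)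
    have hz0 : z ≠ 0 := by
      rintro rfl
      rw [zero_pow hn] at hz
      exact (Additive.toMul x : Qbarˣ).ne_zero hz.symm
    refine ⟨Additive.ofMul (Units.mk0 z hz0), ?_⟩
    change Additive.ofMul ((Units.mk0 z hz0) ^ n) = x
    apply Additive.toMul.injective
    apply Units.ext
    simpa using hz
  AddGroup.divisibleByIntOfDivisibleByNat _

/-- Characters with values in `ℚ̄ˣ` extend along injections. -/
theorem exists_extension {X Y : Type} [AddCommGroup X] [AddCommGroup Y] (f : X →+ Y)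
    (hf : Function.Injective f) (d : X →+ Additive Qbarˣ) :
    ∃ d' : Y →+ Additive Qbarˣ, ∀ x, d' (f x) = d x := by
  haveI := divisibleUnitsQbar
  obtain ⟨d', hd'⟩ :=
    (Module.Baer.of_divisible (Additive Qbarˣ)).extension_property_addMonoidHom f hf d
  exact ⟨d', fun x => DFunLike.congr_fun hd' x⟩

variable {k : Type} [CommRing k]

/-! ### Unit cocycles -/

/-- `b` restricted to the inertia group at `P` is, through every character of `A`, the Kummer
cocycle of a `P`-adic unit of `ℚ̄`. -/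
def IsUnitCoc (P : ℕ) [Fact P.Prime] (A : Rep.{0} k GQ) (b : GQ → A) : Prop :=
  ∀ d : A →+ Additive Qbarˣ, ∃ w : Qbar, w ≠ 0 ∧ (padicPlace P).valuation w = 1 ∧
    ∀ s ∈ Iq P, s w = ((Additive.toMul (d (b s)) : Qbarˣ) : Qbar) * w

section UnitCoc

variable {P : ℕ} [Fact P.Prime] {A B : Rep.{0} k GQ}

lemma isUnitCoc_zero : IsUnitCoc P A (0 : GQ → A) := fun d =>
  ⟨1, one_ne_zero, map_one _, fun s _ => by simp⟩

lemma IsUnitCoc.add {b b' : GQ → A} (h : IsUnitCoc P A b) (h' : IsUnitCoc P A b') :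
    IsUnitCoc P A (b + b') := by
  intro d
  obtain ⟨w, hw0, hw1, hw⟩ := h d
  obtain ⟨w', hw0', hw1', hw'⟩ := h' d
  refine ⟨w * w', mul_ne_zero hw0 hw0', by rw [map_mul, hw1, hw1', mul_one], fun s hs => ?_⟩
  rw [map_mul, hw s hs, hw' s hs, Pi.add_apply, map_add, toMul_add, Units.val_mul]
  ring

/-- Unit cocycles are stable under composition with additive maps. -/
lemma IsUnitCoc.comp {b : GQ → A} (h : IsUnitCoc P A b) (f : A →+ B) :
    IsUnitCoc P B (fun s => f (b s)) := by
  intro d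
  obtain ⟨w, hw0, hw1, hw⟩ := h (d.comp f)
  exact ⟨w, hw0, hw1, fun s hs => hw s hs⟩

/-- Unit cocycles can be detected after an injection. -/
lemma IsUnitCoc.of_comp {b : GQ → A} (f : A →+ B) (hf : Function.Injective f)
    (h : IsUnitCoc P B (fun s => f (b s))) : IsUnitCoc P A b := by
  intro d
  obtain ⟨d', hd'⟩ := exists_extension f hf d
  obtain ⟨w, hw0, hw1, hw⟩ := h d'
  refine ⟨w, hw0, hw1, fun s hs => ?_⟩
  rw [hw s hs, hd']

lemma IsUnitCoc.smul {b : GQ → A} (h : IsUnitCoc P A b) (r : k) : IsUnitCoc P A (r • b) :=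
  h.comp (DistribMulAction.toAddMonoidHom A r)

end UnitCoc

/-! ### The condition at `P`, Selmer cocycles, ordinary data -/

/-- The condition at `P`: values in `A0` on the inertia group, and a unit cocycle there. -/
def LP (P : ℕ) [Fact P.Prime] (A : Rep.{0} k GQ) (A0 : Submodule k A) :
    Submodule k (GQ → A) where
  carrier := {c | (∀ s ∈ Iq P, c s ∈ A0) ∧ IsUnitCoc P A c}
  add_mem' := by
    rintro c c' ⟨h1, h2⟩ ⟨h1', h2'⟩
    exact ⟨fun s hs => A0.add_mem (h1 s hs) (h1' s hs), h2.add h2'⟩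
  zero_mem' := ⟨fun s _ => A0.zero_mem, isUnitCoc_zero⟩
  smul_mem' := by
    rintro r c ⟨h1, h2⟩
    exact ⟨fun s hs => A0.smul_mem r (h1 s hs), h2.smul r⟩

lemma mem_LP_iff {P : ℕ} [Fact P.Prime] {A : Rep.{0} k GQ} {A0 : Submodule k A} {c : GQ → A} :
    c ∈ LP P A A0 ↔ (∀ s ∈ Iq P, c s ∈ A0) ∧ IsUnitCoc P A c := Iff.rfl

/-- The Selmer cocycles of the descent: unramified outside `P`, unit cocycles into `A0` at `P`. -/
def SelD (P : ℕ) [Fact P.Prime] (A : Rep.{0} k GQ) (A0 : Submodule k A) : Submodule k (GQ → A) :=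
  SelL P A (LP P A A0)

lemma mem_SelD_iff {P : ℕ} [Fact P.Prime] {A : Rep.{0} k GQ} {A0 : Submodule k A} {c : GQ → A} :
    c ∈ SelD P A A0 ↔ c ∈ Z1g A ∧ (∀ (q : ℕ) [Fact q.Prime], q ≠ P → IsUnramAt q c) ∧
      (∀ s ∈ Iq P, c s ∈ A0) ∧ IsUnitCoc P A c := Iff.rfl

/-- An ordinary datum: unramified outside `{N, P}`, inertia at `P` acts trivially modulo `A0`,
and all the coboundaries are unit cocycles on the inertia group at `P`. -/
structure OrdDatum (P N : ℕ) [Fact P.Prime] [Fact N.Prime] (A : Rep.{0} k GQ)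
    (A0 : Submodule k A) : Prop where
  unram : ∀ (q : ℕ) [Fact q.Prime], q ≠ N → q ≠ P → ∀ s ∈ Iq q, ∀ x : A, A.ρ s x = x
  inertia : ∀ s ∈ Iq P, ∀ x : A, A.ρ s x - x ∈ A0
  peu : ∀ g : A, IsUnitCoc P A (fun s => A.ρ s g - g)

/-- The inequality of the descent for `(A, A0)`. -/
def Good (P N : ℕ) [Fact P.Prime] [Fact N.Prime] (A : Rep.{0} k GQ) (A0 : Submodule k A) : Prop :=
  (SelD P A A0 : Set (GQ → A)).Finite ∧
    Nat.card (SelD P A A0) * Nat.card (invI N A) ≤ Nat.card A0 * Nat.card A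

section Exact

variable {P N : ℕ} [Fact P.Prime] [Fact N.Prime] {C G Q : Rep.{0} k GQ} (E : ExactSeq C G Q)
  (G0 : Submodule k G)

/-- Ordinary data pass to sub-objects. -/
theorem OrdDatum.sub (h : OrdDatum P N G G0) : OrdDatum P N C (G0.comap E.i) where
  unram q _ hqN hqP s hs x := E.inj (by rw [E.hi, h.unram q hqN hqP s hs])
  inertia s hs x := by
    rw [Submodule.mem_comap, map_sub, E.hi]
    exact h.inertia s hs _
  peu g := by
    refine IsUnitCoc.of_comp E.i.toAddMonoidHom E.inj ?_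
    have : (fun s => E.i.toAddMonoidHom (C.ρ s g - g)) = fun s => G.ρ s (E.i g) - E.i g := by
      funext s
      change E.i (C.ρ s g - g) = _
      rw [map_sub, E.hi]
    rw [this]
    exact h.peu _

/-- Ordinary data pass to quotients. -/
theorem OrdDatum.quot (h : OrdDatum P N G G0) : OrdDatum P N Q (G0.map E.p) where
  unram q _ hqN hqP s hs x := by
    obtain ⟨y, rfl⟩ := E.surj x
    rw [← E.hp, h.unram q hqN hqP s hs]
  inertia s hs x := by
    obtain ⟨y, rfl⟩ := E.surj x
    rw [← E.hp, ← map_sub]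
    exact Submodule.mem_map_of_mem (h.inertia s hs y)
  peu x := by
    obtain ⟨y, rfl⟩ := E.surj x
    have : (fun s => Q.ρ s (E.p y) - E.p y) = fun s => E.p.toAddMonoidHom (G.ρ s y - y) := by
      funext s
      change _ = E.p (G.ρ s y - y)
      rw [map_sub, E.hp]
    rw [this]
    exact (h.peu y).comp _

/-- `|C| * |Q| ≤ |G|`. -/
theorem card_mul_le (E : ExactSeq C G Q) [Finite G] :
    Nat.card C * Nat.card Q ≤ Nat.card G := by
  let σ : Q → G := fun q => Classical.choose (E.surj q)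
  have hσ : ∀ q, E.p (σ q) = q := fun q => Classical.choose_spec (E.surj q)
  let g : C × Q → G := fun x => E.i x.1 + σ x.2
  have hpi : ∀ c : C, E.p (E.i c) = 0 := fun c => (E.exact _).2 ⟨c, rfl⟩
  have hg : Function.Injective g := by
    intro x y h
    have h1 : E.p (g x) = E.p (g y) := by rw [h]
    simp only [g, map_add, hpi, zero_add, hσ] at h1
    have h2 : E.i x.1 = E.i y.1 := by
      have h3 : E.i x.1 + σ x.2 = E.i y.1 + σ y.2 := h
      rw [h1] at h3
      exact add_right_cancel h3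
    exact Prod.ext (E.inj h2) h1
  rw [← Nat.card_prod]
  exact Nat.card_le_card_of_injective g hg

/-- `|G0 ∩ C| * |image of G0 in Q| ≤ |G0|`. -/
theorem card_sub_mul_le [Finite G] :
    Nat.card (G0.comap E.i) * Nat.card (G0.map E.p) ≤ Nat.card G0 := by
  have hex : ∀ q : ↥(G0.map E.p), ∃ y : G, y ∈ G0 ∧ E.p y = q.1 := fun q => q.2
  let σ : ↥(G0.map E.p) → G := fun q => Classical.choose (hex q)
  have hσ0 : ∀ q, σ q ∈ G0 := fun q => (Classical.choose_spec (hex q)).1
  have hσ : ∀ q, E.p (σ q) = q.1 := fun q => (Classical.choose_spec (hex q)).2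
  let g : ↥(G0.comap E.i) × ↥(G0.map E.p) → ↥G0 := fun x =>
    ⟨E.i x.1.1 + σ x.2, G0.add_mem x.1.2 (hσ0 x.2)⟩
  have hpi : ∀ c : C, E.p (E.i c) = 0 := fun c => (E.exact _).2 ⟨c, rfl⟩
  have hg : Function.Injective g := by
    intro x y h
    have h0 : E.i x.1.1 + σ x.2 = E.i y.1.1 + σ y.2 := congrArg Subtype.val h
    have h1 : E.p (E.i x.1.1 + σ x.2) = E.p (E.i y.1.1 + σ y.2) := by rw [h0]
    simp only [map_add, hpi, zero_add, hσ] at h1
    have h1' : x.2 = y.2 := Subtype.ext h1
    rw [h1'] at h0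
    exact Prod.ext (Subtype.ext (E.inj (add_right_cancel h0))) h1'
  rw [← Nat.card_prod]
  exact Nat.card_le_card_of_injective g hg

/-- **The extension step**: `Good` is closed under extensions of ordinary data. -/
theorem Good.of_exact (hNP : N ≠ P) [Finite G] (h : OrdDatum P N G G0)
    (hC : Good P N C (G0.comap E.i)) (hQ : Good P N Q (G0.map E.p)) : Good P N G G0 := by
  have hpush : ∀ c ∈ LP P G G0, (fun s => E.p (c s)) ∈ LP P Q (G0.map E.p) := by
    rintro c ⟨h1, h2⟩
    exact ⟨fun s hs => Submodule.mem_map_of_mem (h1 s hs), h2.comp E.p.toAddMonoidHom⟩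
  have hpull : ∀ c' : GQ → C, (fun s => E.i (c' s)) ∈ LP P G G0 → c' ∈ LP P C (G0.comap E.i) := by
    rintro c' ⟨h1, h2⟩
    exact ⟨fun s hs => h1 s hs, IsUnitCoc.of_comp E.i.toAddMonoidHom E.inj h2⟩
  obtain ⟨h1, h2⟩ := step (N := N) E (LP P C (G0.comap E.i)) (LP P G G0) (LP P Q (G0.map E.p))
    hNP hpush hpull h.unram hC.1 hQ.1
  refine ⟨h1, ?_⟩
  calc Nat.card (SelD P G G0) * Nat.card (invI N G)
      ≤ Nat.card (SelD P C (G0.comap E.i)) * Nat.card (invI N C) *
          (Nat.card (SelD P Q (G0.map E.p)) * Nat.card (invI N Q)) := h2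
    _ ≤ (Nat.card (G0.comap E.i) * Nat.card C) * (Nat.card (G0.map E.p) * Nat.card Q) :=
        Nat.mul_le_mul hC.2 hQ.2
    _ = (Nat.card (G0.comap E.i) * Nat.card (G0.map E.p)) * (Nat.card C * Nat.card Q) := by ring
    _ ≤ Nat.card G0 * Nat.card G := Nat.mul_le_mul (card_sub_mul_le E G0) (card_mul_le E)

end Exact

end Fermat.Agent.S15.D
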