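/-
PROJECT M (S15), block [D] (helper18), part 5: FROM COCYCLES TO CLASSES.

For an ordinary datum `(A, A0)` all coboundaries are Selmer cocycles (`B1g_le_SelD`), and for a
smooth finite module `|A| ≤ |B1g A| * |H⁰(ℚ, A)|`.  Hence the inequality `Good` becomes

  `|SelD / B1g| * |A^(I_N)| ≤ |A0| * |H⁰(ℚ, A)|`.
-/
import Fermat.Agent.S15.D.UnitCond
import Fermat.Agent.S56.Coh.Lemmas

set_option autoImplicit false

namespace Fermat.Agent.S15.D

open Fermat.Agent.S56.Coh Fermat.Agent.CFT.LC Fermat.Agent.CFT.Bridge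
  Fermat.Agent.CFT.LocalBridge groupCohomology

variable {k : Type} [CommRing k]

/-- The invariants of the whole Galois group. -/
def invG (A : Rep.{0} k GQ) : Submodule k A where
  carrier := {x | ∀ s : GQ, A.ρ s x = x}
  add_mem' := fun {a b} ha hb s => by rw [map_add, ha s, hb s]
  zero_mem' := fun s => map_zero _
  smul_mem' := fun r a ha s => by rw [map_smul, ha s]

lemma mem_invG_iff {A : Rep.{0} k GQ} {x : A} : x ∈ invG A ↔ ∀ s : GQ, A.ρ s x = x := Iff.rfl

variable {P N : ℕ} [Fact P.Prime] [Fact N.Prime] {A : Rep.{0} k GQ} {A0 : Submodule k A}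

/-- Coboundaries are Selmer cocycles of an ordinary datum. -/
theorem B1g_le_SelD (h : OrdDatum P N A A0) : B1g A ≤ SelD P A A0 := by
  intro c hc
  obtain ⟨a, _, rfl⟩ := (mem_B₁_iff c).1 hc
  have hfun : ((d₀₁ A).hom a : GQ → A) = fun s => A.ρ s a - a := by
    funext s
    simp only [d₀₁_hom_apply]
  refine ⟨B1g_le_Z1g hc, fun q _ _ => isUnramAt_of_mem_B1g hc, fun s hs => ?_, ?_⟩
  · rw [hfun]
    exact h.inertia s hs a
  · rw [hfun]
    exact h.peu a

/-- `|A| ≤ |B1g A| * |H⁰|` for a smooth finite module. -/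
theorem card_le_B1g_mul [Finite A] (hsm : ∀ a : A, IsLC₀ levelsAll A a) :
    Nat.card A ≤ Nat.card (B1g A) * Nat.card (invG A) := by
  let f : A →+ (GQ → A) := (d₀₁ A).hom.toAddMonoidHom
  have hf : ∀ a : A, f a = fun s => A.ρ s a - a := by
    intro a
    funext s
    change (d₀₁ A).hom a s = _
    simp only [d₀₁_hom_apply]
  have hY : ∀ a, f a ∈ (B1g A : Set (GQ → A)) := fun a => (mem_B₁_iff _).2 ⟨a, hsm a, rfl⟩
  have hker : ∀ a : f.ker, a.1 ∈ invG A := by
    intro a s
    have h0 : f a.1 = 0 := a.2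
    rw [hf] at h0
    exact sub_eq_zero.1 (congrFun h0 s)
  let e : f.ker → ↥(invG A) := fun a => ⟨a.1, hker a⟩
  have he : Function.Injective e := fun a b hab =>
    Subtype.ext (congrArg (fun z : ↥(invG A) => z.1) hab)
  have := finite_B1g (A := A)
  have h1 := (card_le_of_ker_range f _ (Set.toFinite _) hY e he).2
  rw [mul_comm] at h1
  exact h1

/-- **The descent inequality for classes.** -/
theorem Good.classes [Finite A] (h : OrdDatum P N A A0) (hsm : ∀ a : A, IsLC₀ levelsAll A a)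
    (hg : Good P N A A0) :
    Nat.card (↥(SelD P A A0) ⧸ (B1g A).comap (SelD P A A0).subtype) * Nat.card (invI N A) ≤
      Nat.card A0 * Nat.card (invG A) := by
  have := finite_B1g (A := A)
  have hb : 0 < Nat.card ↥(B1g A) := Nat.card_pos
  have h1 := card_eq_of_B1g_le (SelD P A A0) (B1g_le_SelD h)
  have h2 := hg.2
  rw [h1] at h2
  have h3 := card_le_B1g_mul (A := A) hsm
  refine Nat.le_of_mul_le_mul_left ?_ hb
  calc Nat.card ↥(B1g A) *
        (Nat.card (↥(SelD P A A0) ⧸ (B1g A).comap (SelD P A A0).subtype) * Nat.card (invI N A))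
      = Nat.card ↥(B1g A) * Nat.card (↥(SelD P A A0) ⧸ (B1g A).comap (SelD P A A0).subtype) *
          Nat.card (invI N A) := by ring
    _ ≤ Nat.card A0 * Nat.card A := h2
    _ ≤ Nat.card A0 * (Nat.card ↥(B1g A) * Nat.card (invG A)) := Nat.mul_le_mul_left _ h3
    _ = Nat.card ↥(B1g A) * (Nat.card A0 * Nat.card (invG A)) := by ring

end Fermat.Agent.S15.D
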