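/-
PROJECT M (S15), block [D] (formal descent), leaf [D-base] (helper23): THE BASE CASES OVER `ℚ`,
ETALE TYPE.

`ET P` is the trivial `Gal(ℚ̄/ℚ)`-module `ℤ/P`.  On main's cocycle model (`Coh/Defs`):

* `eq_zero_of_forall_isUnramAt` (B1): a cocycle (= homomorphism) unramified at every prime is zero
  (Minkowski);
* `exists_smul_eq_of_unramOutside`, `card_unramOutsideET_le` (B2): the homomorphisms unramified
  outside one prime `N ≠ P` form a group of order at most `P` (tame inertia is cyclic + (B1)).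
-/
import Fermat.Agent.S56.Coh.Defs
import Fermat.Agent.S13.Minkowski
import Fermat.Agent.S56.Base.Pairing.Dict.Glob
import Fermat.Agent.S56.Unip.TameCyclic

set_option autoImplicit false

namespace Fermat.Agent.S15.D.Base

open CategoryTheory groupCohomology
open Fermat.Agent.CFT.LC Fermat.Agent.CFT.Bridge Fermat.Agent.CFT.LocalBridge
open Fermat.Agent.S56.Coh

variable (P : ℕ) [Fact P.Prime]

/-- The trivial module `ℤ/P`. -/
noncomputable abbrev ET : Rep.{0} (ZMod P) GQ := Rep.trivial (ZMod P) GQ (ZMod P)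

variable {P}

/-- A cocycle with values in the trivial module is a homomorphism. -/
lemma map_mul_of_mem_Z1g {c : GQ → ET P} (hc : c ∈ Z1g (ET P)) (g h : GQ) :
    c (g * h) = c g + c h := by
  have h1 := ((mem_Z1g_iff c).1 hc).1 g h
  rw [h1, add_comm]
  rfl

lemma map_one_of_mem_Z1g {c : GQ → ET P} (hc : c ∈ Z1g (ET P)) : c 1 = 0 := by
  have h := map_mul_of_mem_Z1g hc 1 1
  rw [mul_one] at h
  exact left_eq_add.1 h

/-- **(B1)** A homomorphism `Gal(ℚ̄/ℚ) → ℤ/P` which is unramified at every prime is zero. -/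
theorem eq_zero_of_forall_isUnramAt {c : GQ → ET P} (hc : c ∈ Z1g (ET P))
    (h : ∀ (q : ℕ) [Fact q.Prime], IsUnramAt q c) : c = 0 := by
  obtain ⟨U₀, hU₀⟩ := levelsAll.nonempty
  have hmem := Fermat.Agent.S56.Base.Pairing.Dict.Glob.mem_Z₁_levelsS (∅ : Finset Nat.Primes)
    (ET P) ⟨U₀, hU₀, fun _ _ _ => rfl⟩ (fun _ _ _ _ _ _ => rfl) c hc
    (fun q _ _ => h q)
  obtain ⟨U, ⟨hUn, F, hF, rfl⟩, hlc, -⟩ := ((mem_Z₁_iff c).1 hmem).2
  have hbot := Fermat.Agent.S13.Minkowski.eq_bot_of_isUnramifiedOutside_empty F hF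
  funext g
  have h1 := hlc 1 g (by rw [hbot, IntermediateField.fixingSubgroup_bot]; exact Subgroup.mem_top g)
  rw [one_mul, map_one_of_mem_Z1g hc] at h1
  exact h1

/-- For the trivial module: unramified at `q` iff zero on the inertia group. -/
lemma isUnramAt_ET_iff {q : ℕ} [Fact q.Prime] {c : GQ → ET P} :
    IsUnramAt q c ↔ ∀ s ∈ Iq q, c s = 0 := by
  constructor
  · rintro ⟨a, ha⟩ s hs
    rw [ha s hs]
    exact sub_self a
  · intro h
    exact ⟨0, fun s hs => by rw [h s hs, map_zero, sub_zero]⟩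

/-- **(B2), key form.** Two homomorphisms `Gal(ℚ̄/ℚ) → ℤ/P` unramified outside one prime `N ≠ P`
are proportional (tame inertia at `N` is cyclic, then (B1)). -/
theorem exists_smul_eq_of_unramOutside (N : ℕ) [Fact N.Prime] (hNP : N ≠ P)
    {c c' : GQ → ET P} (hc : c ∈ Z1g (ET P)) (hc' : c' ∈ Z1g (ET P))
    (h : ∀ (q : ℕ) [Fact q.Prime], q ≠ N → IsUnramAt q c)
    (h' : ∀ (q : ℕ) [Fact q.Prime], q ≠ N → IsUnramAt q c') (hc0 : c ≠ 0) :
    ∃ r : ZMod P, c' = r • c := by
  have hP : P.Prime := Fact.out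
  have hN : N.Prime := Fact.out
  -- the pair `(c, c')` as a homomorphism
  let f : GQ →* Multiplicative (ZMod P × ZMod P) :=
    { toFun := fun g => Multiplicative.ofAdd ((c g : ZMod P), (c' g : ZMod P))
      map_one' := by
        rw [map_one_of_mem_Z1g hc, map_one_of_mem_Z1g hc']
        rfl
      map_mul' := fun g g' => by
        rw [map_mul_of_mem_Z1g hc, map_mul_of_mem_Z1g hc']
        rfl }
  have hf_apply : ∀ g, f g = Multiplicative.ofAdd ((c g : ZMod P), (c' g : ZMod P)) := fun _ => rfl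
  -- it factors through a finite level
  have hf : GaloisFactorsThroughFiniteLevel f := by
    obtain ⟨U, ⟨-, F, hF, rfl⟩, hlc, -⟩ := ((mem_Z1g_iff c).1 hc).2
    obtain ⟨U', ⟨-, F', hF', rfl⟩, hlc', -⟩ := ((mem_Z1g_iff c').1 hc').2
    refine ⟨F ⊔ F', IntermediateField.finiteDimensional_sup F F', fun σ hσ => ?_⟩
    have h1 : σ ∈ F.fixingSubgroup :=
      (IntermediateField.mem_fixingSubgroup_iff _ _).2 fun x hx => hσ x (le_sup_left (a := F) hx)
    have h2 : σ ∈ F'.fixingSubgroup :=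
      (IntermediateField.mem_fixingSubgroup_iff _ _).2 fun x hx => hσ x (le_sup_right (b := F') hx)
    have h3 := hlc 1 σ h1
    have h4 := hlc' 1 σ h2
    rw [one_mul, map_one_of_mem_Z1g hc] at h3
    rw [one_mul, map_one_of_mem_Z1g hc'] at h4
    rw [hf_apply, h3, h4]
    rfl
  have hexp : ∀ σ ∈ (padicPlace N).inertiaSubgroupIn ℚ, f σ ^ P = 1 := by
    intro σ _
    rw [hf_apply, ← ofAdd_nsmul]
    have : P • ((c σ : ZMod P), (c' σ : ZMod P)) = 0 := by
      ext
      · simp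
      · simp
    rw [this]
    rfl
  obtain ⟨τ, hτ, hgen⟩ := Fermat.Agent.S56.Unip.TameCyclic.exists_generator_of_exponent hN
    (padicPlace N) (liesOverPrime_padicPlace N) hP hNP.symm f hf hexp
  have hgen' : ∀ σ ∈ Iq N, ∃ m : ℕ, (c σ : ZMod P) = m • (c τ : ZMod P) ∧
      (c' σ : ZMod P) = m • (c' τ : ZMod P) := by
    intro σ hσ
    obtain ⟨m, hm⟩ := hgen σ hσ
    refine ⟨m, ?_⟩
    rw [hf_apply, hf_apply, ← ofAdd_nsmul] at hm
    have hm' := Multiplicative.ofAdd.injective hm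
    exact ⟨congrArg Prod.fst hm', congrArg Prod.snd hm'⟩
  have hall : ∀ {d : GQ → ET P}, d ∈ Z1g (ET P) →
      (∀ (q : ℕ) [Fact q.Prime], q ≠ N → IsUnramAt q d) → (∀ s ∈ Iq N, d s = 0) → d = 0 := by
    intro d hd hd1 hd2
    refine eq_zero_of_forall_isUnramAt hd fun q _ => ?_
    by_cases hq : q = N
    · subst hq
      exact isUnramAt_ET_iff.2 hd2
    · exact hd1 q hq
  by_cases hτ0 : (c τ : ZMod P) = 0
  · -- then `c` is unramified at `N` as well
    exfalso
    refine hc0 (hall hc h fun s hs => ?_)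
    obtain ⟨m, hm, -⟩ := hgen' s hs
    rw [hm, hτ0, smul_zero]
  · refine ⟨(c' τ : ZMod P) * (c τ : ZMod P)⁻¹, ?_⟩
    set r : ZMod P := (c' τ : ZMod P) * (c τ : ZMod P)⁻¹ with hr
    have hd : c' + (-r) • c ∈ Z1g (ET P) :=
      Submodule.add_mem _ hc' (Submodule.smul_mem _ _ hc)
    have h0 := hall hd (fun q _ hq => (h' q hq).add ((h q hq).smul (-r))) (fun s hs => by
      obtain ⟨m, hm, hm'⟩ := hgen' s hs
      show (c' s : ZMod P) + (-r) • (c s : ZMod P) = 0
      rw [hm, hm', smul_eq_mul, hr]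
      have : (c' τ : ZMod P) * (c τ : ZMod P)⁻¹ * (c τ : ZMod P) = (c' τ : ZMod P) := by
        rw [mul_assoc, inv_mul_cancel₀ hτ0, mul_one]
      rw [nsmul_eq_mul, nsmul_eq_mul]
      linear_combination (-(m : ZMod P)) * this)
    have h1 : c' = c' + (-r) • c + r • c := by
      rw [neg_smul]; abel
    rw [h1, h0, zero_add]

/-- The homomorphisms `Gal(ℚ̄/ℚ) → ℤ/P` unramified outside `N`. -/
def unramOutsideET (P : ℕ) [Fact P.Prime] (N : ℕ) : Submodule (ZMod P) (GQ → ET P) where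
  carrier := {c | c ∈ Z1g (ET P) ∧ ∀ (q : ℕ) [Fact q.Prime], q ≠ N → IsUnramAt q c}
  add_mem' := fun {c c'} hc hc' =>
    ⟨Submodule.add_mem _ hc.1 hc'.1, fun q _ hq => (hc.2 q hq).add (hc'.2 q hq)⟩
  zero_mem' := ⟨Submodule.zero_mem _, fun q _ _ => isUnramAt_zero q⟩
  smul_mem' := fun r c hc => ⟨Submodule.smul_mem _ r hc.1, fun q _ hq => (hc.2 q hq).smul r⟩

lemma mem_unramOutsideET_iff (N : ℕ) (c : GQ → ET P) :
    c ∈ unramOutsideET P N ↔
      c ∈ Z1g (ET P) ∧ ∀ (q : ℕ) [Fact q.Prime], q ≠ N → IsUnramAt q c := Iff.rfl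

/-- **(B2)** There are at most `P` homomorphisms `Gal(ℚ̄/ℚ) → ℤ/P` unramified outside one prime
`N ≠ P`. -/
theorem card_unramOutsideET_le (N : ℕ) [Fact N.Prime] (hNP : N ≠ P) :
    Nat.card (unramOutsideET P N) ≤ P := by
  have hP : P.Prime := Fact.out
  haveI : NeZero P := ⟨hP.ne_zero⟩
  by_cases hex : ∃ c₀ : unramOutsideET P N, c₀ ≠ 0
  · obtain ⟨c₀, hc₀⟩ := hex
    have hc₀' : (c₀ : GQ → ET P) ≠ 0 := fun h0 => hc₀ (Subtype.ext h0)
    have hsurj : Function.Surjective (fun r : ZMod P => r • c₀) := by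
      intro c
      obtain ⟨r, hr⟩ := exists_smul_eq_of_unramOutside N hNP c₀.2.1 c.2.1 c₀.2.2 c.2.2 hc₀'
      exact ⟨r, Subtype.ext hr.symm⟩
    calc Nat.card (unramOutsideET P N) ≤ Nat.card (ZMod P) :=
          Nat.card_le_card_of_surjective _ hsurj
      _ = P := Nat.card_zmod P
  · push_neg at hex
    have : Subsingleton (unramOutsideET P N) := ⟨fun a b => by rw [hex a, hex b]⟩
    rw [Nat.card_unique]
    exact hP.one_lt.le

/-- Coboundaries with values in the trivial module vanish. -/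
lemma B1g_ET_eq_bot : B1g (ET P) = ⊥ := by
  rw [eq_bot_iff]
  intro c hc
  obtain ⟨a, -, rfl⟩ := (mem_B₁_iff c).1 hc
  rw [Submodule.mem_bot]
  funext g
  rw [d₀₁_hom_apply]
  exact sub_self a

/-- The invariants (`h⁰`) of the trivial module: everything. -/
theorem card_invariants_ET :
    Nat.card {m : ET P // ∀ g : GQ, (ET P).ρ g m = m} = P := by
  have e : {m : ET P // ∀ g : GQ, (ET P).ρ g m = m} ≃ ZMod P :=
    { toFun := fun m => m.1
      invFun := fun m => ⟨m, fun _ => rfl⟩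
      left_inv := fun _ => rfl
      right_inv := fun _ => rfl }
  rw [Nat.card_congr e, Nat.card_zmod]

end Fermat.Agent.S15.D.Base
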