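/-
PROJECT M (S15), block [D] (formal descent), leaf [D-base] (helper23): rational numbers whose
valuations are divisible by `P` (pure Mathlib).

* `exists_eq_pow_of_forall_dvd_factorization` : a natural number all of whose prime exponents are
  divisible by `k` is a `k`-th power;
* `exists_eq_pow_or_neg` : a nonzero rational number with `P ∣ v_q(a)` for all primes `q` is
  `± b ^ P`;
* `exists_eq_prime_pow_mul` : if `P ∣ v_q(a)` for all primes `q ≠ N`, then `a = ± N ^ j * b ^ P`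
  with `j < P`.
-/
import Mathlib

set_option autoImplicit false

namespace Fermat.Agent.S15.D.RatPow

/-- A natural number all of whose prime exponents are divisible by `k` is a `k`-th power. -/
theorem exists_eq_pow_of_forall_dvd_factorization {n k : ℕ} (hn : n ≠ 0)
    (h : ∀ q : ℕ, q.Prime → k ∣ n.factorization q) : ∃ m : ℕ, n = m ^ k := by
  refine ⟨n.factorization.prod fun q e => q ^ (e / k), ?_⟩
  conv_lhs => rw [← Nat.factorization_prod_pow_eq_self hn]
  rw [Finsupp.prod, Finsupp.prod, ← Finset.prod_pow]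
  refine Finset.prod_congr rfl fun q hq => ?_
  have hq' : q.Prime := Nat.prime_of_mem_primeFactors (Nat.support_factorization n ▸ hq)
  rw [← pow_mul, Nat.div_mul_cancel (h q hq')]

/-- A nonzero rational number with `P ∣ v_q(a)` for all primes `q` is `± b ^ P`. -/
theorem exists_eq_pow_or_neg {a : ℚ} (ha : a ≠ 0) {P : ℕ} (hP : P ≠ 0)
    (h : ∀ q : ℕ, q.Prime → (P : ℤ) ∣ padicValRat q a) :
    ∃ b : ℚ, b ≠ 0 ∧ (a = b ^ P ∨ a = -b ^ P) := by
  have hnum : a.num ≠ 0 := Rat.num_ne_zero.mpr ha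
  have hnat : a.num.natAbs ≠ 0 := Int.natAbs_ne_zero.mpr hnum
  have hden : a.den ≠ 0 := a.den_nz
  have hcop : a.num.natAbs.Coprime a.den := a.reduced
  -- both the numerator and the denominator have exponents divisible by `P`
  have key : ∀ q : ℕ, q.Prime →
      P ∣ a.num.natAbs.factorization q ∧ P ∣ a.den.factorization q := by
    intro q hq
    haveI : Fact q.Prime := ⟨hq⟩
    have h1 := h q hq
    rw [padicValRat_def, padicValInt] at h1
    rw [Nat.factorization_def _ hq, Nat.factorization_def _ hq]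
    by_cases hdvd : q ∣ a.num.natAbs
    · have h2 : ¬ q ∣ a.den := fun h3 =>
        hq.one_lt.ne' (Nat.eq_one_of_dvd_coprimes hcop hdvd h3)
      rw [padicValNat.eq_zero_of_not_dvd h2] at h1 ⊢
      refine ⟨?_, dvd_zero _⟩
      rw [Nat.cast_zero, sub_zero] at h1
      exact_mod_cast h1
    · rw [padicValNat.eq_zero_of_not_dvd hdvd] at h1 ⊢
      refine ⟨dvd_zero _, ?_⟩
      rw [Nat.cast_zero, zero_sub, dvd_neg] at h1
      exact_mod_cast h1
  obtain ⟨m₁, hm₁⟩ := exists_eq_pow_of_forall_dvd_factorization hnat fun q hq => (key q hq).1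
  obtain ⟨m₂, hm₂⟩ := exists_eq_pow_of_forall_dvd_factorization hden fun q hq => (key q hq).2
  have hm₂0 : (m₂ : ℚ) ≠ 0 := by
    intro h0
    have : m₂ = 0 := by exact_mod_cast h0
    rw [this, zero_pow hP] at hm₂
    exact hden hm₂
  have hm₁0 : (m₁ : ℚ) ≠ 0 := by
    intro h0
    have : m₁ = 0 := by exact_mod_cast h0
    rw [this, zero_pow hP] at hm₁
    exact hnat hm₁
  refine ⟨(m₁ : ℚ) / m₂, div_ne_zero hm₁0 hm₂0, ?_⟩
  have ha' : a = (a.num : ℚ) / (a.den : ℚ) := (Rat.num_div_den a).symm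
  have hdenq : (a.den : ℚ) = (m₂ : ℚ) ^ P := by exact_mod_cast hm₂
  have hm₁z : ((a.num.natAbs : ℤ) : ℚ) = (m₁ : ℚ) ^ P := by
    rw [hm₁]
    push_cast
    rfl
  rcases Int.natAbs_eq a.num with hs | hs
  · left
    have hnumq : (a.num : ℚ) = (m₁ : ℚ) ^ P := by
      rw [hs]
      exact hm₁z
    rw [div_pow, ← hnumq, ← hdenq]
    exact ha'
  · right
    have hnumq : (a.num : ℚ) = -(m₁ : ℚ) ^ P := by
      rw [hs, Int.cast_neg, hm₁z]
    rw [div_pow, ← hdenq, ← neg_div, ← hnumq]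
    exact ha'

/-- If `P ∣ v_q(a)` for all primes `q ≠ N`, then `a = ± N ^ j * b ^ P` with `j < P`. -/
theorem exists_eq_prime_pow_mul {a : ℚ} (ha : a ≠ 0) {P : ℕ} (hP : P ≠ 0) {N : ℕ} (hN : N.Prime)
    (h : ∀ q : ℕ, q.Prime → q ≠ N → (P : ℤ) ∣ padicValRat q a) :
    ∃ j : ℕ, j < P ∧ ∃ b : ℚ, b ≠ 0 ∧
      (a = (N : ℚ) ^ j * b ^ P ∨ a = -((N : ℚ) ^ j * b ^ P)) := by
  haveI : Fact N.Prime := ⟨hN⟩
  have hP' : (P : ℤ) ≠ 0 := by exact_mod_cast hP
  have hN0 : (N : ℚ) ≠ 0 := by exact_mod_cast hN.ne_zero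
  set v : ℤ := padicValRat N a with hv
  set j : ℕ := (v % (P : ℤ)).toNat with hj
  have hjv : (j : ℤ) = v % (P : ℤ) := Int.toNat_of_nonneg (Int.emod_nonneg _ hP')
  have hjP : j < P := by
    have := Int.emod_lt_of_pos v (by positivity : (0 : ℤ) < (P : ℤ))
    rw [← hjv] at this
    exact_mod_cast this
  have ha' : a / (N : ℚ) ^ j ≠ 0 := div_ne_zero ha (pow_ne_zero _ hN0)
  have key : ∀ q : ℕ, q.Prime → (P : ℤ) ∣ padicValRat q (a / (N : ℚ) ^ j) := by
    intro q hq
    haveI : Fact q.Prime := ⟨hq⟩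
    rw [padicValRat.div ha (pow_ne_zero _ hN0), padicValRat.pow]
    by_cases hqN : q = N
    · subst hqN
      rw [padicValRat.self hq.one_lt, mul_one, hjv, ← hv]
      exact Int.dvd_self_sub_emod
    · have h0 : padicValRat q (N : ℚ) = 0 := by
        rw [padicValRat.of_nat]
        have : ¬ q ∣ N := fun hd => hqN ((Nat.prime_dvd_prime_iff_eq hq hN).1 hd)
        rw [padicValNat.eq_zero_of_not_dvd this, Nat.cast_zero]
      rw [h0, mul_zero, sub_zero]
      exact h q hq hqN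
  obtain ⟨b, hb0, hb⟩ := exists_eq_pow_or_neg ha' hP key
  refine ⟨j, hjP, b, hb0, ?_⟩
  rcases hb with hb | hb
  · left
    rw [← hb, mul_div_cancel₀ _ (pow_ne_zero _ hN0)]
  · right
    rw [← neg_eq_iff_eq_neg] at hb
    rw [← hb, mul_neg, neg_neg, mul_div_cancel₀ _ (pow_ne_zero _ hN0)]

end Fermat.Agent.S15.D.RatPow
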