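/-
PROJECT M (S15), block [D] (formal descent), leaf [D-base] (helper23): THE BASE CASES OVER `ℚ`,
MULTIPLICATIVE TYPE (Kummer theory), every prime `P` (`P = 2` included).

`MU P` is `ℤ/P` with the mod `P` cyclotomic character (main's `chiRep (cycloChar P)`), `ζ` a
primitive `P`-th root of unity of `ℚ̄`.  On main's cocycle model (`Coh/Defs`):

* `exists_norm_eq_zpow_of_fixed`  : an element fixed by the inertia group at the fixed place over
  `q` has `q`-adic norm in `q ^ ℤ` (main's local chain `LocalBridge` / `Local/PadicAlgCl`);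
* `exists_radical_of_mem_Z1g`     : Hilbert 90: every global cocycle is the Kummer cocycle of some
  `β` with `β ^ P ∈ ℚ` (main's `S56/Ord/KummerH90`);
* `UnitAt ζ c`                    : the local condition at `P` for a constituent of multiplicative
  type: `c` restricted to the inertia group at `P` is the Kummer cocycle of a unit of `ℚ̄`;
* `dvd_padicValRat_of_isUnramAt`, `dvd_padicValRat_of_unitAt` : the conditions give `P ∣ v_q(a)`;
* `exists_isKummerOf_relaxed`, `exists_isKummerOf_strict` : the shape `a ∈ ± N ^ j (ℚˣ) ^ P`;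
* `selMU hζ R`                    : the cocycles unramified outside `{P} ∪ R` with `UnitAt` at `P`;
* `card_selMU_strict_le` (B3), `card_selMU_relaxed_le` (B4) : the number of classes is at most
  `#H⁰` resp. `P * #H⁰`, where `#H⁰ = if P = 2 then 2 else 1` (`card_invariants_MU`).
-/
import Fermat.Agent.S15.D.Base
import Fermat.Agent.S15.D.RatPow
import Fermat.Agent.S56.Coh.Lemmas
import Fermat.Agent.S56.Ord.KummerH90
import Fermat.Agent.CFT.D.DualTwist
import Fermat.Agent.CFT.Bridge.Cyclo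
import Fermat.Agent.CFT.C7.UnramDict
import Fermat.Agent.CFT.Local.PadicAlgCl

set_option autoImplicit false

namespace Fermat.Agent.S15.D.BaseKummer

open CategoryTheory groupCohomology ExtCitation
open Fermat.Agent.CFT.LC Fermat.Agent.CFT.Bridge Fermat.Agent.CFT.LocalBridge
open Fermat.Agent.S56.Coh Fermat.Agent.S56.Ord.KummerH90
open Fermat.Agent.CFT.D.DualTwist
open Fermat.Agent.CFT.Local.PadicAlgClLocal

/-! ### Valuations at the fixed place -/

section Val

variable (q : ℕ) [Fact q.Prime]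

/-- The `q`-adic norm of a rational number at the fixed place. -/
theorem norm_padicEmbedding_ratCast {a : ℚ} (ha : a ≠ 0) :
    ‖padicEmbedding q (a : Qbar)‖ = (q : ℝ) ^ (-padicValRat q a) := by
  rw [map_ratCast]
  have h1 : ((a : ℚ) : PadicAlgCl q) = algebraMap ℚ_[q] (PadicAlgCl q) (a : ℚ_[q]) := by
    rw [map_ratCast]
  have ha' : (a : ℚ_[q]) ≠ 0 := by exact_mod_cast ha
  rw [h1, norm_algebraMap', Padic.norm_eq_zpow_neg_valuation ha', Padic.valuation_ratCast]

/-- **(V)** at one prime: if the inertia group at the fixed place over `q` fixes `y ≠ 0`, then the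
norm of `y` is an integral power of `q`. -/
theorem exists_norm_eq_zpow_of_fixed {y : Qbar} (hy0 : y ≠ 0)
    (hy : ∀ s ∈ Iq q, s y = y) : ∃ k : ℤ, ‖padicEmbedding q y‖ = (q : ℝ) ^ k := by
  have halg : Algebra.IsAlgebraic ℚ Qbar := AlgebraicClosure.isAlgebraic ℚ
  have hint : IsIntegral ℚ y := (halg.isAlgebraic y).isIntegral
  set F : IntermediateField ℚ Qbar := IntermediateField.adjoin ℚ {y} with hF
  haveI : FiniteDimensional ℚ F := IntermediateField.adjoin.finiteDimensional hint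
  have hle : (padicPlace q).inertiaSubgroupIn ℚ ≤ F.fixingSubgroup := by
    rw [← IntermediateField.le_iff_le, hF, IntermediateField.adjoin_simple_le_iff,
      IntermediateField.mem_fixedField_iff]
    exact fun s hs => hy s hs
  have h1 := (inertiaSubgroupIn_padicPlace_le_iff q F).1 hle
  have h2 := (localInertia_le_fixingSubgroup_iff_ramIdx q _).1 h1
  have hmem : padicEmbedding q y ∈ localLevel q F :=
    padicEmbedding_mem_localLevel q (IntermediateField.mem_adjoin_simple_self ℚ y)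
  have hne : padicEmbedding q y ≠ 0 := by
    rwa [Ne, map_eq_zero]
  exact (ramIdx_eq_one_iff_norm q _).1 h2 _ hmem hne

end Val

/-! ### Kummer theory on main's cocycle model -/

section Kummer

variable (P : ℕ) [Fact P.Prime]

/-- `μ_P` as a Galois module: `ℤ/P` with the mod `P` cyclotomic character. -/
noncomputable abbrev MU : Rep.{0} (ZMod P) GQ := chiRep (cycloChar P)

/-- The mod `P` cyclotomic character with values in `ℤ/P`. -/
noncomputable def om (σ : GQ) : ZMod P := (cycloChar P σ : ZMod P)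

variable {P}

lemma rho_MU (g : GQ) (x : MU P) : (MU P).ρ g x = om P g * x := rfl

variable {ζ : Qbar} (hζ : IsPrimitiveRoot ζ P)

include hζ

lemma map_zeta (σ : GQ) : σ ζ = zp ζ (om P σ) := apply_eq_pow_cycloChar P hζ σ

omit hζ in
lemma isCross_of_mem_Z1g {c : GQ → MU P} (hc : c ∈ Z1g (MU P)) :
    IsCross (K := ℚ) (Ω := Qbar) (om P) c := by
  obtain ⟨h1, U, ⟨-, F, hF, rfl⟩, hlc, -⟩ := (mem_Z1g_iff c).1 hc
  exact ⟨fun σ τ => h1 σ τ, F, hF, fun σ τ hτ => hlc σ τ hτ⟩

/-- **Hilbert 90 / Kummer** for global cocycles with values in `μ_P`. -/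
theorem exists_radical_of_mem_Z1g {c : GQ → MU P} (hc : c ∈ Z1g (MU P)) :
    ∃ β : Qbar, β ≠ 0 ∧ (∃ a : ℚ, (a : Qbar) = β ^ P) ∧ ∀ σ : GQ, σ β = zp ζ (c σ) * β := by
  obtain ⟨β, hβ0, ⟨a, ha⟩, hβ⟩ :=
    exists_radical (K := ℚ) (Ω := Qbar) hζ (om P) (map_zeta hζ) (isCross_of_mem_Z1g hc)
  exact ⟨β, hβ0, ⟨a, by rw [← ha, eq_ratCast]⟩, hβ⟩

omit hζ in
/-- The valuation of a Kummer generator whose quotient by a unit is fixed by inertia. -/
theorem dvd_padicValRat_of_fixed (q : ℕ) [Fact q.Prime] {β γ : Qbar} {a : ℚ}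
    (ha : (a : Qbar) = β ^ P) (hβ0 : β ≠ 0) (hγ : ‖padicEmbedding q γ‖ = 1)
    (hfix : ∀ s ∈ Iq q, s (β / γ) = β / γ) : (P : ℤ) ∣ padicValRat q a := by
  have hq : q.Prime := Fact.out
  have hγ0 : γ ≠ 0 := by
    rintro rfl
    rw [map_zero, norm_zero] at hγ
    exact zero_ne_one hγ
  have ha0 : a ≠ 0 := by
    rintro rfl
    rw [Rat.cast_zero] at ha
    exact pow_ne_zero P hβ0 ha.symm
  obtain ⟨k, hk⟩ := exists_norm_eq_zpow_of_fixed q (div_ne_zero hβ0 hγ0) hfix
  rw [map_div₀, norm_div, hγ, div_one] at hk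
  have h1 := norm_padicEmbedding_ratCast q ha0
  rw [ha, map_pow, norm_pow, hk, ← zpow_natCast, ← zpow_mul] at h1
  have hq1 : (1 : ℝ) < q := by exact_mod_cast hq.one_lt
  have h2 := zpow_right_injective₀ (by positivity : (0 : ℝ) < q) hq1.ne' h1
  exact ⟨-k, by linarith⟩

/-- A cocycle unramified at `q ≠ P` is the Kummer cocycle of a number with `P ∣ v_q`. -/
theorem dvd_padicValRat_of_isUnramAt (q : ℕ) [Fact q.Prime] (hqP : q ≠ P) {c : GQ → MU P}
    {β : Qbar} {a : ℚ} (ha : (a : Qbar) = β ^ P) (hβ0 : β ≠ 0)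
    (hβ : ∀ s ∈ Iq q, s β = zp ζ (c s) * β) (hu : IsUnramAt q c) :
    (P : ℤ) ∣ padicValRat q a := by
  have hq : q.Prime := Fact.out
  obtain ⟨m, hm⟩ := hu
  refine dvd_padicValRat_of_fixed q (γ := 1) ha hβ0 (by rw [map_one, norm_one]) fun s hs => ?_
  have hχ : cycloChar P s = 1 :=
    cycloChar_eq_one_of_mem_inertia P hq hqP (padicPlace q) (liesOverPrime_padicPlace q) hs
  have hc0 : c s = 0 := by
    rw [hm s hs, rho_MU, om, hχ, Units.val_one, one_mul, sub_self]
  rw [div_one, hβ s hs, hc0, zp_zero, one_mul]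

/-! ### The unit condition at `P` -/

/-- A root of unity has valuation one. -/
lemma valuation_zp (A : ValuationSubring Qbar) (i : ZMod P) : A.valuation (zp ζ i) = 1 := by
  have hP : P.Prime := Fact.out
  refine Fermat.Agent.S56.Unip.TameCyclic.val_pow_eq_one A hP.ne_zero ?_
  rw [← map_pow, zp_pow hζ, map_one]

/-- `c` restricted to the inertia group at the fixed place over `P` is the Kummer cocycle of a
unit: the local condition at `P` for a constituent of multiplicative type. -/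
def UnitAt (ζ : Qbar) (c : GQ → MU P) : Prop :=
  ∃ β : Qbar, (padicPlace P).valuation β = 1 ∧ ∀ s ∈ Iq P, s β = zp ζ (c s) * β

omit hζ in
lemma unitAt_iff_norm {c : GQ → MU P} :
    UnitAt ζ c ↔ ∃ β : Qbar, ‖padicEmbedding P β‖ = 1 ∧ ∀ s ∈ Iq P, s β = zp ζ (c s) * β := by
  constructor
  · rintro ⟨β, h1, h2⟩
    exact ⟨β, (Fermat.Agent.CFT.C7.UnramDict.valuation_padicPlace_eq_one_iff P β).1 h1, h2⟩
  · rintro ⟨β, h1, h2⟩
    exact ⟨β, (Fermat.Agent.CFT.C7.UnramDict.valuation_padicPlace_eq_one_iff P β).2 h1, h2⟩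

lemma unitAt_zero : UnitAt ζ (0 : GQ → MU P) :=
  ⟨1, map_one _, fun s _ => by rw [map_one, Pi.zero_apply, zp_zero, one_mul]⟩

lemma UnitAt.add {c c' : GQ → MU P} (h : UnitAt ζ c) (h' : UnitAt ζ c') : UnitAt ζ (c + c') := by
  obtain ⟨β, h1, h2⟩ := h
  obtain ⟨β', h1', h2'⟩ := h'
  refine ⟨β * β', by rw [map_mul, h1, h1', one_mul], fun s hs => ?_⟩
  rw [map_mul, h2 s hs, h2' s hs, Pi.add_apply, zp_add hζ]
  ring

lemma UnitAt.smul {c : GQ → MU P} (h : UnitAt ζ c) (r : ZMod P) : UnitAt ζ (r • c) := by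
  obtain ⟨β, h1, h2⟩ := h
  refine ⟨β ^ r.val, by rw [map_pow, h1, one_pow], fun s hs => ?_⟩
  rw [map_pow, h2 s hs, Pi.smul_apply, smul_eq_mul, zp_mul hζ, mul_pow]

/-- Coboundaries satisfy the unit condition. -/
lemma unitAt_of_mem_B1g {c : GQ → MU P} (hc : c ∈ B1g (MU P)) : UnitAt ζ c := by
  obtain ⟨m, -, rfl⟩ := (mem_B₁_iff c).1 hc
  refine ⟨zp ζ m, valuation_zp hζ _ m, fun s _ => ?_⟩
  rw [map_zp hζ (om P) (map_zeta hζ), ← zp_add hζ]
  congr 1
  have h1 : (d₀₁ (MU P)).hom m s = om P s * m - m := by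
    rw [d₀₁_hom_apply, rho_MU]
  rw [h1]
  ring

/-- The character `i ↦ ζ ^ i` of `μ_P` with values in the units of `ℚ̄`. -/
noncomputable def zpHom : MU P →+ Additive Qbarˣ where
  toFun i := Additive.ofMul (Units.mk0 (zp ζ i) (zp_ne_zero hζ i))
  map_zero' := by
    rw [← ofMul_one]
    congr 1
    ext
    exact zp_zero
  map_add' i j := by
    rw [← ofMul_mul]
    congr 1
    ext
    exact zp_add hζ i j

lemma zpHom_apply (i : MU P) : (((zpHom hζ i).toMul : Qbarˣ) : Qbar) = zp ζ i := rfl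

/-- The unit condition from its character form (the descent's `IsUnitCoc`), tested on the
character `zpHom`. -/
lemma unitAt_of_forall_hom {c : GQ → MU P}
    (h : ∀ d : MU P →+ Additive Qbarˣ, ∃ w : Qbar, w ≠ 0 ∧ (padicPlace P).valuation w = 1 ∧
      ∀ s ∈ Iq P, s w = (((d (c s)).toMul : Qbarˣ) : Qbar) * w) : UnitAt ζ c := by
  obtain ⟨w, -, hw1, hw⟩ := h (zpHom hζ)
  exact ⟨w, hw1, fun s hs => by rw [hw s hs, zpHom_apply]⟩

/-- The valuation at `P` of a Kummer generator of a cocycle satisfying the unit condition. -/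
theorem dvd_padicValRat_of_unitAt {c : GQ → MU P} {β : Qbar} {a : ℚ} (ha : (a : Qbar) = β ^ P)
    (hβ0 : β ≠ 0) (hβ : ∀ s ∈ Iq P, s β = zp ζ (c s) * β) (hu : UnitAt ζ c) :
    (P : ℤ) ∣ padicValRat P a := by
  obtain ⟨γ, hγ, hγ'⟩ := unitAt_iff_norm.1 hu
  refine dvd_padicValRat_of_fixed P ha hβ0 hγ fun s hs => ?_
  rw [map_div₀, hβ s hs, hγ' s hs, mul_div_mul_left _ _ (zp_ne_zero hζ _)]

/-! ### Kummer cocycles of rational numbers -/

/-- `c` is a Kummer cocycle of the rational number `t` (with respect to `ζ`). -/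
def IsKummerOf (ζ : Qbar) (c : GQ → MU P) (t : ℚ) : Prop :=
  ∃ β : Qbar, β ≠ 0 ∧ β ^ P = (t : Qbar) ∧ ∀ σ : GQ, σ β = zp ζ (c σ) * β

omit hζ in
/-- Every element of `μ_P` is smooth. -/
lemma isLC₀_MU (i : MU P) : IsLC₀ levelsAll (MU P) i := by
  obtain ⟨F, hF, hχ⟩ := exists_finite_cycloChar_eq_one P
  haveI := hF
  obtain ⟨U, hU, hUF⟩ := exists_levelAll_le F
  exact ⟨U, hU, fun s hs => by rw [rho_MU, om, hχ s (hUF hs), Units.val_one, one_mul]⟩

/-- Two Kummer cocycles of the same number differ by a coboundary. -/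
theorem sub_mem_B1g_of_isKummerOf {c c' : GQ → MU P} {t : ℚ} (h : IsKummerOf ζ c t)
    (h' : IsKummerOf ζ c' t) : c - c' ∈ B1g (MU P) := by
  obtain ⟨β, hβ0, hβt, hβ⟩ := h
  obtain ⟨β', hβ'0, hβ't, hβ'⟩ := h'
  obtain ⟨i, hi⟩ := exists_zp_eq hζ (x := β / β') (by
    rw [div_pow, hβt, hβ't, div_self]
    rw [← hβ't]
    exact pow_ne_zero P hβ'0)
  have hββ' : β = zp ζ i * β' := by rw [← hi, div_mul_cancel₀ _ hβ'0]
  refine (mem_B₁_iff _).2 ⟨i, isLC₀_MU i, ?_⟩
  funext σ
  have h1 : zp ζ (c σ + i) * β' = zp ζ (om P σ * i + c' σ) * β' := by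
    have h2 := hβ σ
    rw [hββ', map_mul, map_zp hζ (om P) (map_zeta hζ), hβ' σ] at h2
    rw [zp_add hζ, zp_add hζ, mul_assoc, ← h2]
    ring
  have h3 := zp_injective hζ (mul_right_cancel₀ hβ'0 h1)
  have h4 : (d₀₁ (MU P)).hom i σ = om P σ * i - i := by
    rw [d₀₁_hom_apply, rho_MU]
  rw [h4, Pi.sub_apply]
  linear_combination (-1 : ZMod P) * h3

omit hζ in
/-- Changing the number by a `P`-th power of a rational number. -/
lemma isKummerOf_of_eq_mul_pow {c : GQ → MU P} {β : Qbar} {a t b : ℚ} (hβ0 : β ≠ 0)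
    (ha : (a : Qbar) = β ^ P) (hβ : ∀ σ : GQ, σ β = zp ζ (c σ) * β) (hb : b ≠ 0)
    (h : a = t * b ^ P) : IsKummerOf ζ c t := by
  have hb' : (b : Qbar) ≠ 0 := by exact_mod_cast hb
  refine ⟨β / (b : Qbar), div_ne_zero hβ0 hb', ?_, fun σ => ?_⟩
  · rw [div_pow, ← ha, h]
    push_cast
    rw [mul_div_cancel_right₀ _ (pow_ne_zero P hb')]
  · rw [map_div₀, map_ratCast, hβ σ, mul_div_assoc]

omit hζ in
/-- For odd `P` the sign does not matter. -/
lemma IsKummerOf.of_neg (hP2 : P ≠ 2) {c : GQ → MU P} {t : ℚ} (h : IsKummerOf ζ c (-t)) :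
    IsKummerOf ζ c t := by
  have hP : P.Prime := Fact.out
  have hodd : Odd P := hP.odd_of_ne_two hP2
  obtain ⟨β, hβ0, hβt, hβ⟩ := h
  refine ⟨-β, neg_ne_zero.2 hβ0, ?_, fun σ => ?_⟩
  · rw [hodd.neg_pow, hβt]
    push_cast
    ring
  · rw [map_neg, hβ σ, mul_neg]

/-- The sign attached to a Boolean. -/
def sgn (e : Bool) : ℚ := if e then -1 else 1

/-- **Shape of the relaxed Selmer cocycles**: a cocycle unramified outside `{P, N}` and
satisfying the unit condition at `P` is a Kummer cocycle of `± N ^ j`, `j < P`. -/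
theorem exists_isKummerOf_relaxed {N : ℕ} (hN : N.Prime) {c : GQ → MU P}
    (hc : c ∈ Z1g (MU P))
    (hur : ∀ (q : ℕ) [Fact q.Prime], q ≠ P → q ≠ N → IsUnramAt q c) (hu : UnitAt ζ c) :
    ∃ j : ℕ, j < P ∧ ∃ e : Bool, IsKummerOf ζ c (sgn e * (N : ℚ) ^ j) := by
  have hP : P.Prime := Fact.out
  obtain ⟨β, hβ0, ⟨a, ha⟩, hβ⟩ := exists_radical_of_mem_Z1g hζ hc
  have ha0 : a ≠ 0 := by
    rintro rfl
    rw [Rat.cast_zero] at ha
    exact pow_ne_zero P hβ0 ha.symm
  have hval : ∀ q : ℕ, q.Prime → q ≠ N → (P : ℤ) ∣ padicValRat q a := by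
    intro q hq hqN
    haveI : Fact q.Prime := ⟨hq⟩
    by_cases hqP : q = P
    · subst hqP
      exact dvd_padicValRat_of_unitAt hζ ha hβ0 (fun s _ => hβ s) hu
    · exact dvd_padicValRat_of_isUnramAt hζ q hqP ha hβ0 (fun s _ => hβ s) (hur q hqP hqN)
  obtain ⟨j, hj, b, hb0, hb⟩ := RatPow.exists_eq_prime_pow_mul ha0 hP.ne_zero hN hval
  refine ⟨j, hj, ?_⟩
  rcases hb with hb | hb
  · exact ⟨false, isKummerOf_of_eq_mul_pow hβ0 ha hβ hb0 (by rw [hb, sgn]; simp)⟩
  · exact ⟨true, isKummerOf_of_eq_mul_pow hβ0 ha hβ hb0 (by rw [hb, sgn]; simp)⟩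

/-- **Shape of the Selmer cocycles**: a cocycle unramified outside `P` and satisfying the unit
condition at `P` is a Kummer cocycle of `± 1`. -/
theorem exists_isKummerOf_strict {c : GQ → MU P} (hc : c ∈ Z1g (MU P))
    (hur : ∀ (q : ℕ) [Fact q.Prime], q ≠ P → IsUnramAt q c) (hu : UnitAt ζ c) :
    ∃ e : Bool, IsKummerOf ζ c (sgn e) := by
  have hP : P.Prime := Fact.out
  obtain ⟨β, hβ0, ⟨a, ha⟩, hβ⟩ := exists_radical_of_mem_Z1g hζ hc
  have ha0 : a ≠ 0 := by
    rintro rfl
    rw [Rat.cast_zero] at ha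
    exact pow_ne_zero P hβ0 ha.symm
  have hval : ∀ q : ℕ, q.Prime → (P : ℤ) ∣ padicValRat q a := by
    intro q hq
    haveI : Fact q.Prime := ⟨hq⟩
    by_cases hqP : q = P
    · subst hqP
      exact dvd_padicValRat_of_unitAt hζ ha hβ0 (fun s _ => hβ s) hu
    · exact dvd_padicValRat_of_isUnramAt hζ q hqP ha hβ0 (fun s _ => hβ s) (hur q hqP)
  obtain ⟨b, hb0, hb⟩ := RatPow.exists_eq_pow_or_neg ha0 hP.ne_zero hval
  rcases hb with hb | hb
  · exact ⟨false, isKummerOf_of_eq_mul_pow hβ0 ha hβ hb0 (by rw [hb, sgn]; simp)⟩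
  · exact ⟨true, isKummerOf_of_eq_mul_pow hβ0 ha hβ hb0 (by rw [hb, sgn]; simp)⟩

/-! ### The Selmer-type submodules and the count -/

/-- Cocycles with values in `μ_P`, unramified outside `P` and the set `R` of relaxed primes, with
the unit condition at `P`. -/
def selMU (R : Set ℕ) : Submodule (ZMod P) (GQ → MU P) where
  carrier := {c | c ∈ Z1g (MU P) ∧
    (∀ (q : ℕ) [Fact q.Prime], q ≠ P → q ∉ R → IsUnramAt q c) ∧ UnitAt ζ c}
  add_mem' := fun {c c'} hc hc' =>
    ⟨Submodule.add_mem _ hc.1 hc'.1, fun q _ hq hqR => (hc.2.1 q hq hqR).add (hc'.2.1 q hq hqR),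
      hc.2.2.add hζ hc'.2.2⟩
  zero_mem' := ⟨Submodule.zero_mem _, fun q _ _ _ => isUnramAt_zero q, unitAt_zero hζ⟩
  smul_mem' := fun r c hc =>
    ⟨Submodule.smul_mem _ r hc.1, fun q _ hq hqR => (hc.2.1 q hq hqR).smul r, hc.2.2.smul hζ r⟩

lemma mem_selMU_iff (R : Set ℕ) (c : GQ → MU P) :
    c ∈ selMU hζ R ↔ c ∈ Z1g (MU P) ∧
      (∀ (q : ℕ) [Fact q.Prime], q ≠ P → q ∉ R → IsUnramAt q c) ∧ UnitAt ζ c := Iff.rfl

lemma B1g_le_selMU (R : Set ℕ) : B1g (MU P) ≤ selMU hζ R := fun c hc =>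
  ⟨B1g_le_Z1g hc,
    fun q _ _ _ => isUnramAt_of_mem_B1g hc, unitAt_of_mem_B1g hζ hc⟩

end Kummer

/-- Counting a quotient through a parameter map. -/
theorem card_quotient_le_of_par {R M α : Type*} [Ring R] [AddCommGroup M] [Module R M] [Finite α]
    (S B : Submodule R M) (par : S → α)
    (h : ∀ c c' : S, par c = par c' → (c : M) - c' ∈ B) :
    Nat.card (S ⧸ B.submoduleOf S) ≤ Nat.card α := by
  refine Nat.card_le_card_of_injective (fun x => par x.out) fun x y hxy => ?_
  have h1 := h _ _ hxy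
  rw [← Quotient.out_eq x, ← Quotient.out_eq y]
  exact (Submodule.Quotient.eq _).2 h1

/-- Finiteness of a quotient through a parameter map. -/
theorem finite_quotient_of_par {R M α : Type*} [Ring R] [AddCommGroup M] [Module R M] [Finite α]
    (S B : Submodule R M) (par : S → α)
    (h : ∀ c c' : S, par c = par c' → (c : M) - c' ∈ B) :
    Finite (S ⧸ B.submoduleOf S) := by
  refine Finite.of_injective (fun x => par x.out) fun x y hxy => ?_
  have h1 := h _ _ hxy
  rw [← Quotient.out_eq x, ← Quotient.out_eq y]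
  exact (Submodule.Quotient.eq _).2 h1

section Count

variable {P : ℕ} [Fact P.Prime] {ζ : Qbar} (hζ : IsPrimitiveRoot ζ P)

/-- **(B4)** Mult type, relaxed at `N`: at most `P * #(invariants)` classes. -/
theorem card_selMU_relaxed_le {N : ℕ} (hN : N.Prime) :
    Nat.card (selMU hζ {N} ⧸ (B1g (MU P)).submoduleOf (selMU hζ {N})) ≤
      (if P = 2 then 2 else 1) * P := by
  have hP : P.Prime := Fact.out
  haveI : NeZero P := ⟨hP.ne_zero⟩
  have hex : ∀ c : selMU hζ {N}, ∃ j : ℕ, j < P ∧ ∃ e : Bool,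
      IsKummerOf ζ (c : GQ → MU P) (sgn e * (N : ℚ) ^ j) := fun c =>
    exists_isKummerOf_relaxed hζ hN c.2.1 (fun q _ hqP hqN => c.2.2.1 q hqP hqN) c.2.2.2
  by_cases hP2 : P = 2
  · rw [if_pos hP2]
    choose j hj e he using hex
    refine (card_quotient_le_of_par _ _ (fun c => (e c, (⟨j c, hj c⟩ : Fin P)))
      fun c c' hcc' => ?_).trans ?_
    · have h1 : e c = e c' := congrArg Prod.fst hcc'
      have h2 : j c = j c' := congrArg (fun x : Bool × Fin P => x.2.val) hcc'
      have h3 := he c'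
      rw [← h1, ← h2] at h3
      exact sub_mem_B1g_of_isKummerOf hζ (he c) h3
    · rw [Nat.card_prod, Nat.card_eq_fintype_card, Nat.card_eq_fintype_card, Fintype.card_bool,
        Fintype.card_fin]
  · rw [if_neg hP2, one_mul]
    have hex' : ∀ c : selMU hζ {N}, ∃ j : ℕ, j < P ∧
        IsKummerOf ζ (c : GQ → MU P) ((N : ℚ) ^ j) := by
      intro c
      obtain ⟨j, hj, e, he⟩ := hex c
      refine ⟨j, hj, ?_⟩
      cases e
      · simpa [sgn] using he
      · refine IsKummerOf.of_neg hP2 ?_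
        simpa [sgn] using he
    choose j hj he using hex'
    refine (card_quotient_le_of_par _ _ (fun c => (⟨j c, hj c⟩ : Fin P))
      fun c c' hcc' => ?_).trans ?_
    · have h2 : j c = j c' := congrArg Fin.val hcc'
      have h3 := he c'
      rw [← h2] at h3
      exact sub_mem_B1g_of_isKummerOf hζ (he c) h3
    · rw [Nat.card_eq_fintype_card, Fintype.card_fin]

/-- **(B3)** Mult type, unramified at every prime `≠ P`: at most `#(invariants)` classes. -/
theorem card_selMU_strict_le :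
    Nat.card (selMU hζ ∅ ⧸ (B1g (MU P)).submoduleOf (selMU hζ ∅)) ≤
      (if P = 2 then 2 else 1) := by
  have hP : P.Prime := Fact.out
  have hex : ∀ c : selMU hζ ∅, ∃ e : Bool, IsKummerOf ζ (c : GQ → MU P) (sgn e) := fun c =>
    exists_isKummerOf_strict hζ c.2.1 (fun q _ hqP => c.2.2.1 q hqP (Set.notMem_empty q)) c.2.2.2
  by_cases hP2 : P = 2
  · rw [if_pos hP2]
    choose e he using hex
    refine (card_quotient_le_of_par _ _ e fun c c' hcc' => ?_).trans ?_
    · have h3 := he c'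
      rw [← hcc'] at h3
      exact sub_mem_B1g_of_isKummerOf hζ (he c) h3
    · rw [Nat.card_eq_fintype_card, Fintype.card_bool]
  · rw [if_neg hP2]
    have hex' : ∀ c : selMU hζ ∅, IsKummerOf ζ (c : GQ → MU P) 1 := by
      intro c
      obtain ⟨e, he⟩ := hex c
      cases e
      · simpa [sgn] using he
      · refine IsKummerOf.of_neg hP2 ?_
        simpa [sgn] using he
    refine (card_quotient_le_of_par _ _ (fun _ => ()) fun c c' _ => ?_).trans ?_
    · exact sub_mem_B1g_of_isKummerOf hζ (hex' c) (hex' c')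
    · rw [Nat.card_eq_fintype_card, Fintype.card_unit]

/-- The classes of the relaxed Selmer cocycles are finite in number. -/
theorem finite_selMU_relaxed_quot {N : ℕ} (hN : N.Prime) :
    Finite (selMU hζ {N} ⧸ (B1g (MU P)).submoduleOf (selMU hζ {N})) := by
  have hP : P.Prime := Fact.out
  haveI : NeZero P := ⟨hP.ne_zero⟩
  have hex : ∀ c : selMU hζ {N}, ∃ j : ℕ, j < P ∧ ∃ e : Bool,
      IsKummerOf ζ (c : GQ → MU P) (sgn e * (N : ℚ) ^ j) := fun c =>
    exists_isKummerOf_relaxed hζ hN c.2.1 (fun q _ hqP hqN => c.2.2.1 q hqP hqN) c.2.2.2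
  choose j hj e he using hex
  refine finite_quotient_of_par _ _ (fun c => (e c, (⟨j c, hj c⟩ : Fin P))) fun c c' hcc' => ?_
  have h1 : e c = e c' := congrArg Prod.fst hcc'
  have h2 : j c = j c' := congrArg (fun x : Bool × Fin P => x.2.val) hcc'
  have h3 := he c'
  rw [← h1, ← h2] at h3
  exact sub_mem_B1g_of_isKummerOf hζ (he c) h3

/-- The classes of the strict Selmer cocycles are finite in number. -/
theorem finite_selMU_strict_quot :
    Finite (selMU hζ ∅ ⧸ (B1g (MU P)).submoduleOf (selMU hζ ∅)) := by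
  have hex : ∀ c : selMU hζ ∅, ∃ e : Bool, IsKummerOf ζ (c : GQ → MU P) (sgn e) := fun c =>
    exists_isKummerOf_strict hζ c.2.1 (fun q _ hqP => c.2.2.1 q hqP (Set.notMem_empty q)) c.2.2.2
  choose e he using hex
  refine finite_quotient_of_par _ _ e fun c c' hcc' => ?_
  have h3 := he c'
  rw [← hcc'] at h3
  exact sub_mem_B1g_of_isKummerOf hζ (he c) h3

/-! ### Cocycle counts (the form consumed by the descent) -/

instance finite_MU : Finite (MU P) := by
  have hP : P.Prime := Fact.out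
  haveI : NeZero P := ⟨hP.ne_zero⟩
  exact inferInstanceAs (Finite (ZMod P))

omit hζ in
/-- There are at most `P` coboundaries. -/
theorem card_B1g_MU_le : Nat.card (B1g (MU P)) ≤ P := by
  have hP : P.Prime := Fact.out
  haveI : NeZero P := ⟨hP.ne_zero⟩
  have hsurj : Function.Surjective
      (fun a : ZMod P => (⟨(d₀₁ (MU P)).hom a, (mem_B₁_iff _).2 ⟨a, isLC₀_MU a, rfl⟩⟩ :
        B1g (MU P))) := by
    rintro ⟨c, hc⟩
    obtain ⟨a, -, rfl⟩ := (mem_B₁_iff c).1 hc
    exact ⟨a, rfl⟩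
  calc Nat.card (B1g (MU P)) ≤ Nat.card (ZMod P) := Nat.card_le_card_of_surjective _ hsurj
    _ = P := Nat.card_zmod P

omit hζ in
/-- For `P = 2` there is no non-zero coboundary. -/
theorem card_B1g_MU_two (hP2 : P = 2) : Nat.card (B1g (MU P)) = 1 := by
  have h : B1g (MU P) = ⊥ := by
    rw [eq_bot_iff]
    intro c hc
    obtain ⟨a, -, rfl⟩ := (mem_B₁_iff c).1 hc
    rw [Submodule.mem_bot]
    funext g
    have h1 : cycloChar P g = 1 := by
      subst hP2
      exact Subsingleton.elim _ _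
    have h2 : (d₀₁ (MU P)).hom a g = om P g * a - a := by
      rw [d₀₁_hom_apply, rho_MU]
    rw [h2, om, h1, Units.val_one, one_mul, sub_self]
    rfl
  rw [h]
  exact Nat.card_unique

/-- **(B3), cocycle form**: finiteness. -/
theorem finite_selMU_strict : Finite (selMU hζ ∅) := by
  haveI : Finite (↥(selMU hζ ∅) ⧸ (B1g (MU P)).comap (selMU hζ ∅).subtype) :=
    finite_selMU_strict_quot hζ
  exact finite_of_finite_quot (A := MU P) (selMU hζ ∅)

/-- **(B3), cocycle form**: at most `P` cocycles with values in `μ_P` are unramified outside `P`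
and satisfy the unit condition at `P`. -/
theorem card_selMU_strict_cocycles_le : Nat.card (selMU hζ ∅) ≤ P := by
  have hP : P.Prime := Fact.out
  rw [card_eq_of_B1g_le (selMU hζ ∅) (B1g_le_selMU hζ ∅)]
  have h1 := card_selMU_strict_le hζ
  by_cases hP2 : P = 2
  · rw [if_pos hP2] at h1
    rw [card_B1g_MU_two hP2, one_mul]
    exact h1.trans hP2.ge
  · rw [if_neg hP2] at h1
    calc Nat.card (B1g (MU P)) * Nat.card (selMU hζ ∅ ⧸ (B1g (MU P)).comap (selMU hζ ∅).subtype)
        ≤ P * 1 := Nat.mul_le_mul card_B1g_MU_le h1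
      _ = P := mul_one P

/-- **(B4), cocycle form**: finiteness. -/
theorem finite_selMU_relaxed {N : ℕ} (hN : N.Prime) : Finite (selMU hζ {N}) := by
  haveI : Finite (↥(selMU hζ {N}) ⧸ (B1g (MU P)).comap (selMU hζ {N}).subtype) :=
    finite_selMU_relaxed_quot hζ hN
  exact finite_of_finite_quot (A := MU P) (selMU hζ {N})

/-- **(B4), cocycle form**: at most `P * P` cocycles with values in `μ_P` are unramified outside
`{P, N}` and satisfy the unit condition at `P`. -/
theorem card_selMU_relaxed_cocycles_le {N : ℕ} (hN : N.Prime) :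
    Nat.card (selMU hζ {N}) ≤ P * P := by
  have hP : P.Prime := Fact.out
  rw [card_eq_of_B1g_le (selMU hζ {N}) (B1g_le_selMU hζ {N})]
  have h1 := card_selMU_relaxed_le hζ hN
  by_cases hP2 : P = 2
  · rw [if_pos hP2] at h1
    rw [card_B1g_MU_two hP2, one_mul]
    refine h1.trans ?_
    rw [hP2]
  · rw [if_neg hP2, one_mul] at h1
    exact Nat.mul_le_mul card_B1g_MU_le h1

/-! ### The invariants (`h⁰`) -/

/-- For odd `P` the cyclotomic character mod `P` is non-trivial. -/
theorem exists_om_ne_one (hP2 : P ≠ 2) : ∃ g : GQ, om P g ≠ 1 := by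
  have hP : P.Prime := Fact.out
  obtain ⟨ζ, hζ⟩ := exists_isPrimitiveRoot_Qbar P
  by_contra hcon
  push_neg at hcon
  have hfix : ∀ σ : GQ, σ ζ = ζ := fun σ => by
    rw [map_zeta hζ σ, hcon σ, zp, ZMod.val_one'' (by
      intro h1
      exact hP.one_lt.ne' h1), pow_one]
  obtain ⟨r, hr⟩ := exists_algebraMap_eq_of_fixed (K := ℚ) (Ω := Qbar) hζ (om P) (map_zeta hζ) hfix
  have hr1 : r ^ P = 1 := by
    have h1 : algebraMap ℚ Qbar (r ^ P) = algebraMap ℚ Qbar 1 := by
      rw [map_pow, hr, hζ.pow_eq_one, map_one]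
    exact (algebraMap ℚ Qbar).injective h1
  have hodd : Odd P := hP.odd_of_ne_two hP2
  have hr' : r = 1 := by
    rcases pow_eq_one_iff_cases.1 hr1 with h | h | ⟨-, h⟩
    · exact absurd h hP.ne_zero
    · exact h
    · exact absurd h (Nat.not_even_iff_odd.2 hodd)
  rw [hr', map_one] at hr
  exact hζ.ne_one hP.one_lt hr.symm

/-- The `Gal(ℚ̄/ℚ)`-invariants of `μ_P`: everything for `P = 2`, zero otherwise. -/
theorem card_invariants_MU :
    Nat.card {m : MU P // ∀ g : GQ, (MU P).ρ g m = m} = if P = 2 then 2 else 1 := by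
  have hP : P.Prime := Fact.out
  by_cases hP2 : P = 2
  · rw [if_pos hP2]
    have hall : ∀ m : MU P, ∀ g : GQ, (MU P).ρ g m = m := by
      intro m g
      rw [rho_MU, om]
      have h1 : cycloChar P g = 1 := by
        subst hP2
        exact Subsingleton.elim _ _
      rw [h1, Units.val_one, one_mul]
    have e : {m : MU P // ∀ g : GQ, (MU P).ρ g m = m} ≃ ZMod P :=
      { toFun := fun m => m.1
        invFun := fun m => ⟨m, hall m⟩
        left_inv := fun _ => rfl
        right_inv := fun _ => rfl }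
    rw [Nat.card_congr e, Nat.card_zmod, hP2]
  · rw [if_neg hP2]
    obtain ⟨g, hg⟩ := exists_om_ne_one hP2
    have hzero : ∀ m : {m : MU P // ∀ g : GQ, (MU P).ρ g m = m}, m = ⟨0, fun g => map_zero _⟩ := by
      rintro ⟨m, hm⟩
      apply Subtype.ext
      have h1 := hm g
      rw [rho_MU] at h1
      have h2 : (om P g - 1) * m = 0 := by rw [sub_mul, one_mul, h1, sub_self]
      rcases mul_eq_zero.1 h2 with h3 | h3
      · exact absurd (sub_eq_zero.1 h3) hg
      · exact h3
    haveI : Subsingleton {m : MU P // ∀ g : GQ, (MU P).ρ g m = m} :=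
      ⟨fun a b => by rw [hzero a, hzero b]⟩
    haveI : Nonempty {m : MU P // ∀ g : GQ, (MU P).ρ g m = m} := ⟨⟨0, fun g => map_zero _⟩⟩
    exact Nat.card_unique

end Count


end Fermat.Agent.S15.D.BaseKummer
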