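/-
PROJECT M (S15), block [D], leaf (L3) = (T-P) (helper23): GREENBERG'S CONDITION AT `P` VERSUS THE
UNIT CONDITION, AT BOUNDED COST.

Frame of `S15/D/UnitCond` (helper18).  `GrP P A A0` is Greenberg's condition "values in `A0` on the
inertia group at `P`"; `SelGr P A A0` the corresponding Selmer cocycles.  Under the hypothesis
`hcyc` (the inertia group at `P` acts on `A0` through the cyclotomic character, in character form)
and `peu` (coboundaries are unit cocycles), the index of `SelD` in `SelGr` is at most the order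
of the `D_P`-coinvariants of the character group of `A0`:

  `card_SelGr_le : |SelGr| ≤ |Ch A ⧸ chNull| * |SelD|`.

Proof: for `c ∈ SelGr` and a character `d`, Hilbert 90 on the inertia group gives `w ≠ 0` with
`s w = d (c s) * w`; `w` is unique up to the inertia field, whose norms are `P ^ ℤ`; the class of
`log_P ‖w‖` modulo `ℤ` is bi-additive in `(c, d)`, invariant under `D_P` in `d`, and vanishes for
all `d` iff `c` is a unit cocycle.
-/
import Fermat.Agent.S15.D.UnitCond
import Fermat.Agent.S15.D.GreenbergH90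
import Fermat.Agent.S15.D.BaseKummer
import Fermat.Agent.CFT.LocalBridge.Decomposition

set_option autoImplicit false

namespace Fermat.Agent.S15.D.Greenberg

open Fermat.Agent.S56.Coh Fermat.Agent.CFT.LC Fermat.Agent.CFT.Bridge
  Fermat.Agent.CFT.LocalBridge Fermat.Agent.S15.D
open scoped Pointwise

variable {k : Type} [CommRing k]

/-! ### Characters -/

/-- The characters of `A` with values in `ℚ̄ˣ`. -/
abbrev Ch (A : Rep.{0} k GQ) : Type := A →+ Additive Qbarˣ

instance instIsAddCommutativeCh (A : Rep.{0} k GQ) : IsAddCommutative (Ch A) :=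
  ⟨⟨fun a b => add_comm a b⟩⟩

section Ev

variable {A : Rep.{0} k GQ}

/-- The value of a character, in `ℚ̄`. -/
noncomputable def ev (d : Ch A) (a : A) : Qbar := ((Additive.toMul (d a) : Qbarˣ) : Qbar)

lemma ev_ne_zero (d : Ch A) (a : A) : ev d a ≠ 0 := (Additive.toMul (d a) : Qbarˣ).ne_zero

lemma ev_add (d : Ch A) (a b : A) : ev d (a + b) = ev d a * ev d b := by
  unfold ev
  rw [map_add, toMul_add, Units.val_mul]

lemma ev_zero (d : Ch A) : ev d 0 = 1 := by
  unfold ev
  rw [map_zero, toMul_zero, Units.val_one]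

lemma ev_sub (d : Ch A) (a b : A) : ev d (a - b) = ev d a / ev d b := by
  rw [eq_div_iff (ev_ne_zero d b), ← ev_add, sub_add_cancel]

lemma ev_add_ch (d d' : Ch A) (a : A) : ev (d + d') a = ev d a * ev d' a := by
  unfold ev
  rw [AddMonoidHom.add_apply, toMul_add, Units.val_mul]

lemma ev_zero_ch (a : A) : ev (0 : Ch A) a = 1 := by
  unfold ev
  rw [AddMonoidHom.zero_apply, toMul_zero, Units.val_one]

/-- The Galois action on the target of the characters. -/
noncomputable def sigmaU (σ : GQ) : Additive Qbarˣ →+ Additive Qbarˣ :=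
  MonoidHom.toAdditive (Units.map ((σ : Qbar ≃ₐ[ℚ] Qbar) : Qbar →* Qbar))

/-- The Galois action on characters: `(σ d)(a) = σ (d (σ⁻¹ a))`. -/
noncomputable def chAct (σ : GQ) (d : Ch A) : Ch A :=
  (sigmaU σ).comp (d.comp (A.ρ σ⁻¹).toAddMonoidHom)

lemma ev_chAct (σ : GQ) (d : Ch A) (a : A) : ev (chAct σ d) a = σ (ev d (A.ρ σ⁻¹ a)) := rfl

lemma ev_chAct_rho (σ : GQ) (d : Ch A) (a : A) : ev (chAct σ d) (A.ρ σ a) = σ (ev d a) := by
  rw [ev_chAct, ← Module.End.mul_apply, ← map_mul, inv_mul_cancel, map_one, Module.End.one_apply]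

end Ev

/-! ### Greenberg's condition -/

/-- Greenberg's condition at `P`: values in `A0` on the inertia group. -/
def GrP (P : ℕ) [Fact P.Prime] (A : Rep.{0} k GQ) (A0 : Submodule k A) :
    Submodule k (GQ → A) where
  carrier := {c | ∀ s ∈ Iq P, c s ∈ A0}
  add_mem' := fun {c c'} h h' s hs => A0.add_mem (h s hs) (h' s hs)
  zero_mem' := fun _ _ => A0.zero_mem
  smul_mem' := fun r _ h s hs => A0.smul_mem r (h s hs)

lemma mem_GrP_iff {P : ℕ} [Fact P.Prime] {A : Rep.{0} k GQ} {A0 : Submodule k A} {c : GQ → A} :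
    c ∈ GrP P A A0 ↔ ∀ s ∈ Iq P, c s ∈ A0 := Iff.rfl

/-- Selmer cocycles with Greenberg's condition at `P`. -/
def SelGr (P : ℕ) [Fact P.Prime] (A : Rep.{0} k GQ) (A0 : Submodule k A) :
    Submodule k (GQ → A) := SelL P A (GrP P A A0)

lemma mem_SelGr_iff {P : ℕ} [Fact P.Prime] {A : Rep.{0} k GQ} {A0 : Submodule k A} {c : GQ → A} :
    c ∈ SelGr P A A0 ↔ c ∈ Z1g A ∧ (∀ (q : ℕ) [Fact q.Prime], q ≠ P → IsUnramAt q c) ∧
      ∀ s ∈ Iq P, c s ∈ A0 := Iff.rfl

lemma SelD_le_SelGr (P : ℕ) [Fact P.Prime] (A : Rep.{0} k GQ) (A0 : Submodule k A) :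
    SelD P A A0 ≤ SelGr P A A0 := fun _ hc => ⟨hc.1, hc.2.1, hc.2.2.1⟩

/-! ### Solutions of the Kummer equation on the inertia group -/

section Sol

variable (P : ℕ) [Fact P.Prime] {A : Rep.{0} k GQ}

/-- `w` solves `s w = d (c s) * w` on the inertia group at `P`. -/
def IsSol (c : GQ → A) (d : Ch A) (w : Qbar) : Prop :=
  w ≠ 0 ∧ ∀ s ∈ Iq P, s w = ev d (c s) * w

variable {P}

lemma IsSol.mul {c c' : GQ → A} {d : Ch A} {w w' : Qbar} (h : IsSol P c d w)
    (h' : IsSol P c' d w') : IsSol P (c + c') d (w * w') :=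
  ⟨mul_ne_zero h.1 h'.1, fun s hs => by
    rw [map_mul, h.2 s hs, h'.2 s hs, Pi.add_apply, ev_add]; ring⟩

lemma IsSol.mul_ch {c : GQ → A} {d d' : Ch A} {w w' : Qbar} (h : IsSol P c d w)
    (h' : IsSol P c d' w') : IsSol P c (d + d') (w * w') :=
  ⟨mul_ne_zero h.1 h'.1, fun s hs => by
    rw [map_mul, h.2 s hs, h'.2 s hs, ev_add_ch]; ring⟩

lemma isSol_zero_ch (c : GQ → A) : IsSol P c (0 : Ch A) 1 :=
  ⟨one_ne_zero, fun s _ => by rw [map_one, ev_zero_ch, one_mul]⟩

lemma isSol_zero (d : Ch A) : IsSol P (0 : GQ → A) d 1 :=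
  ⟨one_ne_zero, fun s _ => by rw [map_one, Pi.zero_apply, ev_zero, one_mul]⟩

/-- Scaling a solution by a non-zero rational number. -/
lemma IsSol.mul_rat {c : GQ → A} {d : Ch A} {w : Qbar} (h : IsSol P c d w) {r : ℚ} (hr : r ≠ 0) :
    IsSol P c d (w * (r : Qbar)) :=
  ⟨mul_ne_zero h.1 (by exact_mod_cast hr), fun s hs => by
    rw [map_mul, h.2 s hs, map_ratCast, mul_assoc]⟩

/-- Two solutions differ by an element fixed by the inertia group. -/
lemma IsSol.div_fixed {c : GQ → A} {d : Ch A} {w w' : Qbar} (h : IsSol P c d w)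
    (h' : IsSol P c d w') : ∀ s ∈ Iq P, s (w / w') = w / w' := fun s hs => by
  rw [map_div₀, h.2 s hs, h'.2 s hs, mul_div_mul_left _ _ (ev_ne_zero d _)]

/-- **Hilbert 90 on the inertia group**: solutions exist for a global cocycle with values in `A0`
on the inertia group, when inertia acts on `A0` through the cyclotomic character. -/
theorem exists_isSol [Finite A] {A0 : Submodule k A} {c : GQ → A} (hc : c ∈ Z1g A)
    (hc0 : ∀ s ∈ Iq P, c s ∈ A0)
    (hcyc : ∀ s ∈ Iq P, ∀ a ∈ A0, ∀ d : Ch A, ev d (A.ρ s a) = s (ev d a)) (d : Ch A) :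
    ∃ w : Qbar, IsSol P c d w := by
  obtain ⟨hcoc, U, ⟨-, F, hF, rfl⟩, hlc, -⟩ := (mem_Z1g_iff c).1 hc
  have halg : Algebra.IsAlgebraic ℚ Qbar := AlgebraicClosure.isAlgebraic ℚ
  -- the values of `d`
  let T : Set Qbar := Set.range fun a : A => ev d a
  haveI : Finite T := Set.finite_range _
  haveI : FiniteDimensional ℚ (IntermediateField.adjoin ℚ T) :=
    IntermediateField.finiteDimensional_adjoin fun x _ => (halg.isAlgebraic x).isIntegral
  haveI : FiniteDimensional ℚ ↥(F ⊔ IntermediateField.adjoin ℚ T) :=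
    IntermediateField.finiteDimensional_sup F _
  let E : IntermediateField ℚ Qbar :=
    IntermediateField.normalClosure ℚ ↥(F ⊔ IntermediateField.adjoin ℚ T) Qbar
  haveI : FiniteDimensional ℚ E := normalClosure.is_finiteDimensional ℚ _ Qbar
  haveI : Normal ℚ E := normalClosure.normal ℚ _ Qbar
  have hle : F ⊔ IntermediateField.adjoin ℚ T ≤ E := IntermediateField.le_normalClosure _
  have hfix : E.fixingSubgroup ≤ F.fixingSubgroup :=
    IntermediateField.fixingSubgroup_antitone (le_sup_left.trans hle)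
  obtain ⟨β, hβ0, -, hβ⟩ := GreenbergH90.exists_ne_zero_of_cocycle_on (K := ℚ) (Ω := Qbar) (Iq P)
    (fun σ => ev d (c σ)) (fun σ _ => ev_ne_zero d _)
    (fun σ hσ τ hτ => by
      show ev d (c (σ * τ)) = σ (ev d (c τ)) * ev d (c σ)
      rw [hcoc σ τ, ev_add, hcyc σ hσ _ (hc0 τ hτ)])
    E (fun σ τ hτ => by
      show ev d (c (σ * τ)) = ev d (c σ)
      rw [hlc σ τ (hfix hτ)])
    (fun σ _ => hle (le_sup_right (a := F)
      (IntermediateField.subset_adjoin ℚ T ⟨c σ, rfl⟩)))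
  exact ⟨β, hβ0, hβ⟩

end Sol

/-! ### The exponential of the logarithmic norm -/

section Exp

/-- `x ↦ exp (2 π i x)`. -/
noncomputable def eC (x : ℝ) : ℂ := Complex.exp ((x : ℂ) * (2 * Real.pi * Complex.I))

lemma eC_add (x y : ℝ) : eC (x + y) = eC x * eC y := by
  unfold eC
  rw [← Complex.exp_add]
  congr 1
  push_cast
  ring

lemma eC_intCast (n : ℤ) : eC (n : ℝ) = 1 := by
  unfold eC
  rw [Complex.ofReal_intCast]
  exact Complex.exp_int_mul_two_pi_mul_I n

lemma eC_zero : eC 0 = 1 := by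
  have := eC_intCast 0
  rwa [Int.cast_zero] at this

lemma eC_ne_zero (x : ℝ) : eC x ≠ 0 := Complex.exp_ne_zero _

lemma eC_sub (x y : ℝ) : eC (x - y) = eC x / eC y := by
  rw [eq_div_iff (eC_ne_zero y), ← eC_add, sub_add_cancel]

lemma exists_int_of_eC_eq_one {x : ℝ} (h : eC x = 1) : ∃ n : ℤ, x = n := by
  unfold eC at h
  obtain ⟨n, hn⟩ := Complex.exp_eq_one_iff.1 h
  refine ⟨n, ?_⟩
  have h1 := mul_right_cancel₀ Complex.two_pi_I_ne_zero hn
  exact_mod_cast h1

variable (P : ℕ) [Fact P.Prime]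

/-- The logarithmic norm at the fixed place over `P`. -/
noncomputable def nu (w : Qbar) : ℝ := Real.logb (P : ℝ) ‖padicEmbedding P w‖

variable {P}

lemma nu_mul {w w' : Qbar} (hw : w ≠ 0) (hw' : w' ≠ 0) : nu P (w * w') = nu P w + nu P w' := by
  unfold nu
  rw [map_mul, norm_mul, Real.logb_mul]
  · rwa [Ne, norm_eq_zero, map_eq_zero]
  · rwa [Ne, norm_eq_zero, map_eq_zero]

lemma nu_one : nu P (1 : Qbar) = 0 := by
  unfold nu
  rw [map_one, norm_one, Real.logb_one]

lemma nu_inv {w : Qbar} (hw : w ≠ 0) : nu P w⁻¹ = -nu P w := by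
  have h := nu_mul (P := P) hw (inv_ne_zero hw)
  rw [mul_inv_cancel₀ hw, nu_one] at h
  linarith

lemma nu_div {w w' : Qbar} (hw : w ≠ 0) (hw' : w' ≠ 0) : nu P (w / w') = nu P w - nu P w' := by
  rw [div_eq_mul_inv, nu_mul hw (inv_ne_zero hw'), nu_inv hw', sub_eq_add_neg]

lemma logb_zpow_self (k : ℤ) : Real.logb (P : ℝ) ((P : ℝ) ^ k) = k := by
  have hP : (1 : ℝ) < P := by exact_mod_cast (Fact.out : P.Prime).one_lt
  have h0 : Real.log (P : ℝ) ≠ 0 := (Real.log_pos hP).ne'
  rw [Real.logb, Real.log_zpow, mul_div_assoc, div_self h0, mul_one]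

/-- The logarithmic norm of an element fixed by inertia is an integer. -/
lemma exists_int_nu_of_fixed {y : Qbar} (hy0 : y ≠ 0) (hy : ∀ s ∈ Iq P, s y = y) :
    ∃ n : ℤ, nu P y = n := by
  obtain ⟨n, hn⟩ := BaseKummer.exists_norm_eq_zpow_of_fixed P hy0 hy
  exact ⟨n, by unfold nu; rw [hn, logb_zpow_self]⟩

lemma nu_eq_zero_of_valuation_eq_one {w : Qbar} (h : (padicPlace P).valuation w = 1) :
    nu P w = 0 := by
  unfold nu
  rw [(Fermat.Agent.CFT.C7.UnramDict.valuation_padicPlace_eq_one_iff P w).1 h, Real.logb_one]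

/-- The decomposition group at the fixed place preserves the norm. -/
lemma nu_map_of_mem_Dq {σ : GQ} (hσ : σ ∈ Dq P) (w : Qbar) : nu P (σ w) = nu P w := by
  obtain ⟨τ, rfl⟩ := exists_localGaloisToGlobal_eq P (σ := σ) (MulAction.mem_stabilizer_iff.mp hσ)
  unfold nu
  rw [padicEmbedding_localGaloisToGlobal]
  have h := congrArg (fun t : NNReal => (t : ℝ))
    (nnnorm_padicAlgCl_algEquiv P τ (padicEmbedding P w))
  congr 1

end Exp

/-! ### The pairing -/

section Pairing

variable (P : ℕ) [Fact P.Prime] {A : Rep.{0} k GQ}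

open Classical in
/-- The pairing `(c, d) ↦ exp (2 π i log_P ‖w‖)`, `w` any solution (and `1` if there is none). -/
noncomputable def Phi (c : GQ → A) (d : Ch A) : ℂ :=
  if h : ∃ w, IsSol P c d w then eC (nu P h.choose) else 1

variable {P}

/-- The pairing can be computed on any solution. -/
lemma Phi_eq {c : GQ → A} {d : Ch A} {w : Qbar} (hw : IsSol P c d w) :
    Phi P c d = eC (nu P w) := by
  have hex : ∃ w, IsSol P c d w := ⟨w, hw⟩
  unfold Phi
  rw [dif_pos hex]
  have h' := hex.choose_spec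
  obtain ⟨n, hn⟩ := exists_int_nu_of_fixed (div_ne_zero h'.1 hw.1) (h'.div_fixed hw)
  rw [nu_div h'.1 hw.1] at hn
  have h1 : nu P hex.choose = nu P w + n := by linarith
  rw [h1, eC_add, eC_intCast, mul_one]

lemma Phi_add {c c' : GQ → A} {d : Ch A} {w w' : Qbar} (hw : IsSol P c d w)
    (hw' : IsSol P c' d w') : Phi P (c + c') d = Phi P c d * Phi P c' d := by
  rw [Phi_eq (hw.mul hw'), Phi_eq hw, Phi_eq hw', nu_mul hw.1 hw'.1, eC_add]

lemma Phi_add_ch {c : GQ → A} {d d' : Ch A} {w w' : Qbar} (hw : IsSol P c d w)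
    (hw' : IsSol P c d' w') : Phi P c (d + d') = Phi P c d * Phi P c d' := by
  rw [Phi_eq (hw.mul_ch hw'), Phi_eq hw, Phi_eq hw', nu_mul hw.1 hw'.1, eC_add]

lemma Phi_zero_ch (c : GQ → A) : Phi P c (0 : Ch A) = 1 := by
  rw [Phi_eq (isSol_zero_ch c), nu_one, eC_zero]

lemma Phi_zero (d : Ch A) : Phi P (0 : GQ → A) d = 1 := by
  rw [Phi_eq (isSol_zero d), nu_one, eC_zero]

/-- Characters vanishing on `A0` pair trivially with Greenberg cocycles. -/
lemma Phi_eq_one_of_vanish {A0 : Submodule k A} {c : GQ → A} (hc0 : ∀ s ∈ Iq P, c s ∈ A0)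
    {d : Ch A} (hd : ∀ a ∈ A0, d a = 0) : Phi P c d = 1 := by
  have hsol : IsSol P c d 1 := ⟨one_ne_zero, fun s hs => by
    have h1 : ev d (c s) = 1 := by
      unfold ev
      rw [hd _ (hc0 s hs), toMul_zero, Units.val_one]
    rw [map_one, h1, one_mul]⟩
  rw [Phi_eq hsol, nu_one, eC_zero]

/-- The pairing is trivial exactly when the solution can be chosen to be a unit. -/
lemma exists_unit_sol_of_Phi_eq_one {c : GQ → A} {d : Ch A} {w : Qbar} (hw : IsSol P c d w)
    (h : Phi P c d = 1) :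
    ∃ w' : Qbar, w' ≠ 0 ∧ (padicPlace P).valuation w' = 1 ∧
      ∀ s ∈ Iq P, s w' = ev d (c s) * w' := by
  have hP : (1 : ℝ) < P := by exact_mod_cast (Fact.out : P.Prime).one_lt
  rw [Phi_eq hw] at h
  obtain ⟨n, hn⟩ := exists_int_of_eC_eq_one h
  -- scale by `P ^ n`
  have hr : ((P : ℚ) ^ n) ≠ 0 := zpow_ne_zero _ (by exact_mod_cast (Fact.out : P.Prime).ne_zero)
  have hsol := hw.mul_rat hr
  refine ⟨w * (((P : ℚ) ^ n : ℚ) : Qbar), hsol.1, ?_, hsol.2⟩
  rw [Fermat.Agent.CFT.C7.UnramDict.valuation_padicPlace_eq_one_iff]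
  -- the norm of `w` is `P ^ n`, that of `P ^ n` is `P ^ (-n)`
  have hw0 : ‖padicEmbedding P w‖ ≠ 0 := by
    rw [Ne, norm_eq_zero, map_eq_zero]
    exact hw.1
  have hwpos : 0 < ‖padicEmbedding P w‖ := lt_of_le_of_ne (norm_nonneg _) (Ne.symm hw0)
  have h1 : ‖padicEmbedding P w‖ = (P : ℝ) ^ n := by
    have h2 : Real.logb (P : ℝ) ‖padicEmbedding P w‖ = Real.logb (P : ℝ) ((P : ℝ) ^ n) := by
      rw [logb_zpow_self]
      exact hn
    exact Real.logb_injOn_pos hP (Set.mem_Ioi.2 hwpos)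
      (Set.mem_Ioi.2 (zpow_pos (by positivity) n)) h2
  have h3 : ‖padicEmbedding P (((P : ℚ) ^ n : ℚ) : Qbar)‖ = (P : ℝ) ^ (-n) := by
    rw [BaseKummer.norm_padicEmbedding_ratCast P hr, padicValRat.zpow,
      padicValRat.self (Fact.out : P.Prime).one_lt, mul_one]
  rw [map_mul, norm_mul, h1, h3, ← zpow_add₀ (by positivity), add_neg_cancel, zpow_zero]

/-- The inertia group is normalised by the decomposition group. -/
lemma conj_mem_Iq {σ s : GQ} (hσ : σ ∈ Dq P) (hs : s ∈ Iq P) : σ⁻¹ * s * σ ∈ Iq P := by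
  have hσ' : σ • padicPlace P = padicPlace P := MulAction.mem_stabilizer_iff.mp hσ
  have h1 : s ∈ (σ • padicPlace P).inertiaSubgroupIn ℚ := by
    rw [hσ']
    exact hs
  exact (mem_inertiaSubgroupIn_smul_iff (padicPlace P) σ s).1 h1

/-- **Invariance of the pairing under the decomposition group** (uses `peu`). -/
theorem Phi_chAct {c : GQ → A} (hc : c ∈ Z1g A)
    (hpeu : ∀ g : A, IsUnitCoc P A (fun s => A.ρ s g - g)) {σ : GQ} (hσ : σ ∈ Dq P) {d : Ch A}
    {w : Qbar} (hw : IsSol P c d w) : Phi P c (chAct σ d) = Phi P c d := by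
  have hcoc := ((mem_Z1g_iff c).1 hc).1
  obtain ⟨u, hu0, hu1, hu⟩ := hpeu (c σ) (chAct σ d)
  have hu' : ∀ s ∈ Iq P, s u = ev (chAct σ d) (A.ρ s (c σ) - c σ) * u := hu
  have hsol : IsSol P c (chAct σ d) (σ w / u) := by
    refine ⟨div_ne_zero ((map_ne_zero _).2 hw.1) hu0, fun s hs => ?_⟩
    have hs' := conj_mem_Iq hσ hs
    have h1 : s (σ w) = σ ((σ⁻¹ * s * σ) w) := by
      rw [← AlgEquiv.mul_apply, ← AlgEquiv.mul_apply]
      congr 1
      group
    have h2 : A.ρ σ (c (σ⁻¹ * s * σ)) = c s + (A.ρ s (c σ) - c σ) := by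
      have e1 := hcoc σ (σ⁻¹ * s * σ)
      have e2 := hcoc s σ
      have e3 : σ * (σ⁻¹ * s * σ) = s * σ := by group
      rw [e3, e2] at e1
      rw [← sub_eq_iff_eq_add.2 e1.symm]
      abel
    rw [map_div₀, h1, hw.2 _ hs', map_mul, ← ev_chAct_rho, h2, ev_add, hu' s hs]
    have h3 := ev_ne_zero (chAct σ d) (A.ρ s (c σ) - c σ)
    field_simp
  rw [Phi_eq hsol, Phi_eq hw, nu_div ((map_ne_zero _).2 hw.1) hu0, nu_map_of_mem_Dq hσ,
    nu_eq_zero_of_valuation_eq_one hu1, sub_zero]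

end Pairing

/-! ### Counting -/

section Count

/-- The character group of a finite module is finite. -/
theorem finite_Ch (A : Rep.{0} k GQ) [Finite A] : Finite (Ch A) := by
  haveI : NeZero (Nat.card A) := ⟨Nat.card_pos.ne'⟩
  let ι : Ch A → (A → rootsOfUnity (Nat.card A) Qbar) := fun d a =>
    ⟨Additive.toMul (d a), by
      rw [mem_rootsOfUnity, ← toMul_nsmul, ← map_nsmul, card_nsmul_eq_zero', map_zero, toMul_zero]⟩
  refine Finite.of_injective ι fun d d' h => ?_
  ext a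
  have h1 := congrArg (fun f => ((f a : rootsOfUnity (Nat.card A) Qbar) : Qbarˣ)) h
  exact congrArg (fun u : Qbarˣ => (u : Qbar)) h1

variable (P : ℕ) [Fact P.Prime] (A : Rep.{0} k GQ) (A0 : Submodule k A)

/-- The characters which pair trivially with every Greenberg cocycle: those vanishing on `A0`, and
the `σ d - d` for `σ` in the decomposition group at `P`. The quotient `Ch A ⧸ chNull` is the group
of `D_P`-coinvariants of the character group of `A0`. -/
noncomputable def chNull : AddSubgroup (Ch A) :=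
  AddSubgroup.closure ({d | ∀ a ∈ A0, d a = 0} ∪
    {e | ∃ σ ∈ Dq P, ∃ d : Ch A, e = chAct σ d - d})

end Count

section Main

variable {P : ℕ} [Fact P.Prime] {A : Rep.{0} k GQ} [Finite A] {A0 : Submodule k A}
  (hcyc : ∀ s ∈ Iq P, ∀ a ∈ A0, ∀ d : Ch A, ev d (A.ρ s a) = s (ev d a))

include hcyc

lemma exists_isSol_of_mem (c : SelGr P A A0) (d : Ch A) : ∃ w, IsSol P (c : GQ → A) d w :=
  exists_isSol c.2.1 c.2.2.2 hcyc d

/-- The character of `Ch A` attached to a Greenberg Selmer cocycle. -/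
noncomputable def PhiChar (c : SelGr P A A0) : AddChar (Ch A) ℂ where
  toFun d := Phi P (c : GQ → A) d
  map_zero_eq_one' := Phi_zero_ch _
  map_add_eq_mul' d d' := by
    obtain ⟨w, hw⟩ := exists_isSol_of_mem hcyc c d
    obtain ⟨w', hw'⟩ := exists_isSol_of_mem hcyc c d'
    exact Phi_add_ch hw hw'

lemma PhiChar_apply (c : SelGr P A A0) (d : Ch A) : PhiChar hcyc c d = Phi P (c : GQ → A) d := rfl

/-- The pairing as a homomorphism from Greenberg Selmer cocycles to characters of `Ch A`. -/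
noncomputable def PhiHom : SelGr P A A0 →+ AddChar (Ch A) ℂ where
  toFun := PhiChar hcyc
  map_zero' := by
    ext d
    rw [PhiChar_apply, AddChar.zero_apply]
    exact Phi_zero d
  map_add' c c' := by
    ext d
    rw [AddChar.add_apply, PhiChar_apply, PhiChar_apply, PhiChar_apply]
    obtain ⟨w, hw⟩ := exists_isSol_of_mem hcyc c d
    obtain ⟨w', hw'⟩ := exists_isSol_of_mem hcyc c' d
    exact Phi_add hw hw'

/-- The kernel of the pairing consists of the unit cocycles. -/
lemma mem_SelD_of_mem_ker (c : SelGr P A A0) (hc : c ∈ (PhiHom hcyc).ker) :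
    (c : GQ → A) ∈ SelD P A A0 := by
  refine ⟨c.2.1, c.2.2.1, c.2.2.2, fun d => ?_⟩
  obtain ⟨w, hw⟩ := exists_isSol_of_mem hcyc c d
  have h1 : Phi P (c : GQ → A) d = 1 := by
    have h2 := DFunLike.congr_fun (AddMonoidHom.mem_ker.1 hc) d
    rwa [AddChar.zero_apply] at h2
  exact exists_unit_sol_of_Phi_eq_one hw h1

/-- The image of the pairing kills `chNull`. -/
lemma PhiHom_apply_eq_one (hpeu : ∀ g : A, IsUnitCoc P A (fun s => A.ρ s g - g))
    (c : SelGr P A A0) {d : Ch A} (hd : d ∈ chNull P A A0) : PhiHom hcyc c d = 1 := by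
  let Kc : AddSubgroup (Ch A) :=
    { carrier := {d | PhiHom hcyc c d = 1}
      add_mem' := fun {a b} ha hb => by
        show PhiHom hcyc c (a + b) = 1
        rw [AddChar.map_add_eq_mul, ha, hb, one_mul]
      zero_mem' := AddChar.map_zero_eq_one _
      neg_mem' := fun {a} ha => by
        show PhiHom hcyc c (-a) = 1
        rw [AddChar.map_neg_eq_inv, ha, inv_one] }
  have hle : chNull P A A0 ≤ Kc := by
    refine (AddSubgroup.closure_le Kc).2 ?_
    rintro e (he | ⟨σ, hσ, d, rfl⟩)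
    · exact Phi_eq_one_of_vanish c.2.2.2 he
    · show PhiHom hcyc c (chAct σ d - d) = 1
      obtain ⟨w, hw⟩ := exists_isSol_of_mem hcyc c d
      rw [AddChar.map_sub_eq_div]
      show Phi P (c : GQ → A) (chAct σ d) / Phi P (c : GQ → A) d = 1
      rw [Phi_chAct c.2.1 hpeu hσ hw, div_self]
      rw [Phi_eq hw]
      exact eC_ne_zero _
  exact hle hd

omit hcyc in
/-- There are at most `|Ch A ⧸ chNull|` characters of `Ch A` killing `chNull`. -/
theorem card_killing_le :
    ({ψ : AddChar (Ch A) ℂ | ∀ d ∈ chNull P A A0, ψ d = 1}).Finite ∧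
      Nat.card {ψ : AddChar (Ch A) ℂ | ∀ d ∈ chNull P A A0, ψ d = 1} ≤
        Nat.card (Ch A ⧸ chNull P A A0) := by
  haveI := finite_Ch A
  haveI : Fintype (Ch A ⧸ chNull P A A0) := Fintype.ofFinite _
  let Y := {ψ : AddChar (Ch A) ℂ | ∀ d ∈ chNull P A A0, ψ d = 1}
  let lift : Y → AddChar (Ch A ⧸ chNull P A A0) ℂ := fun ψ =>
    AddChar.toAddMonoidHomEquiv.symm
      (QuotientAddGroup.lift (chNull P A A0) (AddChar.toAddMonoidHom ψ.1) fun d hd => by
        show Additive.ofMul (ψ.1 d) = 0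
        rw [ψ.2 d hd]
        rfl)
  have hlift : ∀ (ψ : Y) (d : Ch A), lift ψ (QuotientAddGroup.mk d) = ψ.1 d := fun _ _ => rfl
  have hinj : Function.Injective lift := by
    intro ψ ψ' h
    apply Subtype.ext
    ext d
    rw [← hlift ψ d, ← hlift ψ' d, h]
  haveI : Finite Y := Finite.of_injective lift hinj
  refine ⟨Set.toFinite Y, ?_⟩
  calc Nat.card Y ≤ Nat.card (AddChar (Ch A ⧸ chNull P A A0) ℂ) :=
        Nat.card_le_card_of_injective lift hinj
    _ = Fintype.card (AddChar (Ch A ⧸ chNull P A A0) ℂ) := Nat.card_eq_fintype_card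
    _ ≤ Fintype.card (Ch A ⧸ chNull P A A0) := AddChar.card_addChar_le _ _
    _ = Nat.card (Ch A ⧸ chNull P A A0) := Nat.card_eq_fintype_card.symm

/-- **(T-P)** Greenberg's condition versus the unit condition: the index of `SelD` in `SelGr` is at
most the number of `D_P`-coinvariants of the character group of `A0`. -/
theorem card_SelGr_le (hpeu : ∀ g : A, IsUnitCoc P A (fun s => A.ρ s g - g))
    (hfin : (SelD P A A0 : Set (GQ → A)).Finite) :
    (SelGr P A A0 : Set (GQ → A)).Finite ∧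
      Nat.card (SelGr P A A0) ≤ Nat.card (Ch A ⧸ chNull P A A0) * Nat.card (SelD P A A0) := by
  haveI : Finite (SelD P A A0) := hfin
  obtain ⟨hYf, hYc⟩ := card_killing_le (P := P) (A := A) (A0 := A0)
  let e : (PhiHom hcyc).ker → SelD P A A0 := fun c =>
    ⟨(c.1 : GQ → A), mem_SelD_of_mem_ker hcyc c.1 c.2⟩
  have he : Function.Injective e := fun c c' h =>
    Subtype.ext (Subtype.ext (congrArg (fun z : SelD P A A0 => (z : GQ → A)) h))
  obtain ⟨h1, h2⟩ := card_le_of_ker_range (PhiHom hcyc)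
    {ψ : AddChar (Ch A) ℂ | ∀ d ∈ chNull P A A0, ψ d = 1} hYf
    (fun c d hd => PhiHom_apply_eq_one hcyc hpeu c hd) e he
  refine ⟨Set.toFinite _, h2.trans ?_⟩
  rw [mul_comm]
  exact Nat.mul_le_mul_right _ hYc

/-- **(T-P)** for an ordinary datum. -/
theorem card_SelGr_le_of_ordDatum {N : ℕ} [Fact N.Prime] (h : OrdDatum P N A A0)
    (hfin : (SelD P A A0 : Set (GQ → A)).Finite) :
    (SelGr P A A0 : Set (GQ → A)).Finite ∧
      Nat.card (SelGr P A A0) ≤ Nat.card (Ch A ⧸ chNull P A A0) * Nat.card (SelD P A A0) :=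
  card_SelGr_le hcyc h.peu hfin

end Main


end Fermat.Agent.S15.D.Greenberg
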