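/-
PROJECT M (S15), block [D] (helper18), part 3: THE DESCENT ALONG A FLAG.

`descent_of_base` : let `(A, A0)` be an ordinary datum with a flag `0 = F 0 ≤ F 1 ≤ … ≤ F n = A`
of Galois-stable submodules whose pieces have order `P` and are either

* of étale type: trivial Galois action, and `F (m+1) ∩ A0 ≤ F m`, or
* of multiplicative type: Galois acts through the cyclotomic character, and `F (m+1) ≤ F m + A0`.

If the inequality `Good` holds for the modules of order `P` of these two types (the two base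
cases: Minkowski and Kummer), then it holds for `(A, A0)`:

  `|SelD P A A0| * |A^(I_N)| ≤ |A0| * |A|`.
-/
import Fermat.Agent.S15.D.UnitCond
import Fermat.Prelude.Def_ExtCitation_KummerBridge

set_option autoImplicit false

namespace Fermat.Agent.S15.D

open Fermat.Agent.S56.Coh Fermat.Agent.CFT.LC Fermat.Agent.CFT.Bridge
  Fermat.Agent.CFT.LocalBridge

variable {k : Type} [CommRing k]

/-! ### Trivial modules -/

theorem good_of_subsingleton (P N : ℕ) [Fact P.Prime] [Fact N.Prime] (A : Rep.{0} k GQ)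
    [Subsingleton A] (A0 : Submodule k A) : Good P N A A0 := by
  have h1 : Subsingleton (GQ → A) := inferInstance
  refine ⟨Set.Subsingleton.finite fun a _ b _ => Subsingleton.elim a b, ?_⟩
  rw [Nat.card_of_subsingleton (0 : ↥(SelD P A A0)), Nat.card_of_subsingleton (0 : ↥(invI N A)),
    Nat.card_of_subsingleton (0 : ↥A0), Nat.card_of_subsingleton (0 : A)]

/-! ### The exact sequences attached to stable submodules -/

section Sub

variable (A : Rep.{0} k GQ) (W : Submodule k A) (hW : ∀ g, W ≤ W.comap (A.ρ g))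

/-- `0 → W → A → A / W → 0`. -/
noncomputable def ExactSeq.ofSub :
    ExactSeq (Rep.subrepresentation A W hW) A (Rep.quotient A W hW) where
  i := W.subtype
  p := W.mkQ
  hi _ _ := rfl
  hp _ _ := rfl
  inj := Subtype.val_injective
  surj := Submodule.mkQ_surjective W
  exact x := by
    change W.mkQ x = 0 ↔ ∃ y : ↥W, (y : A) = x
    rw [Submodule.mkQ_apply, Submodule.Quotient.mk_eq_zero]
    exact ⟨fun h => ⟨⟨x, h⟩, rfl⟩, fun ⟨y, hy⟩ => hy ▸ y.2⟩

variable {P N : ℕ} [Fact P.Prime] [Fact N.Prime]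

/-- Ordinary data restrict to stable submodules. -/
theorem OrdDatum.subRep {A0 : Submodule k A} (h : OrdDatum P N A A0) :
    OrdDatum P N (Rep.subrepresentation A W hW) (A0.comap W.subtype) :=
  h.sub (ExactSeq.ofSub A W hW) A0

/-- If `W = ⊤`, the inequality for `W` gives the inequality for `A`. -/
theorem Good.of_top (hNP : N ≠ P) [Finite A] {A0 : Submodule k A} (h : OrdDatum P N A A0)
    (hWtop : W = ⊤) (hg : Good P N (Rep.subrepresentation A W hW) (A0.comap W.subtype)) :
    Good P N A A0 := by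
  have : Subsingleton (Rep.quotient A W hW) := by
    change Subsingleton (A ⧸ W)
    exact Submodule.Quotient.subsingleton_iff.mpr hWtop
  exact Good.of_exact (ExactSeq.ofSub A W hW) A0 hNP h hg (good_of_subsingleton P N _ _)

end Sub

/-! ### One step of a flag -/

section FlagStep

variable (A : Rep.{0} k GQ) (W V : Submodule k A) (hW : ∀ g, W ≤ W.comap (A.ρ g))
  (hV : ∀ g, V ≤ V.comap (A.ρ g))

include hW in
lemma relSub_stable (g : GQ) :
    W.comap V.subtype ≤ (W.comap V.subtype).comap ((Rep.subrepresentation A V hV).ρ g) :=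
  fun x hx => hW g hx

/-- The piece `V / W` of a flag, as a representation. -/
noncomputable abbrev pieceRep : Rep.{0} k GQ :=
  Rep.quotient (Rep.subrepresentation A V hV) (W.comap V.subtype) (relSub_stable A W V hW hV)

/-- `0 → W → V → V / W → 0` for stable submodules `W ≤ V`. -/
noncomputable def ExactSeq.ofLE (hWV : W ≤ V) :
    ExactSeq (Rep.subrepresentation A W hW) (Rep.subrepresentation A V hV)
      (pieceRep A W V hW hV) where
  i := Submodule.inclusion hWV
  p := (W.comap V.subtype).mkQ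
  hi _ _ := rfl
  hp _ _ := rfl
  inj := Submodule.inclusion_injective hWV
  surj := Submodule.mkQ_surjective _
  exact x := by
    change (W.comap V.subtype).mkQ x = 0 ↔ ∃ y : ↥W, Submodule.inclusion hWV y = x
    rw [Submodule.mkQ_apply, Submodule.Quotient.mk_eq_zero]
    exact ⟨fun h => ⟨⟨x.1, h⟩, rfl⟩, fun ⟨y, hy⟩ => hy ▸ y.2⟩

lemma pieceRep_ρ_mk (s : GQ) (u : ↥V) :
    (pieceRep A W V hW hV).ρ s ((W.comap V.subtype).mkQ u) =
      (W.comap V.subtype).mkQ ⟨A.ρ s u.1, hV s u.2⟩ := rfl

/-- The order of the piece. -/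
lemma card_pieceRep [Finite A] (hWV : W ≤ V) {P : ℕ} (hcard : Nat.card V = P * Nat.card W) :
    Nat.card (pieceRep A W V hW hV) = P := by
  have h1 : Nat.card ↥V = Nat.card (↥V ⧸ W.comap V.subtype) * Nat.card ↥(W.comap V.subtype) := by
    rw [mul_comm]
    exact Submodule.card_eq_card_quotient_mul_card _
  have h2 : Nat.card ↥(W.comap V.subtype) = Nat.card ↥W :=
    Nat.card_congr (Submodule.comapSubtypeEquivOfLe hWV).toEquiv
  rw [h2, hcard] at h1
  have h3 : 0 < Nat.card ↥W := Nat.card_pos
  exact (Nat.eq_of_mul_eq_mul_right h3 h1).symm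

end FlagStep

/-! ### The two base cases, as hypotheses, and the induction -/

section Main

variable {P N : ℕ} [Fact P.Prime] [Fact N.Prime]

/-- Base case of étale type: modules of order `P` with trivial action (Minkowski). -/
def BaseEt (k : Type) [CommRing k] (P N : ℕ) [Fact P.Prime] [Fact N.Prime] : Prop :=
  ∀ C : Rep.{0} k GQ, Nat.card C = P → (∀ (s : GQ) (x : C), C.ρ s x = x) → Good P N C ⊥

/-- Base case of multiplicative type: modules of order `P` on which Galois acts through the
cyclotomic character (Kummer theory). -/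
def BaseMu (k : Type) [CommRing k] (P N : ℕ) [Fact P.Prime] [Fact N.Prime] : Prop :=
  ∀ C : Rep.{0} k GQ, Nat.card C = P →
    (∀ (s : GQ) (x : C), C.ρ s x = ExtCitation.cycloExp P s • x) → Good P N C ⊤

/-- One step up a flag. -/
theorem Good.flag_step (hNP : N ≠ P) (A : Rep.{0} k GQ) [Finite A] {A0 : Submodule k A}
    (h : OrdDatum P N A A0) (W V : Submodule k A) (hW : ∀ g, W ≤ W.comap (A.ρ g))
    (hV : ∀ g, V ≤ V.comap (A.ρ g)) (hWV : W ≤ V)
    (hE : BaseEt k P N) (hM : BaseMu k P N) (hcard : Nat.card V = P * Nat.card W)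
    (hpiece : ((∀ s : GQ, ∀ u ∈ V, A.ρ s u - u ∈ W) ∧ V ⊓ A0 ≤ W) ∨
      ((∀ s : GQ, ∀ u ∈ V, A.ρ s u - ExtCitation.cycloExp P s • u ∈ W) ∧ V ≤ W ⊔ A0))
    (hgW : Good P N (Rep.subrepresentation A W hW) (A0.comap W.subtype)) :
    Good P N (Rep.subrepresentation A V hV) (A0.comap V.subtype) := by
  have hfin : Finite (Rep.subrepresentation A V hV) := (inferInstance : Finite ↥V)
  have hC : Good P N (Rep.subrepresentation A W hW)
      ((A0.comap V.subtype).comap (ExactSeq.ofLE A W V hW hV hWV).i) := hgW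
  have hQ : Good P N (pieceRep A W V hW hV)
      ((A0.comap V.subtype).map (ExactSeq.ofLE A W V hW hV hWV).p) := by
    change Good P N (pieceRep A W V hW hV) ((A0.comap V.subtype).map (W.comap V.subtype).mkQ)
    rcases hpiece with ⟨hact, hlab⟩ | ⟨hact, hlab⟩
    · have h0 : (A0.comap V.subtype).map (W.comap V.subtype).mkQ = ⊥ := by
        rw [eq_bot_iff]
        rintro _ ⟨u, hu, rfl⟩
        rw [Submodule.mem_bot, Submodule.mkQ_apply, Submodule.Quotient.mk_eq_zero]
        exact hlab ⟨u.2, hu⟩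
      rw [h0]
      refine hE _ (card_pieceRep A W V hW hV hWV hcard) fun s x => ?_
      obtain ⟨u, rfl⟩ := Submodule.mkQ_surjective _ x
      rw [pieceRep_ρ_mk, Submodule.mkQ_apply, Submodule.mkQ_apply, Submodule.Quotient.eq]
      exact hact s u.1 u.2
    · have h1 : (A0.comap V.subtype).map (W.comap V.subtype).mkQ = ⊤ := by
        rw [eq_top_iff]
        rintro x -
        obtain ⟨u, rfl⟩ := Submodule.mkQ_surjective _ x
        obtain ⟨f, hf, a, ha, hfa⟩ := Submodule.mem_sup.1 (hlab u.2)
        have haV : a ∈ V := by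
          have : a = u.1 - f := by rw [← hfa]; abel
          rw [this]
          exact V.sub_mem u.2 (hWV hf)
        refine ⟨⟨a, haV⟩, ha, ?_⟩
        rw [Submodule.mkQ_apply, Submodule.mkQ_apply, Submodule.Quotient.eq]
        change a - u.1 ∈ W
        have : a - u.1 = -f := by rw [← hfa]; abel
        rw [this]
        exact W.neg_mem hf
      rw [h1]
      refine hM _ (card_pieceRep A W V hW hV hWV hcard) fun s x => ?_
      obtain ⟨u, rfl⟩ := Submodule.mkQ_surjective _ x
      rw [pieceRep_ρ_mk, ← map_nsmul, Submodule.mkQ_apply, Submodule.mkQ_apply,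
        Submodule.Quotient.eq]
      exact hact s u.1 u.2
  exact Good.of_exact (ExactSeq.ofLE A W V hW hV hWV) _ hNP (h.subRep A V hV) hC hQ

/-- **The descent along a flag**, modulo the two base cases. -/
theorem descent_of_base (hNP : N ≠ P) (A : Rep.{0} k GQ) [Finite A] (A0 : Submodule k A)
    (h : OrdDatum P N A A0) (hE : BaseEt k P N) (hM : BaseMu k P N)
    (n : ℕ) (F : ℕ → Submodule k A) (hbot : F 0 = ⊥) (htop : F n = ⊤)
    (hmono : ∀ m, F m ≤ F (m + 1)) (hst : ∀ (m : ℕ) (s : GQ), ∀ u ∈ F m, A.ρ s u ∈ F m)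
    (hpieces : ∀ m < n, Nat.card (F (m + 1)) = P * Nat.card (F m) ∧
      (((∀ s : GQ, ∀ u ∈ F (m + 1), A.ρ s u - u ∈ F m) ∧ F (m + 1) ⊓ A0 ≤ F m) ∨
        ((∀ s : GQ, ∀ u ∈ F (m + 1), A.ρ s u - ExtCitation.cycloExp P s • u ∈ F m) ∧
          F (m + 1) ≤ F m ⊔ A0))) :
    Good P N A A0 := by
  have key : ∀ m, m ≤ n → Good P N (Rep.subrepresentation A (F m) fun g u hu => hst m g u hu)
      (A0.comap (F m).subtype) := by
    intro m
    induction m with
    | zero =>
      intro _
      have hs : Subsingleton ↥(F 0) := by rw [hbot]; infer_instance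
      exact @good_of_subsingleton k _ P N _ _ _ hs _
    | succ m ih =>
      intro hm
      exact Good.flag_step hNP A h (F m) (F (m + 1)) _ _ (hmono m) hE hM
        (hpieces m hm).1 (hpieces m hm).2 (ih (Nat.le_of_succ_le hm))
  exact Good.of_top A (F n) _ hNP h htop (key n le_rfl)

/-- The same with the flag packaged as an existential (the shape other blocks produce). -/
theorem descent_of_base' (hNP : N ≠ P) (A : Rep.{0} k GQ) [Finite A] (A0 : Submodule k A)
    (h : OrdDatum P N A A0) (hE : BaseEt k P N) (hM : BaseMu k P N)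
    (hflag : ∃ n : ℕ, ∃ F : ℕ → Submodule k A, F 0 = ⊥ ∧ F n = ⊤ ∧ (∀ m, F m ≤ F (m + 1)) ∧
      (∀ (m : ℕ) (s : GQ), ∀ u ∈ F m, A.ρ s u ∈ F m) ∧
      ∀ m < n, Nat.card (F (m + 1)) = P * Nat.card (F m) ∧
        (((∀ s : GQ, ∀ u ∈ F (m + 1), A.ρ s u - u ∈ F m) ∧ F (m + 1) ⊓ A0 ≤ F m) ∨
          ((∀ s : GQ, ∀ u ∈ F (m + 1), A.ρ s u - ExtCitation.cycloExp P s • u ∈ F m) ∧
            F (m + 1) ≤ F m ⊔ A0))) :
    Good P N A A0 := by
  obtain ⟨n, F, hbot, htop, hmono, hst, hpieces⟩ := hflag
  exact descent_of_base hNP A A0 h hE hM n F hbot htop hmono hst hpieces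

end Main

end Fermat.Agent.S15.D
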