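/-
PROJECT M (S15), block [D] (formal descent), leaf (L1) (helper28): THE TWO BASE CASES OF THE
DESCENT, for an arbitrary Galois module of order `P`.

A Galois module `C` of order `P` (over any coefficient ring `k`) is, as an abelian group, `ℤ/P`.
Transporting cocycles along an additive isomorphism `C ≃+ ℤ/P` which is Galois-equivariant:

* `good_of_trivial`    : if the action is trivial, every Selmer cocycle with condition `⊥` at `P`
  is unramified everywhere, hence zero (helper23's (B1), Minkowski);  `Good P N C ⊥`;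
* `good_of_cyclotomic` : if the action is through the cyclotomic character, the Selmer cocycles
  with condition `⊤` at `P` inject into helper23's `selMU hζ ∅`, which has at most `P` elements
  ((B3), Kummer theory); `Good P N C ⊤`.

These are exactly helper18's hypotheses `BaseEt k P N`, `BaseMu k P N` of `S15/D/Flag`:
`baseEt`, `baseMu`, and `descent` is the descent along a flag with no base-case hypotheses.
-/
import Fermat.Agent.S15.D.Flag
import Fermat.Agent.S15.D.BaseKummer

set_option autoImplicit false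

namespace Fermat.Agent.S15.D.Piece

open Fermat.Agent.S56.Coh Fermat.Agent.CFT.LC Fermat.Agent.CFT.Bridge
  Fermat.Agent.CFT.LocalBridge
open Fermat.Agent.S15.D Fermat.Agent.S15.D.Base Fermat.Agent.S15.D.BaseKummer

/-! ### Transport of cocycles along an equivariant additive map (change of coefficient ring) -/

section Transport

variable {k k' : Type} [CommRing k] [CommRing k'] {A : Rep.{0} k GQ} {B : Rep.{0} k' GQ}
  (f : A →+ B) (hf : ∀ (s : GQ) (x : A), f (A.ρ s x) = B.ρ s (f x))

include hf

lemma addComp_mem_Z1g {c : GQ → A} (hc : c ∈ Z1g A) : (fun s => f (c s)) ∈ Z1g B := by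
  rw [mem_Z1g_iff] at hc ⊢
  obtain ⟨h1, U, hU, h2, h3⟩ := hc
  refine ⟨fun g h => ?_, U, hU, fun g s hs => ?_, fun g s hs => ?_⟩
  · rw [h1 g h, map_add, hf]
  · change f (c (g * s)) = f (c g)
    rw [h2 g s hs]
  · change B.ρ s (f (c g)) = f (c g)
    rw [← hf, h3 g s hs]

lemma isUnramAt_addComp {q : ℕ} [Fact q.Prime] {c : GQ → A} (hc : IsUnramAt q c) :
    IsUnramAt q (fun s => f (c s)) := by
  obtain ⟨a, ha⟩ := hc
  exact ⟨f a, fun s hs => by
    change f (c s) = B.ρ s (f a) - f a
    rw [ha s hs, map_sub, hf]⟩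

end Transport

/-! ### A module of order `P` is `ℤ/P` -/

section Order

variable {k : Type} [CommRing k] (P N : ℕ) [Fact P.Prime] [Fact N.Prime] (C : Rep.{0} k GQ)
  (hcard : Nat.card C = P)

include hcard

/-- An additive identification of a module of order `P` with `ℤ/P`. -/
noncomputable def zmodEquiv : C ≃+ ZMod P :=
  (zmodAddCyclicAddEquiv (isAddCyclic_of_prime_card hcard)).symm.trans
    (ZMod.ringEquivCongr hcard).toAddEquiv

lemma finite_of_card : Finite C :=
  Nat.finite_of_card_ne_zero (by rw [hcard]; exact (Fact.out : P.Prime).ne_zero)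

lemma card_invI_le : Nat.card (invI N C) ≤ P := by
  have := finite_of_card P C hcard
  calc Nat.card (invI N C) ≤ Nat.card C := Nat.card_le_card_of_injective _ Subtype.val_injective
    _ = P := hcard

/-! ### Etale type -/

/-- A Selmer cocycle of a module of order `P` with trivial action and condition `⊥` at `P` is
zero. -/
theorem eq_zero_of_mem_SelD_bot (htriv : ∀ (s : GQ) (x : C), C.ρ s x = x) {c : GQ → C}
    (hc : c ∈ SelD P C ⊥) : c = 0 := by
  obtain ⟨h1, h2, h3, -⟩ := mem_SelD_iff.1 hc
  set e := zmodEquiv P C hcard with he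
  let f : C →+ ET P := e.toAddMonoidHom
  have hf : ∀ (s : GQ) (x : C), f (C.ρ s x) = (ET P).ρ s (f x) :=
    fun s x => by rw [htriv]; rfl
  have hZ : (fun s => f (c s)) ∈ Z1g (ET P) := addComp_mem_Z1g f hf h1
  have h0 := eq_zero_of_forall_isUnramAt hZ fun q _ => by
    by_cases hq : q = P
    · subst hq
      refine isUnramAt_ET_iff.2 fun s hs => ?_
      have h4 : c s = 0 := (Submodule.mem_bot k).1 (h3 s hs)
      change f (c s) = 0
      rw [h4, map_zero]
    · exact isUnramAt_addComp f hf (h2 q hq)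
  funext s
  have h5 : e (c s) = 0 := congrFun h0 s
  exact (map_eq_zero_iff e e.injective).1 h5

theorem SelD_bot_eq_bot (htriv : ∀ (s : GQ) (x : C), C.ρ s x = x) : SelD P C ⊥ = ⊥ := by
  rw [eq_bot_iff]
  intro c hc
  rw [Submodule.mem_bot]
  exact eq_zero_of_mem_SelD_bot P C hcard htriv hc

/-- **Base case of étale type.** -/
theorem good_of_trivial (htriv : ∀ (s : GQ) (x : C), C.ρ s x = x) : Good P N C ⊥ := by
  have hbot := SelD_bot_eq_bot P C hcard htriv
  refine ⟨?_, ?_⟩
  · rw [hbot]
    exact Set.finite_singleton 0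
  · rw [hbot, Nat.card_of_subsingleton (0 : ↥(⊥ : Submodule k (GQ → C))),
      Nat.card_of_subsingleton (0 : ↥(⊥ : Submodule k C)), one_mul, one_mul, hcard]
    exact card_invI_le P N C hcard

/-! ### Multiplicative type -/

/-- The identification with `ℤ/P` is equivariant when Galois acts through the cyclotomic
character. -/
lemma zmodEquiv_rho (hcyc : ∀ (s : GQ) (x : C), C.ρ s x = ExtCitation.cycloExp P s • x)
    (s : GQ) (x : C) :
    (zmodEquiv P C hcard).toAddMonoidHom (C.ρ s x) =
      (MU P).ρ s ((zmodEquiv P C hcard).toAddMonoidHom x) := by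
  rw [hcyc, map_nsmul, rho_MU, om, ExtCitation.coe_cycloChar, nsmul_eq_mul]

/-- The Selmer cocycles with condition `⊤` at `P` transport to helper23's `selMU hζ ∅`. -/
theorem comp_mem_selMU (hcyc : ∀ (s : GQ) (x : C), C.ρ s x = ExtCitation.cycloExp P s • x)
    {ζ : Qbar} (hζ : IsPrimitiveRoot ζ P) {c : GQ → C} (hc : c ∈ SelD P C ⊤) :
    (fun s => (zmodEquiv P C hcard).toAddMonoidHom (c s) : GQ → MU P) ∈ selMU hζ ∅ := by
  obtain ⟨h1, h2, -, h4⟩ := mem_SelD_iff.1 hc
  have hf := zmodEquiv_rho P C hcard hcyc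
  refine (mem_selMU_iff hζ ∅ _).2 ⟨addComp_mem_Z1g _ hf h1,
    fun q _ hq _ => isUnramAt_addComp _ hf (h2 q hq), ?_⟩
  refine unitAt_of_forall_hom hζ fun d => ?_
  obtain ⟨w, hw0, hw1, hw⟩ := h4 (d.comp (zmodEquiv P C hcard).toAddMonoidHom)
  exact ⟨w, hw0, hw1, fun s hs => hw s hs⟩

/-- **Base case of multiplicative type.** -/
theorem good_of_cyclotomic
    (hcyc : ∀ (s : GQ) (x : C), C.ρ s x = ExtCitation.cycloExp P s • x) : Good P N C ⊤ := by
  obtain ⟨ζ, hζ⟩ := exists_isPrimitiveRoot_Qbar P
  have := finite_selMU_strict hζ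
  let Φ : ↥(SelD P C ⊤) → ↥(selMU hζ ∅) := fun c =>
    ⟨fun s => (zmodEquiv P C hcard).toAddMonoidHom (c.1 s), comp_mem_selMU P C hcard hcyc hζ c.2⟩
  have hΦ : Function.Injective Φ := by
    intro c c' h
    apply Subtype.ext
    funext s
    have h1 : (zmodEquiv P C hcard) (c.1 s) = (zmodEquiv P C hcard) (c'.1 s) :=
      congrFun (congrArg Subtype.val h) s
    exact (zmodEquiv P C hcard).injective h1
  have hfin : Finite ↥(SelD P C ⊤) := Finite.of_injective Φ hΦ
  refine ⟨Set.finite_coe_iff.mp hfin, ?_⟩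
  have h1 : Nat.card (SelD P C ⊤) ≤ P :=
    (Nat.card_le_card_of_injective Φ hΦ).trans (card_selMU_strict_cocycles_le hζ)
  have h2 : Nat.card (⊤ : Submodule k C) = P := by
    rw [← hcard]
    exact Nat.card_congr (Submodule.topEquiv (R := k) (M := C)).toEquiv
  rw [h2, hcard]
  exact Nat.mul_le_mul h1 (card_invI_le P N C hcard)

end Order

/-! ### The two hypotheses of `Flag`, and the descent with no base-case hypotheses -/

section Descent

variable (k : Type) [CommRing k] (P N : ℕ) [Fact P.Prime] [Fact N.Prime]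

theorem baseEt : BaseEt k P N := fun C hcard htriv => good_of_trivial P N C hcard htriv

theorem baseMu : BaseMu k P N := fun C hcard hcyc => good_of_cyclotomic P N C hcard hcyc

variable {k P N}

/-- **The descent along a flag**: for an ordinary datum `(A, A0)` with a flag of Galois-stable
submodules whose pieces have order `P` and are of étale or of multiplicative type,
`|SelD P A A0| * |A^(I_N)| ≤ |A0| * |A|`. -/
theorem descent (hNP : N ≠ P) (A : Rep.{0} k GQ) [Finite A] (A0 : Submodule k A)
    (h : OrdDatum P N A A0)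
    (hflag : ∃ n : ℕ, ∃ F : ℕ → Submodule k A, F 0 = ⊥ ∧ F n = ⊤ ∧ (∀ m, F m ≤ F (m + 1)) ∧
      (∀ (m : ℕ) (s : GQ), ∀ u ∈ F m, A.ρ s u ∈ F m) ∧
      ∀ m < n, Nat.card (F (m + 1)) = P * Nat.card (F m) ∧
        (((∀ s : GQ, ∀ u ∈ F (m + 1), A.ρ s u - u ∈ F m) ∧ F (m + 1) ⊓ A0 ≤ F m) ∨
          ((∀ s : GQ, ∀ u ∈ F (m + 1), A.ρ s u - ExtCitation.cycloExp P s • u ∈ F m) ∧
            F (m + 1) ≤ F m ⊔ A0))) :
    Good P N A A0 :=
  descent_of_base' hNP A A0 h (baseEt k P N) (baseMu k P N) hflag

end Descent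

end Fermat.Agent.S15.D.Piece
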