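/-
PROJECT M (S15), block [D] (formal descent), THE FINAL GLUE (helper28): (D-main).

Inputs (all compiled, branch-only):
* `Piece.descent`              (helper18's core + helper23's base cases + (L1)):
    `|SelD P A A0| * |A^(I_N)| ≤ |A0| * |A|` for an ordinary datum with a labelled flag;
* `LocalN.Relax.card_relaxed_le` (helper21's (T-N) + the chief's (K-N-alg)):
    relaxing "unramified at `N`" costs the constant `n² * (cst N) ^ d`;
* `G.Flag.exists_flag`         (helper2's (L4)): the labelled flag from a coarse filtration;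
* `Greenberg.card_SelGr_le_of_ordDatum` (helper23's (L3) = (T-P)): Greenberg's condition at `P`
  costs the factor `|Ch A ⧸ chNull P A A0|` (the `D_P`-coinvariants of the characters of `A0`).

`main`, `kshape` are stated for an ARBITRARY condition `L` at `P` with the comparison
`hL : |SelL P A L| ≤ CP * |SelD P A A0|` as a named hypothesis; `main_greenberg`,
`kshape_greenberg` are the instances `L := Greenberg.GrP P A A0` with `hL` a theorem.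

Output: for the `N`-relaxed Selmer cocycles `SelRelax P N A L` with condition `L` at `P`,

  `|SelRelax P N A L| * |A^(I_N)| ≤ n² * (cst N) ^ d * CP * (|A0| * |A|)`        (`main`),

and the shape consumed by block [K] (`kshape`): if moreover `|A0|² ≤ Ch² * |A|` then
`Sel := SelRelax P N A L` contains every cocycle unramified outside `P N` with values in `A0` on
the inertia group at `P`, contains the coboundaries, is finite, and
`|Sel| * |H⁰(ℚ, A)| ≤ (n² * (cst N) ^ d * CP * Ch * |H⁰(ℚ, A)|) * |A|`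
(helper21's `LocalN/Half`: `(s - 1)² = 0` on `I_N` gives `|A| ≤ |A^(I_N)|²`).
-/
import Fermat.Agent.S15.D.Piece
import Fermat.Agent.S15.D.Classes
import Fermat.Agent.S15.D.Greenberg
import Fermat.Agent.S15.LocalN.Relax
import Fermat.Agent.S15.LocalN.Half
import Fermat.Agent.S15.G.Flag

set_option autoImplicit false

namespace Fermat.Agent.S15.D.Main

open Polynomial
open Fermat.Agent.S56.Coh Fermat.Agent.CFT.LC Fermat.Agent.CFT.Bridge
  Fermat.Agent.CFT.LocalBridge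
open Fermat.Agent.S15.D Fermat.Agent.S15.LocalN.Core Fermat.Agent.S15.D.Greenberg

variable {k : Type} [CommRing k]

/-! ### The `N`-relaxed Selmer cocycles -/

/-- Selmer cocycles relaxed at `N`: global cocycles, unramified at every `q ≠ P, N`, in `L` (a
condition at `P`). -/
def SelRelax (P N : ℕ) (A : Rep.{0} k GQ) (L : Submodule k (GQ → A)) :
    Submodule k (GQ → A) where
  carrier := {c | c ∈ Z1g A ∧
    (∀ (q : ℕ) [Fact q.Prime], q ≠ P → q ≠ N → IsUnramAt q c) ∧ c ∈ L}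
  add_mem' := by
    rintro c c' ⟨hc, hu, hL⟩ ⟨hc', hu', hL'⟩
    exact ⟨Submodule.add_mem _ hc hc', fun q _ hq hqN => (hu q hq hqN).add (hu' q hq hqN),
      Submodule.add_mem _ hL hL'⟩
  zero_mem' := ⟨Submodule.zero_mem _, fun q _ _ _ => isUnramAt_zero q, Submodule.zero_mem _⟩
  smul_mem' := by
    rintro r c ⟨hc, hu, hL⟩
    exact ⟨Submodule.smul_mem _ r hc, fun q _ hq hqN => (hu q hq hqN).smul r,
      Submodule.smul_mem _ r hL⟩

lemma mem_SelRelax_iff {P N : ℕ} {A : Rep.{0} k GQ} {L : Submodule k (GQ → A)} {c : GQ → A} :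
    c ∈ SelRelax P N A L ↔ c ∈ Z1g A ∧
      (∀ (q : ℕ) [Fact q.Prime], q ≠ P → q ≠ N → IsUnramAt q c) ∧ c ∈ L := Iff.rfl

lemma SelL_le_SelRelax (P N : ℕ) (A : Rep.{0} k GQ) (L : Submodule k (GQ → A)) :
    SelL P A L ≤ SelRelax P N A L := fun _ hc =>
  ⟨hc.1, fun q _ hq _ => hc.2.1 q hq, hc.2.2⟩

lemma SelL_mono {P : ℕ} {A : Rep.{0} k GQ} {L L' : Submodule k (GQ → A)} (h : L ≤ L') :
    SelL P A L ≤ SelL P A L' := fun _ hc => ⟨hc.1, hc.2.1, h hc.2.2⟩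

lemma LP_le_GrP (P : ℕ) [Fact P.Prime] (A : Rep.{0} k GQ) (A0 : Submodule k A) :
    LP P A A0 ≤ GrP P A A0 := fun _ hc => hc.1

/-! ### Small translations between the blocks -/

section Translate

variable {N : ℕ} [Fact N.Prime] {A : Rep.{0} k GQ}

/-- helper21's `invN` is helper18's `invI`. -/
lemma invN_eq_invI : Fermat.Agent.S15.LocalN.Relax.invN N A = invI N A := by
  ext a
  exact Iff.rfl

/-- a common level of the whole module makes every vector smooth -/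
lemma isLC₀_of_level (hsm : ∃ U ∈ levelsAll.sets, ∀ s ∈ U, ∀ a : A, A.ρ s a = a) (a : A) :
    IsLC₀ levelsAll A a := by
  obtain ⟨U, hU, h⟩ := hsm
  exact ⟨U, hU, fun s hs => h s hs a⟩

end Translate

/-! ### (D-main) -/

section MainThm

variable {P N : ℕ} [Fact P.Prime] [Fact N.Prime] {A : Rep.{0} k GQ}

/-- **(T-N) in the frame of the descent**: the `N`-relaxed Selmer cocycles with an arbitrary
condition `L` at `P` are finite as soon as the strict ones are, and more numerous by the factor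
`n² * (cst N) ^ d` at most. -/
theorem relaxed_le [Finite A] {j : ℕ} (hNP : N ≠ P)
    (hsm : ∃ U ∈ levelsAll.sets, ∀ s ∈ U, ∀ a : A, A.ρ s a = a)
    (hU : ∀ s ∈ Iq N, ∀ a : A, A.ρ s (A.ρ s a) + a = 2 • A.ρ s a)
    (hA : ∀ a : A, (P ^ j) • a = 0)
    {φ : GQ} (hφ : (padicPlace N).IsFrobeniusAt φ N)
    (hpoly : aeval (A.ρ φ * A.ρ φ) (pPoly N) = 0)
    (n d : ℕ) (hinv : Nat.card ↥(invI N A) ^ 2 ≤ n ^ 2 * Nat.card A)
    (htors : Nat.card {x : A // cst N • x = 0} ≤ cst N ^ d)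
    (L : Submodule k (GQ → A)) (hfin : (SelL P A L : Set (GQ → A)).Finite) :
    (SelRelax P N A L : Set (GQ → A)).Finite ∧
      Nat.card ↥(SelRelax P N A L) ≤ n ^ 2 * cst N ^ d * Nat.card ↥(SelL P A L) := by
  have hP : P.Prime := Fact.out
  have hS : ∀ c, c ∈ SelL P A L ↔
      c ∈ Z1g A ∧ (∀ (q : ℕ) [Fact q.Prime], q ≠ P → IsUnramAt q c) ∧ c ∈ L := fun _ => Iff.rfl
  have hSrel : ∀ c, c ∈ SelRelax P N A L ↔
      c ∈ Z1g A ∧ (∀ (q : ℕ) [Fact q.Prime], q ≠ P → q ≠ N → IsUnramAt q c) ∧ c ∈ L :=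
    fun _ => Iff.rfl
  have hinv' : Nat.card ↥(Fermat.Agent.S15.LocalN.Relax.invN N A) ^ 2 ≤ n ^ 2 * Nat.card A := by
    rw [invN_eq_invI]
    exact hinv
  have : Finite ↥(SelL P A L) := hfin.to_subtype
  have hfinR : Finite ↥(SelRelax P N A L) :=
    Fermat.Agent.S15.D.RelaxN.finite_relaxed hP hNP.symm hsm hU hA L (SelL P A L)
      (SelRelax P N A L) hS hSrel
  exact ⟨Set.finite_coe_iff.mp hfinR,
    Fermat.Agent.S15.LocalN.Relax.card_relaxed_le hP hNP.symm hsm hU hA hφ hpoly n d hinv' htors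
      L (SelL P A L) (SelRelax P N A L) hS hSrel⟩

/-- **(D-main)**, flag form.  For an ordinary datum `(A, A0)` with a labelled flag, unipotent
inertia of level two at `N` with the constants `n, d` of (K-N-alg), and a condition `L` at `P`
whose Selmer cocycles are at most `CP` times as many as those of the unit condition:

  `|SelRelax P N A L| * |A^(I_N)| ≤ n² * (cst N) ^ d * CP * (|A0| * |A|)`. -/
theorem main [Finite A] {j : ℕ} (hNP : N ≠ P) (A0 : Submodule k A) (h : OrdDatum P N A A0)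
    (hflag : ∃ n : ℕ, ∃ F : ℕ → Submodule k A, F 0 = ⊥ ∧ F n = ⊤ ∧ (∀ m, F m ≤ F (m + 1)) ∧
      (∀ (m : ℕ) (s : GQ), ∀ u ∈ F m, A.ρ s u ∈ F m) ∧
      ∀ m < n, Nat.card (F (m + 1)) = P * Nat.card (F m) ∧
        (((∀ s : GQ, ∀ u ∈ F (m + 1), A.ρ s u - u ∈ F m) ∧ F (m + 1) ⊓ A0 ≤ F m) ∨
          ((∀ s : GQ, ∀ u ∈ F (m + 1), A.ρ s u - ExtCitation.cycloExp P s • u ∈ F m) ∧
            F (m + 1) ≤ F m ⊔ A0)))
    (hsm : ∃ U ∈ levelsAll.sets, ∀ s ∈ U, ∀ a : A, A.ρ s a = a)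
    (hU : ∀ s ∈ Iq N, ∀ a : A, A.ρ s (A.ρ s a) + a = 2 • A.ρ s a)
    (hA : ∀ a : A, (P ^ j) • a = 0)
    {φ : GQ} (hφ : (padicPlace N).IsFrobeniusAt φ N)
    (hpoly : aeval (A.ρ φ * A.ρ φ) (pPoly N) = 0)
    (n d : ℕ) (hinv : Nat.card ↥(invI N A) ^ 2 ≤ n ^ 2 * Nat.card A)
    (htors : Nat.card {x : A // cst N • x = 0} ≤ cst N ^ d)
    (L : Submodule k (GQ → A)) (CP : ℕ)
    (hL : (SelL P A L : Set (GQ → A)).Finite ∧
      Nat.card ↥(SelL P A L) ≤ CP * Nat.card ↥(SelD P A A0)) :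
    (SelRelax P N A L : Set (GQ → A)).Finite ∧
      Nat.card ↥(SelRelax P N A L) * Nat.card ↥(invI N A) ≤
        n ^ 2 * cst N ^ d * CP * (Nat.card ↥A0 * Nat.card A) := by
  have hg : Good P N A A0 := Piece.descent hNP A A0 h hflag
  obtain ⟨hfinR, hR⟩ := relaxed_le hNP hsm hU hA hφ hpoly n d hinv htors L hL.1
  refine ⟨hfinR, ?_⟩
  calc Nat.card ↥(SelRelax P N A L) * Nat.card ↥(invI N A)
      ≤ n ^ 2 * cst N ^ d * Nat.card ↥(SelL P A L) * Nat.card ↥(invI N A) :=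
        Nat.mul_le_mul_right _ hR
    _ ≤ n ^ 2 * cst N ^ d * (CP * Nat.card ↥(SelD P A A0)) * Nat.card ↥(invI N A) :=
        Nat.mul_le_mul_right _ (Nat.mul_le_mul_left _ hL.2)
    _ = n ^ 2 * cst N ^ d * CP * (Nat.card ↥(SelD P A A0) * Nat.card ↥(invI N A)) := by ring
    _ ≤ n ^ 2 * cst N ^ d * CP * (Nat.card ↥A0 * Nat.card A) := Nat.mul_le_mul_left _ hg.2

/-- **(D-main), the shape consumed by block [K]** (`K/Count.seamStar_of_card_cocycles_le`): with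
`|A0|² ≤ Ch² * |A|` (`α ≥ half` up to a constant), `Sel := SelRelax P N A L` satisfies the four
hypotheses `hSel`, finiteness, `hB`, `hcard` of [K] with the constant
`n² * (cst N) ^ d * CP * Ch * |H⁰(ℚ, A)|`. -/
theorem kshape [Finite A] {j : ℕ} (hNP : N ≠ P) (A0 : Submodule k A) (h : OrdDatum P N A A0)
    (hflag : ∃ n : ℕ, ∃ F : ℕ → Submodule k A, F 0 = ⊥ ∧ F n = ⊤ ∧ (∀ m, F m ≤ F (m + 1)) ∧
      (∀ (m : ℕ) (s : GQ), ∀ u ∈ F m, A.ρ s u ∈ F m) ∧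
      ∀ m < n, Nat.card (F (m + 1)) = P * Nat.card (F m) ∧
        (((∀ s : GQ, ∀ u ∈ F (m + 1), A.ρ s u - u ∈ F m) ∧ F (m + 1) ⊓ A0 ≤ F m) ∨
          ((∀ s : GQ, ∀ u ∈ F (m + 1), A.ρ s u - ExtCitation.cycloExp P s • u ∈ F m) ∧
            F (m + 1) ≤ F m ⊔ A0)))
    (hsm : ∃ U ∈ levelsAll.sets, ∀ s ∈ U, ∀ a : A, A.ρ s a = a)
    (hU : ∀ s ∈ Iq N, ∀ a : A, A.ρ s (A.ρ s a) + a = 2 • A.ρ s a)
    (hA : ∀ a : A, (P ^ j) • a = 0)
    {φ : GQ} (hφ : (padicPlace N).IsFrobeniusAt φ N)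
    (hpoly : aeval (A.ρ φ * A.ρ φ) (pPoly N) = 0)
    (n d : ℕ) (hinv : Nat.card ↥(invI N A) ^ 2 ≤ n ^ 2 * Nat.card A)
    (htors : Nat.card {x : A // cst N • x = 0} ≤ cst N ^ d)
    (L : Submodule k (GQ → A)) (CP : ℕ)
    (hL : (SelL P A L : Set (GQ → A)).Finite ∧
      Nat.card ↥(SelL P A L) ≤ CP * Nat.card ↥(SelD P A A0))
    (hLP : LP P A A0 ≤ L) (hGr : GrP P A A0 ≤ L)
    (Ch : ℕ) (hhalf : Nat.card ↥A0 ^ 2 ≤ Ch ^ 2 * Nat.card A) :
    (∀ c ∈ Z1g A, (∀ (q : ℕ) [Fact q.Prime], ¬ q ∣ P * N → IsUnramAt q c) →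
        (∀ σ ∈ Iq P, c σ ∈ A0) → c ∈ SelRelax P N A L) ∧
      Finite ↥(SelRelax P N A L) ∧ B1g A ≤ SelRelax P N A L ∧
      Nat.card ↥(SelRelax P N A L) * Nat.card {a : A // ∀ g : GQ, A.ρ g a = a} ≤
        n ^ 2 * cst N ^ d * CP * Ch * Nat.card {a : A // ∀ g : GQ, A.ρ g a = a} *
          Nat.card A := by
  have hP : P.Prime := Fact.out
  have hN : N.Prime := Fact.out
  obtain ⟨hfinR, hR⟩ := main hNP A0 h hflag hsm hU hA hφ hpoly n d hinv htors L CP hL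
  refine ⟨fun c hc hur hGrc => ⟨hc, fun q hq hqP hqN => hur q fun hdvd => ?_, hGr hGrc⟩,
    hfinR.to_subtype,
    (B1g_le_SelD h).trans ((SelL_mono hLP).trans (SelL_le_SelRelax P N A L)), ?_⟩
  · rcases (Nat.Prime.dvd_mul hq.out).1 hdvd with h1 | h1
    · exact hqP ((Nat.prime_dvd_prime_iff_eq hq.out hP).1 h1)
    · exact hqN ((Nat.prime_dvd_prime_iff_eq hq.out hN).1 h1)
  · have hpos : 0 < Nat.card ↥(invI N A) := Nat.card_pos
    have hhalf' : Nat.card ↥A0 ≤ Ch * Nat.card ↥(invI N A) := by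
      have h0 := Fermat.Agent.S15.LocalN.Half.card_le_mul_card_invN hP hNP.symm hsm hU hA A0 Ch
        hhalf
      rwa [invN_eq_invI] at h0
    have h1 : Nat.card ↥(SelRelax P N A L) * Nat.card ↥(invI N A) ≤
        n ^ 2 * cst N ^ d * CP * Ch * Nat.card A * Nat.card ↥(invI N A) := by
      calc Nat.card ↥(SelRelax P N A L) * Nat.card ↥(invI N A)
          ≤ n ^ 2 * cst N ^ d * CP * (Nat.card ↥A0 * Nat.card A) := hR
        _ ≤ n ^ 2 * cst N ^ d * CP * (Ch * Nat.card ↥(invI N A) * Nat.card A) :=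
            Nat.mul_le_mul_left _ (Nat.mul_le_mul_right _ hhalf')
        _ = n ^ 2 * cst N ^ d * CP * Ch * Nat.card A * Nat.card ↥(invI N A) := by ring
    have h2 : Nat.card ↥(SelRelax P N A L) ≤ n ^ 2 * cst N ^ d * CP * Ch * Nat.card A :=
      Nat.le_of_mul_le_mul_right h1 hpos
    calc Nat.card ↥(SelRelax P N A L) * Nat.card {a : A // ∀ g : GQ, A.ρ g a = a}
        ≤ n ^ 2 * cst N ^ d * CP * Ch * Nat.card A *
            Nat.card {a : A // ∀ g : GQ, A.ρ g a = a} := Nat.mul_le_mul_right _ h2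
      _ = n ^ 2 * cst N ^ d * CP * Ch * Nat.card {a : A // ∀ g : GQ, A.ρ g a = a} *
            Nat.card A := by ring

/-- **(D-main) with Greenberg's condition at `P`** (`L := GrP P A A0`, helper23's (T-P) plugged
in): `CP = |Ch A ⧸ chNull P A A0|`. -/
theorem main_greenberg [Finite A] {j : ℕ} (hNP : N ≠ P) (A0 : Submodule k A)
    (h : OrdDatum P N A A0)
    (hflag : ∃ n : ℕ, ∃ F : ℕ → Submodule k A, F 0 = ⊥ ∧ F n = ⊤ ∧ (∀ m, F m ≤ F (m + 1)) ∧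
      (∀ (m : ℕ) (s : GQ), ∀ u ∈ F m, A.ρ s u ∈ F m) ∧
      ∀ m < n, Nat.card (F (m + 1)) = P * Nat.card (F m) ∧
        (((∀ s : GQ, ∀ u ∈ F (m + 1), A.ρ s u - u ∈ F m) ∧ F (m + 1) ⊓ A0 ≤ F m) ∨
          ((∀ s : GQ, ∀ u ∈ F (m + 1), A.ρ s u - ExtCitation.cycloExp P s • u ∈ F m) ∧
            F (m + 1) ≤ F m ⊔ A0)))
    (hsm : ∃ U ∈ levelsAll.sets, ∀ s ∈ U, ∀ a : A, A.ρ s a = a)
    (hU : ∀ s ∈ Iq N, ∀ a : A, A.ρ s (A.ρ s a) + a = 2 • A.ρ s a)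
    (hA : ∀ a : A, (P ^ j) • a = 0)
    {φ : GQ} (hφ : (padicPlace N).IsFrobeniusAt φ N)
    (hpoly : aeval (A.ρ φ * A.ρ φ) (pPoly N) = 0)
    (n d : ℕ) (hinv : Nat.card ↥(invI N A) ^ 2 ≤ n ^ 2 * Nat.card A)
    (htors : Nat.card {x : A // cst N • x = 0} ≤ cst N ^ d)
    (hcyc : ∀ s ∈ Iq P, ∀ a ∈ A0, ∀ d : Ch A, ev d (A.ρ s a) = s (ev d a)) :
    (SelRelax P N A (GrP P A A0) : Set (GQ → A)).Finite ∧
      Nat.card ↥(SelRelax P N A (GrP P A A0)) * Nat.card ↥(invI N A) ≤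
        n ^ 2 * cst N ^ d * Nat.card (Ch A ⧸ chNull P A A0) * (Nat.card ↥A0 * Nat.card A) :=
  main hNP A0 h hflag hsm hU hA hφ hpoly n d hinv htors (GrP P A A0) _
    (card_SelGr_le_of_ordDatum hcyc h (Piece.descent hNP A A0 h hflag).1)

/-- **(D-main), the shape consumed by block [K], with Greenberg's condition at `P`.** -/
theorem kshape_greenberg [Finite A] {j : ℕ} (hNP : N ≠ P) (A0 : Submodule k A)
    (h : OrdDatum P N A A0)
    (hflag : ∃ n : ℕ, ∃ F : ℕ → Submodule k A, F 0 = ⊥ ∧ F n = ⊤ ∧ (∀ m, F m ≤ F (m + 1)) ∧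
      (∀ (m : ℕ) (s : GQ), ∀ u ∈ F m, A.ρ s u ∈ F m) ∧
      ∀ m < n, Nat.card (F (m + 1)) = P * Nat.card (F m) ∧
        (((∀ s : GQ, ∀ u ∈ F (m + 1), A.ρ s u - u ∈ F m) ∧ F (m + 1) ⊓ A0 ≤ F m) ∨
          ((∀ s : GQ, ∀ u ∈ F (m + 1), A.ρ s u - ExtCitation.cycloExp P s • u ∈ F m) ∧
            F (m + 1) ≤ F m ⊔ A0)))
    (hsm : ∃ U ∈ levelsAll.sets, ∀ s ∈ U, ∀ a : A, A.ρ s a = a)
    (hU : ∀ s ∈ Iq N, ∀ a : A, A.ρ s (A.ρ s a) + a = 2 • A.ρ s a)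
    (hA : ∀ a : A, (P ^ j) • a = 0)
    {φ : GQ} (hφ : (padicPlace N).IsFrobeniusAt φ N)
    (hpoly : aeval (A.ρ φ * A.ρ φ) (pPoly N) = 0)
    (n d : ℕ) (hinv : Nat.card ↥(invI N A) ^ 2 ≤ n ^ 2 * Nat.card A)
    (htors : Nat.card {x : A // cst N • x = 0} ≤ cst N ^ d)
    (hcyc : ∀ s ∈ Iq P, ∀ a ∈ A0, ∀ d : Ch A, ev d (A.ρ s a) = s (ev d a))
    (Ch0 : ℕ) (hhalf : Nat.card ↥A0 ^ 2 ≤ Ch0 ^ 2 * Nat.card A) :
    (∀ c ∈ Z1g A, (∀ (q : ℕ) [Fact q.Prime], ¬ q ∣ P * N → IsUnramAt q c) →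
        (∀ σ ∈ Iq P, c σ ∈ A0) → c ∈ SelRelax P N A (GrP P A A0)) ∧
      Finite ↥(SelRelax P N A (GrP P A A0)) ∧ B1g A ≤ SelRelax P N A (GrP P A A0) ∧
      Nat.card ↥(SelRelax P N A (GrP P A A0)) * Nat.card {a : A // ∀ g : GQ, A.ρ g a = a} ≤
        n ^ 2 * cst N ^ d * Nat.card (Ch A ⧸ chNull P A A0) * Ch0 *
          Nat.card {a : A // ∀ g : GQ, A.ρ g a = a} * Nat.card A :=
  kshape hNP A0 h hflag hsm hU hA hφ hpoly n d hinv htors (GrP P A A0) _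
    (card_SelGr_le_of_ordDatum hcyc h (Piece.descent hNP A A0 h hflag).1)
    (LP_le_GrP P A A0) le_rfl Ch0 hhalf

/-- The labelled flag of the descent from helper2's coarse filtration (the seam (L4) → [D]):
`A` acted on through integers, a stable filtration `⊥ = C 0, …, C r = ⊤` with layers killed by
`P` satisfying `(s - 1)(s - χ(s)) = 0`, and the labels matched either by `P = 2`-type triviality
of the cyclotomic character or by one element `s₀` with `χ(s₀) ≠ 1`. -/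
theorem flag_of_filtration [Finite A] (A0 : Submodule k A)
    (hk : ∀ (c : k) (a : A), ∃ n : ℤ, c • a = n • a)
    (r : ℕ) (C : ℕ → Submodule k A) (hC0 : C 0 = ⊥) (hCr : C r = ⊤)
    (hCP : ∀ i < r, ∀ u ∈ C (i + 1), P • u ∈ C i)
    (hCrel : ∀ i < r, ∀ s, ∀ u ∈ C (i + 1),
      A.ρ s (A.ρ s u) - (ExtCitation.cycloExp P s + 1) • A.ρ s u +
        ExtCitation.cycloExp P s • u ∈ C i)
    (hCst : ∀ i s, ∀ u ∈ C i, A.ρ s u ∈ C i)
    (hlab : (∀ s, ExtCitation.cycloChar P s = 1) ∨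
      ∃ s₀ : GQ, ExtCitation.cycloChar P s₀ ≠ 1 ∧ (∀ x, A.ρ s₀ x - x ∈ A0) ∧
        ∀ x ∈ A0, ∃ n : ℤ, ((n : ℤ) : ZMod P) =
          ((ExtCitation.cycloChar P s₀ : (ZMod P)ˣ) : ZMod P) ∧ A.ρ s₀ x = n • x) :
    ∃ n : ℕ, ∃ F : ℕ → Submodule k A, F 0 = ⊥ ∧ F n = ⊤ ∧ (∀ m, F m ≤ F (m + 1)) ∧
      (∀ (m : ℕ) (s : GQ), ∀ u ∈ F m, A.ρ s u ∈ F m) ∧
      ∀ m < n, Nat.card (F (m + 1)) = P * Nat.card (F m) ∧
        (((∀ s : GQ, ∀ u ∈ F (m + 1), A.ρ s u - u ∈ F m) ∧ F (m + 1) ⊓ A0 ≤ F m) ∨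
          ((∀ s : GQ, ∀ u ∈ F (m + 1), A.ρ s u - ExtCitation.cycloExp P s • u ∈ F m) ∧
            F (m + 1) ≤ F m ⊔ A0)) :=
  Fermat.Agent.S15.G.Flag.exists_flag A.ρ (ExtCitation.cycloChar P) (ExtCitation.cycloExp P)
    (fun s => (ExtCitation.coe_cycloChar P s).symm) hk r C hC0 hCr hCP hCrel hCst A0 hlab

end MainThm

end Fermat.Agent.S15.D.Main
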