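/-
PROJECT M (S15), THE JUNCTION [D] → [K] (helper28): (STAR) FROM THE HYPOTHESES OF (D-main).

`D/Main.kshape_greenberg` for `A = Gk N P k S`, `A0 = G0red N P k S` (helper24's Eisenstein part of
`J₀(N)[P ^ k]` and its part in the kernel of reduction at `P`, block [K], `K/Ord`) produces the
hypothesis `hmain` of helper24's `K/Ord.seamStar_of_uniform_bound`, whose conclusion is helper4's
`SeamStar N S c` of block [A], unfolded.

`hmain_of_descent` produces the uniform Selmer bound `hmain` of `K/Ord.seamStar_of_uniform_bound`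
and `K/Cusp.seamStar_final` from the THREE remaining inputs `hinv`, `hhalf`, `hCP`;
`seamStar_of_descent` is (STAR) for block [A] from the same three inputs.  Discharged inside: the
label-free flag (helper2's `G/CoarseJ.exists_flag_raw_Gk`), the ordinary datum with its field `peu` and the equivariance `hcyc` of the
characters on `G0red` (helper18's `P/GkChain`, block (K-P), from that flag), the labelled flag
(`exists_flag_Gk` a second time, relative to `G0red`, with the label hypothesis from `D/Label`),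
"smooth", "killed by `P ^ k`", Mordell-Weil (main's `S17.result`), the commutativity of the Hecke operators on
torsion (helper3's `G/HeckeComm`), unipotent inertia at `N`, the Frobenius polynomial at `N` and
the torsion count with `d = torsExp N` (helper21's `LocalN/Jac`, `LocalN/JacMain` with helper1's
`KN/LevelOne`).
-/
import Fermat.Agent.S15.D.Main
import Fermat.Agent.S15.K.Cusp
import Fermat.Agent.S15.LocalN.JacMain
import Fermat.Agent.S15.G.HeckeComm
import Fermat.Agent.S15.G.CoarseJ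
import Fermat.Agent.S15.D.Label
import Fermat.Agent.S15.P.GkChain
import Fermat.Agent.S17

set_option autoImplicit false
set_option synthInstance.maxHeartbeats 400000

namespace Fermat.Agent.S15.D.ToStar

open AlgebraicCurve ModularCurve Polynomial
open Fermat.Agent.S56.Coh Fermat.Agent.CFT.LC Fermat.Agent.CFT.Bridge Fermat.Agent.CFT.LocalBridge
open Fermat.Agent.S15.K.Kummer Fermat.Agent.S15.K.Star Fermat.Agent.S15.K.Ord
open Fermat.Agent.S15.D Fermat.Agent.S15.D.Main Fermat.Agent.S15.LocalN.Core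
open Fermat.Agent.S15.D.Greenberg

variable {N : ℕ} [NeZero N] {P k : ℕ} {S : Set ℕ}

/-- The Eisenstein part has a common level. -/
theorem level_Gk [NeZero (P ^ k)] :
    ∃ U ∈ levelsAll.sets, ∀ s ∈ U, ∀ a : Gk N P k S, (Gk N P k S).ρ s a = a := by
  obtain ⟨U, hU, _, hUt⟩ := exists_level_fixing N (P ^ k) (0 : JZero N)
  refine ⟨U, hU, fun s hs a => ?_⟩
  apply Subtype.ext
  apply Subtype.ext
  exact hUt s hs _ (mem_Tm_iff.1 (a.1 : ↥(Tm N (P ^ k))).2)

/-- The Eisenstein part is killed by `P ^ k`. -/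
theorem pow_smul_Gk (a : Gk N P k S) : (P ^ k) • a = 0 := by
  apply Subtype.ext
  apply Subtype.ext
  exact mem_Tm_iff.1 (a.1 : ↥(Tm N (P ^ k))).2

/-- helper24's Greenberg-at-`P`, `N`-relaxed Selmer cocycles are the `SelRelax` of (D-main). -/
theorem SelGrRel_eq [Fact P.Prime] :
    SelGrRel N P k S =
      SelRelax P N (Gk N P k S) (GrP P (Gk N P k S) (G0red N P k S)) := by
  ext c
  exact Iff.rfl

/-- **The bound of (D-main) for `Gk N P k S`, in the shape `hmain` of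
`K/Ord.seamStar_of_uniform_bound`** (one `k`). -/
theorem bound_Gk [Fact N.Prime] [hP : Fact P.Prime] (hNP : N ≠ P)
    (hord : OrdDatum P N (Gk N P k S) (G0red N P k S))
    (hflag : ∃ n : ℕ, ∃ F : ℕ → Submodule (ZMod (P ^ k)) (Gk N P k S), F 0 = ⊥ ∧ F n = ⊤ ∧
      (∀ m, F m ≤ F (m + 1)) ∧
      (∀ (m : ℕ) (s : GQ), ∀ u ∈ F m, (Gk N P k S).ρ s u ∈ F m) ∧
      ∀ m < n, Nat.card (F (m + 1)) = P * Nat.card (F m) ∧
        (((∀ s : GQ, ∀ u ∈ F (m + 1), (Gk N P k S).ρ s u - u ∈ F m) ∧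
            F (m + 1) ⊓ G0red N P k S ≤ F m) ∨
          ((∀ s : GQ, ∀ u ∈ F (m + 1),
              (Gk N P k S).ρ s u - ExtCitation.cycloExp P s • u ∈ F m) ∧
            F (m + 1) ≤ F m ⊔ G0red N P k S)))
    (hU : ∀ s ∈ Iq N, ∀ a : Gk N P k S,
      (Gk N P k S).ρ s ((Gk N P k S).ρ s a) + a = 2 • (Gk N P k S).ρ s a)
    {φ : GQ} (hφ : (padicPlace N).IsFrobeniusAt φ N)
    (hpoly : aeval ((Gk N P k S).ρ φ * (Gk N P k S).ρ φ) (pPoly N) = 0)
    (n d : ℕ) (hinv : Nat.card ↥(invI N (Gk N P k S)) ^ 2 ≤ n ^ 2 * Nat.card (Gk N P k S))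
    (htors : Nat.card {x : Gk N P k S // cst N • x = 0} ≤ cst N ^ d)
    (hcyc : ∀ s ∈ Iq P, ∀ a ∈ G0red N P k S, ∀ d : Ch (Gk N P k S),
      ev d ((Gk N P k S).ρ s a) = s (ev d a))
    (Ch0 : ℕ)
    (hhalf : Nat.card ↥(G0red N P k S) ^ 2 ≤ Ch0 ^ 2 * Nat.card (Gk N P k S)) :
    Finite ↥(SelGrRel N P k S) ∧
      Nat.card ↥(SelGrRel N P k S) * Nat.card (Fermat.Agent.S15.K.Count.FixG (Gk N P k S)) ≤
        n ^ 2 * cst N ^ d *
          Nat.card (Ch (Gk N P k S) ⧸ chNull P (Gk N P k S) (G0red N P k S)) * Ch0 *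
          Nat.card (Fermat.Agent.S15.K.Count.FixG (Gk N P k S)) * Nat.card (Gk N P k S) := by
  have : NeZero (P ^ k) := ⟨pow_ne_zero k hP.out.ne_zero⟩
  have : Finite (Gk N P k S) := Fermat.Agent.S15.K.Count.finite_Gk
  obtain ⟨_, h2, _, h4⟩ := kshape_greenberg hNP (G0red N P k S) hord hflag
    level_Gk hU pow_smul_Gk hφ hpoly n d hinv htors hcyc Ch0 hhalf
  rw [SelGrRel_eq]
  exact ⟨h2, h4⟩

/-! ### The invariants are bounded by the torsion of `J₀(N)(ℚ)` -/

/-- The torsion subgroup of a finitely generated abelian group is finite. -/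
theorem finite_torsion_of_fg {H : Type*} [AddCommGroup H] (hfg : AddGroup.FG H) :
    Finite ↥(AddCommGroup.torsion H) := by
  have h0 : Module.Finite ℤ H := Module.Finite.iff_addGroup_fg.mpr hfg
  have h1 : IsNoetherian ℤ H := isNoetherian_of_isNoetherianRing_of_finite ℤ H
  have h2 : (AddSubgroup.toIntSubmodule (AddCommGroup.torsion H)).FG := IsNoetherian.noetherian _
  have h3 : Module.Finite ℤ ↥(AddSubgroup.toIntSubmodule (AddCommGroup.torsion H)) :=
    Module.Finite.iff_fg.mpr h2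
  have h4 : AddGroup.FG ↥(AddCommGroup.torsion H) := Module.Finite.iff_addGroup_fg.mp h3
  refine AddCommGroup.finite_of_fg_isAddTorsion _ fun x => ?_
  obtain ⟨n, hn, h⟩ := isOfFinAddOrder_iff_nsmul_eq_zero.1 x.2
  exact isOfFinAddOrder_iff_nsmul_eq_zero.2 ⟨n, hn, Subtype.ext (by
    rw [AddSubgroup.coe_nsmul, AddSubgroup.coe_zero]
    exact h)⟩

/-- `|H⁰(ℚ, Gk)| ≤ |J₀(N)(ℚ)_tors|`, uniformly in `k`. -/
theorem card_FixG_le [hP : Fact P.Prime]
    (hfg : AddGroup.FG ↥(FixedPoints.addSubgroup GQ (JZero N))) :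
    Nat.card (Fermat.Agent.S15.K.Count.FixG (Gk N P k S)) ≤
      Nat.card ↥(AddCommGroup.torsion ↥(FixedPoints.addSubgroup GQ (JZero N))) := by
  have := finite_torsion_of_fg hfg
  have hpos : 0 < P ^ k := pow_pos hP.out.pos k
  refine Nat.card_le_card_of_injective
    (fun a : Fermat.Agent.S15.K.Count.FixG (Gk N P k S) =>
      (⟨⟨incl N P k S a.1, fun σ => by
          change σ • incl N P k S a.1 = incl N P k S a.1
          rw [← incl_ρ, a.2 σ]⟩,
        isOfFinAddOrder_iff_nsmul_eq_zero.2 ⟨P ^ k, hpos, Subtype.ext (by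
          rw [AddSubgroup.coe_nsmul, AddSubgroup.coe_zero]
          exact nsmul_incl N P k S a.1)⟩⟩ :
        ↥(AddCommGroup.torsion ↥(FixedPoints.addSubgroup GQ (JZero N))))) ?_
  intro a b hab
  have h1 : incl N P k S a.1 = incl N P k S b.1 :=
    congrArg (fun z : ↥(AddCommGroup.torsion ↥(FixedPoints.addSubgroup GQ (JZero N))) =>
      ((z : ↥(FixedPoints.addSubgroup GQ (JZero N))) : JZero N)) hab
  exact Subtype.ext (incl_injective N P k S h1)

/-! ### The uniform bound and (STAR) -/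

/-- **The uniform Selmer bound `hmain` of `K/Ord.seamStar_of_uniform_bound` / `K/Cusp.seamStar_final`
from the THREE remaining inputs** `hinv`, `hhalf`, `hCP`.  Discharged inside:
the label-free flag (helper2's `G/CoarseJ.exists_flag_raw_Gk`), `peu` and `hcyc` (helper18's `P/GkChain`), the labelled flag
(helper2's `G/CoarseJ` + `D/Label`),
Mordell-Weil (main's `S17.result`) for `|H⁰(ℚ, Gk)| ≤ |J₀(N)(ℚ)_tors|`, unipotent inertia at `N`,
the Frobenius polynomial at `N` and the torsion count (helper21's `LocalN/Jac`, `LocalN/JacMain`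
with helper1's `KN/LevelOne`), smoothness, `P ^ k`-torsion, and the two soft fields of the ordinary
datum (helper24's `K/Ord`). -/
theorem hmain_of_descent [hN : Fact N.Prime] [hP : Fact P.Prime] (hN5 : 5 ≤ N) (hNP : N ≠ P)
    (hSfin : S.Finite) (hNS : N ∈ S) (hPS : P ∈ S)
    (n : ℕ)
    (hinv : ∀ k : ℕ, 0 < k →
      Nat.card ↥(invI N (Gk N P k S)) ^ 2 ≤ n ^ 2 * Nat.card (Gk N P k S))
    (Ch0 : ℕ)
    (hhalf : ∀ k : ℕ, 0 < k →
      Nat.card ↥(G0red N P k S) ^ 2 ≤ Ch0 ^ 2 * Nat.card (Gk N P k S))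
    (CP : ℕ)
    (hCP : ∀ k : ℕ, 0 < k →
      Nat.card (Ch (Gk N P k S) ⧸ chNull P (Gk N P k S) (G0red N P k S)) ≤ CP) :
    ∀ k : ℕ, 0 < k → Finite ↥(SelGrRel N P k S) ∧
      Nat.card ↥(SelGrRel N P k S) * Nat.card (Fermat.Agent.S15.K.Count.FixG (Gk N P k S)) ≤
        (n ^ 2 * cst N ^ Fermat.Agent.S15.LocalN.Jac.torsExp N * CP * Ch0 *
          Nat.card ↥(AddCommGroup.torsion ↥(FixedPoints.addSubgroup GQ (JZero N)))) *
          Nat.card (Gk N P k S) := by
  intro k hk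
  have hfg := Fermat.Agent.S17.result N hN.out hN5
  obtain ⟨φ, hφ⟩ := Fermat.Agent.Lib.FrobeniusExists.exists_isFrobeniusAt_algebraicClosure
    (padicPlace N) hN.out (liesOverPrime_padicPlace N)
  have hinj : Function.Injective (incl N P k S) := incl_injective N P k S
  have hPN : ¬ P ∣ N := fun hd =>
    hNP ((Nat.prime_dvd_prime_iff_eq hP.out hN.out).1 hd).symm
  have : NeZero (P ^ k) := ⟨pow_ne_zero k hP.out.ne_zero⟩
  have : Finite (Gk N P k S) := Fermat.Agent.S15.K.Count.finite_Gk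
  have hS : ∀ r : Nat.Primes, (r : ℕ) ∉ S → ¬ (r : ℕ) ∣ N ∧ (r : ℕ) ≠ P := fun r hr =>
    ⟨fun hd => hr (((Nat.prime_dvd_prime_iff_eq r.2 hN.out).1 hd) ▸ hNS),
      fun he => hr (he ▸ hPS)⟩
  have hraw : ∃ n : ℕ, ∃ F : ℕ → Submodule (ZMod (P ^ k)) (Gk N P k S), F 0 = ⊥ ∧ F n = ⊤ ∧
      (∀ m, F m ≤ F (m + 1)) ∧
      (∀ (m : ℕ) (s : GQ), ∀ u ∈ F m, (Gk N P k S).ρ s u ∈ F m) ∧
      ∀ m < n, Nat.card (F (m + 1)) = P * Nat.card (F m) := by
    obtain ⟨n, F, h0, hn, hm, hs, hc⟩ :=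
      Fermat.Agent.S15.G.CoarseJ.exists_flag_raw_Gk N P k S hSfin hS ⊥
    exact ⟨n, F, h0, hn, hm, hs, fun m hm => (hc m hm).1⟩
  have hord : OrdDatum P N (Gk N P k S) (G0red N P k S) :=
    Fermat.Agent.S15.P.GkChain.ordDatum_Gk_of_flag hPN hraw
  have hcyc : ∀ s ∈ Iq P, ∀ a ∈ G0red N P k S, ∀ d : Ch (Gk N P k S),
      ev d ((Gk N P k S).ρ s a) = s (ev d a) := fun s hs a ha d =>
    Fermat.Agent.S15.P.GkChain.hcyc_Gk_of_flag hPN hraw s hs a ha d
  have hflag := Fermat.Agent.S15.G.CoarseJ.exists_flag_Gk N P k S hSfin hS (G0red N P k S)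
    (Fermat.Agent.S15.D.Label.hlab_of_hcyc hord pow_smul_Gk hcyc)
  obtain ⟨h1, h2⟩ := bound_Gk hNP hord hflag
    (Fermat.Agent.S15.LocalN.Jac.hU (incl N P k S) hinj (fun _ _ => rfl) hP.out hNP.symm
      pow_smul_Gk) hφ
    (Fermat.Agent.S15.LocalN.JacMain.hpoly (incl N P k S) hinj (fun _ _ => rfl) hP.out
      hNP.symm pow_smul_Gk hφ) n (Fermat.Agent.S15.LocalN.Jac.torsExp N) (hinv k hk)
    (Fermat.Agent.S15.LocalN.Jac.htors (incl N P k S) hinj hN.out.two_le) hcyc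
    Ch0 (hhalf k hk)
  refine ⟨h1, h2.trans (Nat.mul_le_mul_right _ ?_)⟩
  exact Nat.mul_le_mul (Nat.mul_le_mul_right _ (Nat.mul_le_mul_left _ (hCP k hk)))
    (card_FixG_le hfg)

/-- **(STAR) for block [A] from the THREE remaining inputs.**  `S` is any set of excluded primes
containing `N`; the Eisenstein part is cut out by the `T_r`, `r ∉ S ∪ {P}`; `c` is any
Galois-fixed class of finite order `m` with `P ∣ m` and `(m / P) • c ≠ 0`.  The conclusion is
helper4's `SeamStar N S c`, unfolded (through helper24's `K/Cusp.seamStar_final`; the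
commutativity of the Hecke operators on torsion is helper3's `G/HeckeComm`). -/
theorem seamStar_of_descent [hN : Fact N.Prime] [hP : Fact P.Prime] (hN5 : 5 ≤ N) (hNP : N ≠ P)
    (hSfin : S.Finite) (hNS : N ∈ S)
    (n : ℕ)
    (hinv : ∀ k : ℕ, 0 < k → Nat.card ↥(invI N (Gk N P k (insert P S))) ^ 2 ≤
      n ^ 2 * Nat.card (Gk N P k (insert P S)))
    (Ch0 : ℕ)
    (hhalf : ∀ k : ℕ, 0 < k → Nat.card ↥(G0red N P k (insert P S)) ^ 2 ≤
      Ch0 ^ 2 * Nat.card (Gk N P k (insert P S)))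
    (CP : ℕ)
    (hCP : ∀ k : ℕ, 0 < k → Nat.card (Ch (Gk N P k (insert P S)) ⧸
      chNull P (Gk N P k (insert P S)) (G0red N P k (insert P S))) ≤ CP)
    (c : JZero N) (hcfix : ∀ σ : GQ, σ • c = c) (m : ℕ) (hm : m • c = 0) (hPm : P ∣ m)
    (hmc : (m / P) • c ≠ 0) :
    ∃ t ∈ Subring.closure {T | ∃ r : Nat.Primes, (r : ℕ) ∉ S ∧ T = heckeOperatorBar N r},
      (∀ z ∈ FixedPoints.addSubgroup GQ (JZero N), ∃ m : ℕ, 0 < m ∧ m • t z = 0) ∧ t c ≠ 0 := by
  refine Fermat.Agent.S15.K.Cusp.seamStar_final (Fermat.Agent.S17.result N hN.out hN5) hNP S hNS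
    (fun k r s hr _ x hx => ?_) _
    (hmain_of_descent hN5 hNP (hSfin.insert P) (Set.mem_insert_of_mem P hNS)
      (Set.mem_insert P S) n hinv Ch0 hhalf CP hCP) c hcfix m hm hPm hmc
  refine Fermat.Agent.S15.G.HeckeComm.hecke_comm_torsion N hP.out r s (fun hd => hr ?_)
    (fun he => hr (he ▸ Set.mem_insert P S)) ⟨k, hx⟩
  rw [(Nat.prime_dvd_prime_iff_eq r.2 hN.out).1 hd]
  exact Set.mem_insert_of_mem P hNS

end Fermat.Agent.S15.D.ToStar
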