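/-
PROJECT M (S15), block [D], leaf (TP-const), step 1 (helper23): THE CONSTANT OF (T-P) IS THE NUMBER
OF `D_P`-MAPS `μ → A0`.

Frame of `S15/D/Greenberg`.  The index `|Ch A ⧸ chNull P A A0|` which bounds the cost of passing
from Greenberg's condition to the unit condition is at most the number of points `a` of `A0` on
which the decomposition group at `P` acts "through the cyclotomic character", in character form:
`σ (d (σ⁻¹ a)) = d a` for every character `d` and every `σ ∈ D_P`.  For a single `φ ∈ D_P` which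
raises the values of the characters to the power `c`, this set lies in `{a ∈ A0 | φ a = c • a}`.
-/
import Fermat.Agent.S15.D.Greenberg
import Fermat.Agent.S15.D.DualCount

set_option autoImplicit false

namespace Fermat.Agent.S15.D.GreenbergConst

open Fermat.Agent.S56.Coh Fermat.Agent.CFT.LC Fermat.Agent.CFT.Bridge
  Fermat.Agent.CFT.LocalBridge Fermat.Agent.S15.D Fermat.Agent.S15.D.Greenberg
  Fermat.Agent.S15.D.DualCount

variable {k : Type} [CommRing k] (P : ℕ) [Fact P.Prime] (A : Rep.{0} k GQ) (A0 : Submodule k A)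

/-- The points of `A0` on which the decomposition group at `P` acts through the cyclotomic
character, in character form. -/
def twFixed : Set A :=
  {a | a ∈ A0 ∧ ∀ σ ∈ Dq P, ∀ d : Ch A, σ (ev d (A.ρ σ⁻¹ a)) = ev d a}

variable {P A A0}

lemma ev_eq_one_iff (d : Ch A) (a : A) : ev d a = 1 ↔ d a = 0 := by
  unfold ev
  rw [Units.val_eq_one]
  exact Iff.rfl

lemma ev_eq_iff (d : Ch A) (a b : A) : ev d a = ev d b ↔ d a = d b := by
  unfold ev
  rw [Units.val_inj]
  exact Iff.rfl

lemma ev_sub_ch (d d' : Ch A) (a : A) : ev (d - d') a = ev d a / ev d' a := by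
  have h : d - d' + d' = d := sub_add_cancel d d'
  rw [eq_div_iff (ev_ne_zero d' a), ← ev_add_ch, h]

/-- A point killed by `chNull` lies in `twFixed`. -/
lemma mem_twFixed_of_forall [Finite A] {a : A} (h : ∀ d ∈ chNull P A A0, d a = 0) :
    a ∈ twFixed P A A0 := by
  refine ⟨?_, fun σ hσ d => ?_⟩
  · -- separation in the quotient `A ⧸ A0`
    by_contra ha
    let B : AddSubgroup A := A0.toAddSubgroup
    have hne : (QuotientAddGroup.mk a : A ⧸ B) ≠ 0 := fun h0 =>
      ha ((QuotientAddGroup.eq_zero_iff a).1 h0)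
    have hex : ∃ ψ : (A ⧸ B) →+ Additive Qbarˣ, ψ (QuotientAddGroup.mk a) ≠ 0 := by
      by_contra hcon
      push_neg at hcon
      exact hne (eq_of_forall_addHom Qbar fun ψ => by rw [hcon ψ, map_zero])
    obtain ⟨ψ, hψ⟩ := hex
    let d : Ch A := ψ.comp (QuotientAddGroup.mk' B)
    have hd : d ∈ chNull P A A0 := by
      refine AddSubgroup.subset_closure (Or.inl fun x hx => ?_)
      show ψ (QuotientAddGroup.mk x) = 0
      rw [(QuotientAddGroup.eq_zero_iff x).2 hx, map_zero]
    exact hψ (h d hd)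
  · have he : chAct σ d - d ∈ chNull P A A0 :=
      AddSubgroup.subset_closure (Or.inr ⟨σ, hσ, d, rfl⟩)
    have h1 : ev (chAct σ d - d) a = 1 := (ev_eq_one_iff _ _).2 (h _ he)
    rw [ev_sub_ch, div_eq_one_iff_eq (ev_ne_zero d a)] at h1
    rw [← h1]
    rfl

/-- **(TP-const), step 1.** The constant of `(T-P)` is at most the number of points of `A0` on
which `D_P` acts through the cyclotomic character. -/
theorem card_coinv_le [Finite A] :
    Nat.card (Ch A ⧸ chNull P A A0) ≤ Nat.card (twFixed P A A0) := by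
  refine (card_quot_le Qbar (chNull P A A0)).trans ?_
  haveI : Finite (twFixed P A A0) := Set.toFinite _ |>.to_subtype
  let ι : {x : A // ∀ d ∈ chNull P A A0, d x = 0} → twFixed P A A0 := fun x =>
    ⟨x.1, mem_twFixed_of_forall x.2⟩
  refine Nat.card_le_card_of_injective ι fun x y h => ?_
  exact Subtype.ext (congrArg (fun z : twFixed P A A0 => (z : A)) h)

/-- With one element `φ` of the decomposition group raising the values of the characters on `A0`
to the power `c`: `twFixed` lies in `{a ∈ A0 | φ a = c • a}`. -/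
lemma apply_eq_of_mem_twFixed [Finite A] {φ : GQ} (hφ : φ ∈ Dq P) (c : ℕ)
    (hc : ∀ d : Ch A, ∀ a ∈ A0, φ (ev d a) = ev d (c • a)) {a : A} (ha : a ∈ twFixed P A A0) :
    A.ρ φ a = c • a := by
  refine eq_of_forall_addHom Qbar fun d => ?_
  have h1 := ha.2 φ⁻¹ ((Dq P).inv_mem hφ) d
  rw [inv_inv] at h1
  have h2 : ev d (A.ρ φ a) = φ (ev d a) := by
    rw [← h1]
    show ev d (A.ρ φ a) = φ (φ⁻¹ (ev d (A.ρ φ a)))
    rw [← AlgEquiv.mul_apply, mul_inv_cancel, AlgEquiv.one_apply]
  rw [hc d a ha.1] at h2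
  exact (ev_eq_iff d _ _).1 h2

/-- **(TP-const), step 1, one Frobenius.** -/
theorem card_coinv_le_of_frob [Finite A] {φ : GQ} (hφ : φ ∈ Dq P) (c : ℕ)
    (hc : ∀ d : Ch A, ∀ a ∈ A0, φ (ev d a) = ev d (c • a)) :
    Nat.card (Ch A ⧸ chNull P A A0) ≤ Nat.card {a : A // a ∈ A0 ∧ A.ρ φ a = c • a} := by
  refine card_coinv_le.trans ?_
  let ι : twFixed P A A0 → {a : A // a ∈ A0 ∧ A.ρ φ a = c • a} := fun x =>
    ⟨x.1, x.2.1, apply_eq_of_mem_twFixed hφ c hc x.2⟩
  refine Nat.card_le_card_of_injective ι fun x y h => ?_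
  exact Subtype.ext (congrArg (fun z : {a : A // a ∈ A0 ∧ A.ρ φ a = c • a} => (z : A)) h)

end Fermat.Agent.S15.D.GreenbergConst
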