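/-
PROJECT M (S15), block [D], leaf (L3) (helper23): HILBERT 90 FOR A SUBGROUP OF AN INFINITE GALOIS
GROUP (pure Mathlib).

`exists_ne_zero_of_cocycle_on` : a multiplicative 1-cocycle `f` on a subgroup `H ≤ Gal(Ω/K)`,
level-constant at a finite normal subextension `E` and with values in `E`, is the coboundary
`σ ↦ σ β / β` (on `H`) of an element `β ∈ Eˣ`.  Proof by Dedekind's independence of characters
(Artin's proof), so that no closedness of `H` is needed.
-/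
import Mathlib

set_option autoImplicit false

namespace Fermat.Agent.S15.D.GreenbergH90

variable {K Ω : Type*} [Field K] [Field Ω] [Algebra K Ω] [IsGalois K Ω]

/-- **Hilbert 90 on a subgroup.** -/
theorem exists_ne_zero_of_cocycle_on (H : Subgroup (Ω ≃ₐ[K] Ω)) (f : (Ω ≃ₐ[K] Ω) → Ω)
    (hf0 : ∀ σ ∈ H, f σ ≠ 0)
    (hf : ∀ σ ∈ H, ∀ τ ∈ H, f (σ * τ) = σ (f τ) * f σ)
    (E : IntermediateField K Ω) [FiniteDimensional K E] [Normal K E]
    (hE : ∀ σ, ∀ τ ∈ E.fixingSubgroup, f (σ * τ) = f σ) (hval : ∀ σ ∈ H, f σ ∈ E) :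
    ∃ β : Ω, β ≠ 0 ∧ β ∈ E ∧ ∀ σ ∈ H, σ β = f σ * β := by
  classical
  -- restriction to `E`
  let res : (Ω ≃ₐ[K] Ω) →* (E ≃ₐ[K] E) := AlgEquiv.restrictNormalHom E
  have hres : ∀ (σ : Ω ≃ₐ[K] Ω) (x : E), ((res σ x : E) : Ω) = σ (x : Ω) := fun σ x =>
    AlgEquiv.restrictNormal_commutes σ E x
  -- `f` depends only on the restriction
  have hdep : ∀ σ σ' : Ω ≃ₐ[K] Ω, res σ = res σ' → f σ = f σ' := by
    intro σ σ' h
    have hmem : σ⁻¹ * σ' ∈ E.fixingSubgroup := by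
      rw [IntermediateField.mem_fixingSubgroup_iff]
      intro x hx
      have h1 := hres σ ⟨x, hx⟩
      have h2 := hres σ' ⟨x, hx⟩
      rw [h] at h1
      rw [AlgEquiv.mul_apply]
      have h3 : σ' x = σ x := by rw [← h2, ← h1]
      rw [h3]
      exact σ.symm_apply_apply x
    have := hE σ _ hmem
    rw [mul_inv_cancel_left] at this
    exact this.symm
  -- the image of `H` and lifts
  let Hb : Subgroup (E ≃ₐ[K] E) := H.map res
  have hlift : ∀ h : E ≃ₐ[K] E, h ∈ Hb → ∃ σ ∈ H, res σ = h := fun h hh => by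
    obtain ⟨σ, hσ, rfl⟩ := hh
    exact ⟨σ, hσ, rfl⟩
  let φ : (E ≃ₐ[K] E) → Ω := fun h => if hh : h ∈ Hb then f (hlift h hh).choose else 0
  have hφ : ∀ σ ∈ H, φ (res σ) = f σ := by
    intro σ hσ
    have hh : res σ ∈ Hb := ⟨σ, hσ, rfl⟩
    show (if hh : res σ ∈ Hb then f (hlift (res σ) hh).choose else 0) = f σ
    rw [dif_pos hh]
    exact hdep _ _ (hlift (res σ) hh).choose_spec.2
  have hφE : ∀ h, φ h ∈ E := by
    intro h
    show (if hh : h ∈ Hb then f (hlift h hh).choose else 0) ∈ E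
    split_ifs with hh
    · exact hval _ (hlift h hh).choose_spec.1
    · exact zero_mem E
  let S : Finset (E ≃ₐ[K] E) := Finset.univ.filter (· ∈ Hb)
  have hS : ∀ h, h ∈ S ↔ h ∈ Hb := fun h => by simp [S]
  -- Dedekind: the sum `∑ φ h * h x` does not vanish identically
  let χ : (E ≃ₐ[K] E) → (E →* Ω) := fun h =>
    ((algebraMap E Ω : E →* Ω)).comp (h : E →* E)
  have hχ : Function.Injective χ := by
    intro h h' hh
    ext x
    have h1 := DFunLike.congr_fun hh x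
    exact h1
  have hli : LinearIndependent Ω (fun h : E ≃ₐ[K] E => (χ h : E → Ω)) :=
    (linearIndependent_monoidHom E Ω).comp χ hχ
  have hex : ∃ x : E, (∑ h ∈ S, φ h * ((h x : E) : Ω)) ≠ 0 := by
    by_contra hcon
    push_neg at hcon
    have h0 : ∑ h ∈ S, φ h • (χ h : E → Ω) = 0 := by
      funext x
      simp only [Finset.sum_apply, Pi.smul_apply, smul_eq_mul, Pi.zero_apply]
      exact hcon x
    have h1 := linearIndependent_iff'.1 hli S φ h0 1 ((hS 1).2 (one_mem Hb))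
    have h2 := hφ 1 (one_mem H)
    rw [map_one] at h2
    exact hf0 1 (one_mem H) (h2 ▸ h1)
  obtain ⟨x, hx⟩ := hex
  set w₀ : Ω := ∑ h ∈ S, φ h * ((h x : E) : Ω) with hw₀
  have hw₀E : w₀ ∈ E := sum_mem fun h _ => mul_mem (hφE h) (h x).2
  refine ⟨w₀⁻¹, inv_ne_zero hx, inv_mem hw₀E, fun σ hσ => ?_⟩
  have hσb : res σ ∈ Hb := ⟨σ, hσ, rfl⟩
  -- `σ w₀ = (f σ)⁻¹ * w₀`
  have key : σ w₀ * f σ = w₀ := by
    rw [hw₀, map_sum, Finset.sum_mul]
    refine Finset.sum_bij (fun h _ => res σ * h) (fun h hh => ?_) (fun h hh h' hh' heq => ?_)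
      (fun h hh => ?_) (fun h hh => ?_)
    · exact (hS _).2 (mul_mem hσb ((hS h).1 hh))
    · exact mul_left_cancel heq
    · refine ⟨(res σ)⁻¹ * h, (hS _).2 (mul_mem (inv_mem hσb) ((hS h).1 hh)), ?_⟩
      rw [mul_inv_cancel_left]
    · obtain ⟨τ, hτ, rfl⟩ := hlift h ((hS h).1 hh)
      have e1 : φ (res τ) = f τ := hφ τ hτ
      have e2 : φ (res σ * res τ) = f (σ * τ) := by
        rw [← map_mul]
        exact hφ _ (mul_mem hσ hτ)
      have e3 : (((res σ * res τ) x : E) : Ω) = σ (((res τ) x : E) : Ω) := by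
        rw [AlgEquiv.mul_apply, hres]
      rw [e1, e2, e3, hf σ hσ τ hτ, map_mul]
      ring
  rw [map_inv₀]
  have hfσ : f σ ≠ 0 := hf0 σ hσ
  have hσw : σ w₀ ≠ 0 := by
    intro h0
    rw [h0, zero_mul] at key
    exact hx key.symm
  have h1 : w₀⁻¹ = (σ w₀)⁻¹ * (f σ)⁻¹ := by rw [← mul_inv, key]
  rw [h1]
  field_simp

end Fermat.Agent.S15.D.GreenbergH90
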