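/-
PROJECT M (S15), block [D] (formal descent), leaf (L2) = (T-N) (helper21; branch-only).

THE RELAXATION AT THE BAD PRIME `N`.  `A` a finite `P`-power torsion `G_ℚ`-module on which the
inertia group `I_N` at the fixed place over `N ≠ P` acts unipotently of level two
(`(s - 1)² = 0`, S34's `(U)`).  `B := Σ_{s ∈ I_N} (s - 1) A`, `φ` a Frobenius element at the place.

* `card_quot_le`  : `Z¹(D_N, A) / Z¹_unr(D_N, A)` is finite of order at most
                    `# ker (φ - N on A / B)`          [the chief's (K-N-alg)(iv)];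
* `card_le_mul`   : for EVERY submodule `Z` of global cocycles,
                    `# Z ≤ # {c ∈ Z unramified at N} * # ker (φ - N on A / B)`      [(T-N)].

Method: a cocycle `c` on `I_N` is the homomorphism `σ ↦ (x ↦ σ x + c σ)` into the group of
permutations of `A`; its range is a `P`-group, so helper24's `S56/Tame/Global` applies
(one generator `τ` of the image of inertia, uniform in the level; `φ τ φ⁻¹ ↦ (·) ^ N`).
-/
import Fermat.Agent.S56.Coh.Lemmas
import Fermat.Agent.S56.Tame.Global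

set_option autoImplicit false

namespace Fermat.Agent.S15.D.RelaxN

open CategoryTheory
open Fermat.Agent.CFT.LC Fermat.Agent.CFT.Bridge Fermat.Agent.CFT.LocalBridge
open Fermat.Agent.S56.Coh Fermat.Agent.S56.Tame

/-! ### Unipotent endomorphisms of level two and affine bijections -/

section Algebra

variable {k M : Type} [CommRing k] [AddCommGroup M] [Module k M]

/-- powers of an endomorphism with `(u - 1)² = 0` -/
theorem unip_pow_apply (u : M →ₗ[k] M) (hu : ∀ x, u (u x) + x = 2 • u x) (m : ℕ) (x : M) :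
    (u ^ m) x = x + m • (u x - x) := by
  induction m with
  | zero => simp
  | succ m ih =>
    rw [pow_succ', Module.End.mul_apply, ih, map_add, map_nsmul, map_sub]
    have h1 : u (u x) - u x = u x - x := by
      have := hu x
      rw [two_nsmul] at this
      rw [sub_eq_sub_iff_add_eq_add, this]
    rw [h1, succ_nsmul]
    abel

/-- an endomorphism with `(u - 1)² = 0` of a module killed by `n` has `u ^ n = 1` -/
theorem unip_pow_eq_one (u : M →ₗ[k] M) (hu : ∀ x, u (u x) + x = 2 • u x) {n : ℕ}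
    (hn : ∀ x : M, n • x = 0) : u ^ n = 1 := by
  ext x
  rw [unip_pow_apply u hu, hn, add_zero, Module.End.one_apply]

end Algebra

/-! ### Affine bijections attached to a representation -/

section Affine

variable {k G M : Type} [CommRing k] [Group G] [AddCommGroup M] [Module k M]
  (ρ : Representation k G M)

/-- the affine bijection `x ↦ ρ g x + a` -/
def aff (g : G) (a : M) : Equiv.Perm M where
  toFun x := ρ g x + a
  invFun y := ρ g⁻¹ (y - a)
  left_inv x := by
    change ρ g⁻¹ (ρ g x + a - a) = x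
    rw [add_sub_cancel_right, ← Module.End.mul_apply, ← map_mul, inv_mul_cancel, map_one,
      Module.End.one_apply]
  right_inv y := by
    change ρ g (ρ g⁻¹ (y - a)) + a = y
    rw [← Module.End.mul_apply, ← map_mul, mul_inv_cancel, map_one, Module.End.one_apply,
      sub_add_cancel]

@[simp] theorem aff_apply (g : G) (a x : M) : aff ρ g a x = ρ g x + a := rfl

theorem aff_mul (g h : G) (a b : M) : aff ρ g a * aff ρ h b = aff ρ (g * h) (ρ g b + a) := by
  ext x
  rw [Equiv.Perm.mul_apply, aff_apply, aff_apply, aff_apply, map_add, map_mul,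
    Module.End.mul_apply, add_assoc]

theorem aff_one_zero : aff ρ 1 0 = 1 := by
  ext x
  rw [aff_apply, map_one, Module.End.one_apply, add_zero, Equiv.Perm.one_apply]

/-- iterates of an affine bijection -/
theorem aff_pow_apply (g : G) (a : M) (m : ℕ) (x : M) :
    (aff ρ g a ^ m) x = (ρ g ^ m) x + ∑ i ∈ Finset.range m, (ρ g ^ i) a := by
  induction m generalizing x with
  | zero => simp
  | succ m ih =>
    rw [pow_succ', Equiv.Perm.mul_apply, ih, aff_apply, map_add, pow_succ' (ρ g),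
      Module.End.mul_apply, Finset.sum_range_succ', pow_zero, Module.End.one_apply, map_sum,
      add_assoc]
    congr 2
    refine Finset.sum_congr rfl fun i _ => ?_
    rw [pow_succ', Module.End.mul_apply]

/-- an affine bijection with unipotent linear part of level two, on a module killed by `n`,
has order dividing `n * n` -/
theorem aff_pow_eq_one (g : G) (a : M) (hu : ∀ x, ρ g (ρ g x) + x = 2 • ρ g x) {n : ℕ}
    (hn : ∀ x : M, n • x = 0) : aff ρ g a ^ (n * n) = 1 := by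
  have h1 : ∀ x, (aff ρ g a ^ n) x = x + ∑ i ∈ Finset.range n, (ρ g ^ i) a := by
    intro x
    rw [aff_pow_apply, unip_pow_eq_one (ρ g) hu hn, Module.End.one_apply]
  have h2 : ∀ (m : ℕ) (x : M),
      ((aff ρ g a ^ n) ^ m) x = x + m • ∑ i ∈ Finset.range n, (ρ g ^ i) a := by
    intro m
    induction m with
    | zero => intro x; simp
    | succ m ih =>
      intro x
      rw [pow_succ', Equiv.Perm.mul_apply, ih, h1, succ_nsmul, add_assoc]
  ext x
  rw [pow_mul, h2, hn, add_zero, Equiv.Perm.one_apply]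

end Affine

/-! ### Cocycles on the inertia group as homomorphisms into `Perm A` -/

section Inertia

variable {k : Type} [CommRing k] (N : ℕ) [Fact N.Prime] (A : Rep.{0} k GQ)

/-- the inertia group at the fixed place over `N` (the prelude's subgroup; `= Iq N`) -/
noncomputable abbrev IN : Subgroup GQ := (padicPlace N).inertiaSubgroupIn ℚ

/-- the cocycle condition on the inertia group -/
def IsCocI (b : ↥(IN N) → A) : Prop :=
  ∀ σ σ' : ↥(IN N), b (σ * σ') = A.ρ (σ : GQ) (b σ') + b σ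

variable {N A}

theorem IsCocI.map_one {b : ↥(IN N) → A} (hb : IsCocI N A b) : b 1 = 0 := by
  have h := hb 1 1
  rw [mul_one, Subgroup.coe_one, _root_.map_one, Module.End.one_apply] at h
  exact left_eq_add.mp h

/-- the homomorphism `σ ↦ (x ↦ σ x + b σ)` attached to a cocycle on inertia -/
noncomputable def affHom (b : ↥(IN N) → A) (hb : IsCocI N A b) :
    ↥(IN N) →* Equiv.Perm A where
  toFun σ := aff A.ρ (σ : GQ) (b σ)
  map_one' := by
    rw [hb.map_one, Subgroup.coe_one, aff_one_zero]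
  map_mul' σ σ' := by
    rw [aff_mul, ← hb σ σ', Subgroup.coe_mul]

@[simp] theorem affHom_apply (b : ↥(IN N) → A) (hb : IsCocI N A b) (σ : ↥(IN N)) (x : A) :
    affHom b hb σ x = A.ρ (σ : GQ) x + b σ := rfl

/-- the range of `affHom` is a `P`-group when inertia is unipotent of level two on a module
killed by a power of `P` -/
theorem isPGroup_range_affHom {P j : ℕ} (b : ↥(IN N) → A) (hb : IsCocI N A b)
    (hU : ∀ s ∈ IN N, ∀ a : A, A.ρ s (A.ρ s a) + a = 2 • A.ρ s a)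
    (hA : ∀ a : A, (P ^ j) • a = 0) : IsPGroup P (affHom b hb).range := by
  rintro ⟨x, σ, rfl⟩
  refine ⟨j + j, Subtype.ext ?_⟩
  rw [Subgroup.coe_pow, Subgroup.coe_one, pow_add]
  exact aff_pow_eq_one A.ρ (σ : GQ) (b σ) (hU σ σ.2) hA

end Inertia

/-! ### The submodule `B = Σ (s - 1) A` and the generator of tame inertia -/

section Gen

variable {k : Type} [CommRing k] (N : ℕ) [Fact N.Prime] (A : Rep.{0} k GQ)

/-- `B = Σ_{s ∈ I_N} (s - 1) A` -/
def BN : Submodule k A := Submodule.span k {x | ∃ s ∈ IN N, ∃ a : A, x = A.ρ s a - a}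

variable {N A}

theorem sub_mem_BN {s : GQ} (hs : s ∈ IN N) (a : A) : A.ρ s a - a ∈ BN N A :=
  Submodule.subset_span ⟨s, hs, a, rfl⟩

/-- `B` is stable under the decomposition group -/
theorem BN_le_comap {g : GQ} (hg : g ∈ (padicPlace N).decompositionSubgroup ℚ) :
    BN N A ≤ (BN N A).comap (A.ρ g) := by
  rw [BN, Submodule.span_le]
  rintro x ⟨s, hs, a, rfl⟩
  rw [SetLike.mem_coe, Submodule.mem_comap, map_sub]
  have h1 : A.ρ g (A.ρ s a) = A.ρ (g * s * g⁻¹) (A.ρ g a) := by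
    rw [← Module.End.mul_apply, ← Module.End.mul_apply, ← map_mul, ← map_mul,
      inv_mul_cancel_right]
  rw [h1]
  exact sub_mem_BN (conj_mem_inertiaSubgroupIn hg ⟨s, hs⟩) _

/-- the level of a cocycle on inertia -/
def LevelF (F : IntermediateField ℚ Qbar) (b : ↥(IN N) → A) : Prop :=
  ∀ σ : ↥(IN N), (σ : GQ) ∈ F.fixingSubgroup → b σ = 0

/-- the level of the module -/
def TrivF (A : Rep.{0} k GQ) (F : IntermediateField ℚ Qbar) : Prop :=
  ∀ s ∈ F.fixingSubgroup, ∀ x : A, A.ρ s x = x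

theorem affHom_eq_one {F : IntermediateField ℚ Qbar} {b : ↥(IN N) → A} (hb : IsCocI N A b)
    (hl : LevelF F b) (ht : TrivF A F) (σ : ↥(IN N)) (hσ : (σ : GQ) ∈ F.fixingSubgroup) :
    affHom b hb σ = 1 := by
  ext x
  rw [affHom_apply, hl σ hσ, ht _ hσ, add_zero, Equiv.Perm.one_apply]

theorem isCocI_zero : IsCocI N A (fun _ => (0 : A)) := fun σ σ' => by
  simp only [map_zero, add_zero]

theorem isCocI_sub_coboundary {b : ↥(IN N) → A} (hb : IsCocI N A b) (a : A) :
    IsCocI N A fun σ => b σ - (A.ρ (σ : GQ) a - a) := fun σ σ' => by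
  simp only
  rw [hb σ σ', Subgroup.coe_mul, map_mul, Module.End.mul_apply, map_sub, map_sub]
  abel

/-- **A cocycle on inertia of level `F` whose value at the generator lies in `B` is a
coboundary.** -/
theorem exists_coboundary {P j : ℕ} (F : IntermediateField ℚ Qbar)
    (hU : ∀ s ∈ IN N, ∀ a : A, A.ρ s (A.ρ s a) + a = 2 • A.ρ s a)
    (hA : ∀ a : A, (P ^ j) • a = 0) (ht : TrivF A F)
    (τ : ↥(IN N))
    (hτ : ∀ (Γ : Type) [Group Γ] (f : ↥(IN N) →* Γ),
      (∀ σ : ↥(IN N), (σ : GQ) ∈ F.fixingSubgroup → f σ = 1) →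
      IsPGroup P f.range → ∀ σ : ↥(IN N), ∃ m : ℕ, f σ = f τ ^ m)
    {b : ↥(IN N) → A} (hb : IsCocI N A b) (hl : LevelF F b) (hbτ : b τ ∈ BN N A) :
    ∃ a : A, ∀ σ : ↥(IN N), b σ = A.ρ (σ : GQ) a - a := by
  -- `B ≤ range (τ - 1)`
  have hB : BN N A ≤ LinearMap.range (A.ρ (τ : GQ) - 1) := by
    rw [BN, Submodule.span_le]
    rintro x ⟨s, hs, a, rfl⟩
    obtain ⟨m, hm⟩ := hτ (Equiv.Perm A) (affHom _ isCocI_zero)
      (fun σ hσ => affHom_eq_one isCocI_zero (fun _ _ => rfl) ht σ hσ)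
      (isPGroup_range_affHom _ isCocI_zero hU hA) ⟨s, hs⟩
    have h1 : A.ρ s a = (A.ρ (τ : GQ) ^ m) a := by
      have h2 := congrArg (fun e : Equiv.Perm A => e a) hm
      simp only [affHom_apply, add_zero] at h2
      rw [h2]
      change (aff A.ρ (τ : GQ) 0 ^ m) a = _
      rw [aff_pow_apply]
      simp
    rw [SetLike.mem_coe, LinearMap.mem_range]
    refine ⟨(∑ i ∈ Finset.range m, A.ρ (τ : GQ) ^ i) a, ?_⟩
    rw [← Module.End.mul_apply, mul_geom_sum, h1, LinearMap.sub_apply, Module.End.one_apply]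
  obtain ⟨a, ha⟩ := hB hbτ
  rw [LinearMap.sub_apply, Module.End.one_apply] at ha
  refine ⟨a, fun σ => ?_⟩
  have hb' := isCocI_sub_coboundary hb a
  have hl' : LevelF F fun σ : ↥(IN N) => b σ - (A.ρ (σ : GQ) a - a) := fun σ hσ => by
    simp only
    rw [hl σ hσ, ht _ hσ, sub_self, sub_zero]
  obtain ⟨m, hm⟩ := hτ (Equiv.Perm A) (affHom _ hb')
    (fun σ hσ => affHom_eq_one hb' hl' ht σ hσ) (isPGroup_range_affHom _ hb' hU hA) σ
  have h2 := congrArg (fun e : Equiv.Perm A => e 0) hm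
  simp only [affHom_apply, map_zero, zero_add] at h2
  have h3 : (affHom _ hb' τ ^ m) 0 = 0 := by
    change (aff A.ρ (τ : GQ) (b τ - (A.ρ (τ : GQ) a - a)) ^ m) 0 = 0
    rw [aff_pow_apply, ← ha, sub_self]
    simp
  rw [h3, sub_eq_zero] at h2
  exact h2

end Gen

/-! ### The Frobenius relation -/

section Frob

variable {k : Type} [CommRing k] {N : ℕ} [Fact N.Prime] {A : Rep.{0} k GQ}

/-- the restriction to inertia of a function on `D_N` -/
def resI (c : ↥(Dq N) → A) : ↥(IN N) → A := fun σ => c ⟨σ.1, Iq_le_Dq N σ.2⟩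

theorem isCocI_resI {c : ↥(Dq N) → A}
    (hc : ∀ g h : ↥(Dq N), c (g * h) = A.ρ (g : GQ) (c h) + c g) : IsCocI N A (resI c) :=
  fun σ σ' => hc ⟨σ.1, Iq_le_Dq N σ.2⟩ ⟨σ'.1, Iq_le_Dq N σ'.2⟩

/-- **`φ c(τ) ≡ N c(τ)` modulo `B`**, for a Frobenius element `φ` and every `τ` in inertia. -/
theorem frob_rel {P j : ℕ} (hP : P.Prime) (hPN : P ≠ N) (F : IntermediateField ℚ Qbar)
    [FiniteDimensional ℚ F] [IsGalois ℚ F]
    (hU : ∀ s ∈ IN N, ∀ a : A, A.ρ s (A.ρ s a) + a = 2 • A.ρ s a)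
    (hA : ∀ a : A, (P ^ j) • a = 0) (ht : TrivF A F)
    {c : ↥(Dq N) → A} (hc : ∀ g h : ↥(Dq N), c (g * h) = A.ρ (g : GQ) (c h) + c g)
    (hl : LevelF F (resI c)) {φ : GQ} (hφ : (padicPlace N).IsFrobeniusAt φ N) (τ : ↥(IN N)) :
    A.ρ φ (resI c τ) - N • resI c τ ∈ BN N A := by
  have hN : N.Prime := Fact.out
  have hb := isCocI_resI hc
  have h1 := map_conj_eq_pow F hN (liesOverPrime_padicPlace N) hP hPN (affHom _ hb)
    (fun σ hσ => affHom_eq_one hb hl ht σ hσ) (isPGroup_range_affHom _ hb hU hA) hφ τ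
  have h2 := congrArg (fun e : Equiv.Perm A => e 0) h1
  simp only [affHom_apply, map_zero, zero_add] at h2
  have h3 : (affHom _ hb τ ^ N) 0 = ∑ i ∈ Finset.range N, (A.ρ (τ : GQ) ^ i) (resI c τ) := by
    change (aff A.ρ (τ : GQ) (resI c τ) ^ N) 0 = _
    rw [aff_pow_apply, map_zero, zero_add]
  rw [h3] at h2
  -- the cocycle identity on `D_N`
  have hφD : φ ∈ Dq N := hφ.mem_decompositionSubgroup
  set φ' : ↥(Dq N) := ⟨φ, hφD⟩ with hφ'
  set τ' : ↥(Dq N) := ⟨τ.1, Iq_le_Dq N τ.2⟩ with hτ'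
  have hc1 : c 1 = 0 := by
    have h := hc 1 1
    rw [mul_one, Subgroup.coe_one, map_one, Module.End.one_apply] at h
    exact left_eq_add.mp h
  have hinv : A.ρ φ (c φ'⁻¹) = - c φ' := by
    have h := hc φ' φ'⁻¹
    rw [mul_inv_cancel, hc1] at h
    exact eq_neg_of_add_eq_zero_left h.symm
  have hconj : resI c ⟨φ * (τ : GQ) * φ⁻¹,
      conj_mem_inertiaSubgroupIn hφ.mem_decompositionSubgroup τ⟩
      = A.ρ φ (resI c τ) - (A.ρ (φ * (τ : GQ) * φ⁻¹) (c φ') - c φ') := by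
    have e : (⟨φ * (τ : GQ) * φ⁻¹, Iq_le_Dq N
        (conj_mem_inertiaSubgroupIn hφ.mem_decompositionSubgroup τ)⟩ : ↥(Dq N))
        = φ' * τ' * φ'⁻¹ := Subtype.ext rfl
    change c ⟨φ * (τ : GQ) * φ⁻¹, _⟩ = _
    rw [e, hc, hc φ' τ']
    have h4 : A.ρ ((φ' * τ' : ↥(Dq N)) : GQ) (c φ'⁻¹)
        = - A.ρ (φ * (τ : GQ) * φ⁻¹) (c φ') := by
      have h5 : ((φ' * τ' : ↥(Dq N)) : GQ) = (φ * (τ : GQ) * φ⁻¹) * φ := by
        rw [Subgroup.coe_mul]
        change φ * (τ : GQ) = φ * (τ : GQ) * φ⁻¹ * φ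
        rw [inv_mul_cancel_right]
      rw [h5, map_mul, Module.End.mul_apply, hinv, map_neg]
    rw [h4]
    change _ = A.ρ φ (c τ') - _
    abel
  rw [hconj] at h2
  -- conclusion
  have h6 : A.ρ φ (resI c τ) - N • resI c τ
      = (∑ i ∈ Finset.range N, ((A.ρ (τ : GQ) ^ i) (resI c τ) - resI c τ))
        + (A.ρ (φ * (τ : GQ) * φ⁻¹) (c φ') - c φ') := by
    rw [Finset.sum_sub_distrib, ← h2, Finset.sum_const, Finset.card_range]
    abel
  rw [h6]
  refine Submodule.add_mem _ (Submodule.sum_mem _ fun i _ => ?_)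
    (sub_mem_BN (conj_mem_inertiaSubgroupIn hφ.mem_decompositionSubgroup τ) _)
  rw [← map_pow]
  exact sub_mem_BN (Subgroup.pow_mem _ τ.2 i) _

end Frob

/-! ### The count -/

section Count

variable {k : Type} [CommRing k] (N : ℕ) [Fact N.Prime] (A : Rep.{0} k GQ)

/-- `Z¹(D_N, A) / Z¹_unr(D_N, A)` -/
abbrev QN : Type := ↥(Z1 (Dq N) A) ⧸ (Z1unr N A).comap (Z1 (Dq N) A).subtype

variable {N A}

/-- the endomorphism of `A / B` induced by an element of the decomposition group -/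
noncomputable def quotEnd {φ : GQ} (hφ : φ ∈ (padicPlace N).decompositionSubgroup ℚ) :
    (A ⧸ BN N A) →ₗ[k] (A ⧸ BN N A) :=
  (BN N A).mapQ (BN N A) (A.ρ φ) (BN_le_comap hφ)

/-- `ker (φ - N)` on `A / B` -/
noncomputable def KN {φ : GQ} (hφ : φ ∈ (padicPlace N).decompositionSubgroup ℚ) :
    Submodule k (A ⧸ BN N A) :=
  LinearMap.ker (quotEnd hφ - N • LinearMap.id)

theorem mk_mem_KN {φ : GQ} (hφ : φ ∈ (padicPlace N).decompositionSubgroup ℚ) {x : A}
    (hx : A.ρ φ x - N • x ∈ BN N A) : (BN N A).mkQ x ∈ KN hφ := by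
  rw [KN, LinearMap.mem_ker, LinearMap.sub_apply, LinearMap.smul_apply, LinearMap.id_apply,
    quotEnd, Submodule.mkQ_apply, Submodule.mapQ_apply, ← Submodule.Quotient.mk_smul,
    ← Submodule.Quotient.mk_sub, Submodule.Quotient.mk_eq_zero]
  exact hx

/-- common level of finitely many local cocycles and of the module -/
theorem exists_common_level (hsm : ∃ U ∈ levelsAll.sets, ∀ s ∈ U, ∀ a : A, A.ρ s a = a)
    (T : Finset ↥(Z1 (Dq N) A)) :
    ∃ V ∈ levelsAll.sets, (∀ s ∈ V, ∀ a : A, A.ρ s a = a) ∧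
      ∀ c ∈ T, ∀ s : ↥(Dq N), (s : GQ) ∈ V → c.1 s = 0 := by
  classical
  induction T using Finset.induction_on with
  | empty =>
    obtain ⟨U, hU, h⟩ := hsm
    exact ⟨U, hU, h, fun c hc => absurd hc (Finset.notMem_empty c)⟩
  | insert c T _ ih =>
    obtain ⟨V, hV, hVA, hVT⟩ := ih
    obtain ⟨hcc, W', ⟨W, hW, rfl⟩, hWc, -⟩ := (mem_Z1_iff (Dq N) c.1).1 c.2
    obtain ⟨V', hV', hle⟩ := levelsAll.directed V hV W hW
    refine ⟨V', hV', fun s hs => hVA s (hle hs).1, fun c' hc' s hs => ?_⟩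
    rcases Finset.mem_insert.1 hc' with rfl | hc'
    · have h1 : c'.1 1 = 0 := by
        have h := hcc 1 1
        rw [mul_one, Subgroup.coe_one, map_one, Module.End.one_apply] at h
        exact left_eq_add.mp h
      have h2 := hWc 1 s (Subgroup.mem_comap.2 (hle hs).2)
      rw [one_mul] at h2
      rw [h2, h1]
    · exact hVT c' hc' s (hle hs).1

/-- **(K-N-alg)(iv) in cocycle form: `Z¹(D_N, A) / Z¹_unr` is finite of order at most
`# ker (φ - N on A / B)`.** -/
theorem card_quot_le [Finite A] {P j : ℕ} (hP : P.Prime) (hPN : P ≠ N)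
    (hsm : ∃ U ∈ levelsAll.sets, ∀ s ∈ U, ∀ a : A, A.ρ s a = a)
    (hU : ∀ s ∈ IN N, ∀ a : A, A.ρ s (A.ρ s a) + a = 2 • A.ρ s a)
    (hA : ∀ a : A, (P ^ j) • a = 0)
    {φ : GQ} (hφ : (padicPlace N).IsFrobeniusAt φ N) :
    Finite (QN N A) ∧ Nat.card (QN N A) ≤ Nat.card ↥(KN (A := A) hφ.mem_decompositionSubgroup) := by
  classical
  have hN : N.Prime := Fact.out
  have key : ∀ T : Finset (QN N A),
      T.card ≤ Nat.card ↥(KN (A := A) hφ.mem_decompositionSubgroup) := by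
    intro T
    -- representatives
    have hsurj : Function.Surjective
        ((Z1unr N A).comap (Z1 (Dq N) A).subtype).mkQ := Submodule.mkQ_surjective _
    set rep : QN N A → ↥(Z1 (Dq N) A) := Function.surjInv hsurj with hrep
    have hrep' : ∀ x, ((Z1unr N A).comap (Z1 (Dq N) A).subtype).mkQ (rep x) = x :=
      Function.surjInv_eq hsurj
    obtain ⟨V, ⟨hVn, F, hFfin, rfl⟩, hVA, hVT⟩ := exists_common_level hsm (T.image rep)
    have : FiniteDimensional ℚ F := hFfin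
    have : IsGalois ℚ F := (InfiniteGalois.normal_iff_isGalois F).1 hVn
    obtain ⟨τ, hτ⟩ := exists_generator_inertia_uniform.{0, 0} F hN
      (liesOverPrime_padicPlace N) hP hPN
    have hcoc : ∀ x, ∀ g h : ↥(Dq N),
        (rep x).1 (g * h) = A.ρ (g : GQ) ((rep x).1 h) + (rep x).1 g :=
      fun x => ((mem_Z1_iff (Dq N) (rep x).1).1 (rep x).2).1
    have hlev : ∀ x ∈ T, LevelF F (resI (rep x).1) := fun x hx σ hσ =>
      hVT (rep x) (Finset.mem_image_of_mem rep hx) ⟨σ.1, Iq_le_Dq N σ.2⟩ hσ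
    -- the map `x ↦ [c_x(τ)]`
    let ι : ↥T → ↥(KN (A := A) hφ.mem_decompositionSubgroup) := fun x =>
      ⟨(BN N A).mkQ (resI (rep x.1).1 τ),
        mk_mem_KN _ (frob_rel hP hPN F hU hA hVA (hcoc x.1) (hlev x.1 x.2) hφ τ)⟩
    have hinj : Function.Injective ι := by
      intro x y hxy
      have h1 : (BN N A).mkQ (resI (rep x.1).1 τ) = (BN N A).mkQ (resI (rep y.1).1 τ) :=
        congrArg Subtype.val hxy
      rw [← sub_eq_zero, ← map_sub, Submodule.mkQ_apply, Submodule.Quotient.mk_eq_zero] at h1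
      -- the difference cocycle
      set d : ↥(Z1 (Dq N) A) := rep x.1 - rep y.1 with hd
      have hdc : ∀ g h : ↥(Dq N), d.1 (g * h) = A.ρ (g : GQ) (d.1 h) + d.1 g :=
        ((mem_Z1_iff (Dq N) d.1).1 d.2).1
      have hdl : LevelF F (resI d.1) := fun σ hσ => by
        change (rep x.1).1 _ - (rep y.1).1 _ = 0
        have hx := hlev x.1 x.2 σ hσ
        have hy := hlev y.1 y.2 σ hσ
        change (rep x.1).1 _ = 0 at hx
        change (rep y.1).1 _ = 0 at hy
        rw [hx, hy, sub_zero]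
      have hdτ : resI d.1 τ ∈ BN N A := h1
      obtain ⟨a, ha⟩ := exists_coboundary F hU hA hVA τ hτ (isCocI_resI hdc) hdl hdτ
      have hdu : d ∈ (Z1unr N A).comap (Z1 (Dq N) A).subtype := by
        rw [Submodule.mem_comap]
        exact ⟨d.2, a, fun s hs => ha ⟨s.1, hs⟩⟩
      have h2 : ((Z1unr N A).comap (Z1 (Dq N) A).subtype).mkQ d = 0 := by
        rw [Submodule.mkQ_apply, Submodule.Quotient.mk_eq_zero]
        exact hdu
      rw [hd, map_sub, hrep', hrep', sub_eq_zero] at h2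
      exact Subtype.ext h2
    have : Finite (A ⧸ BN N A) := Finite.of_surjective _ (Submodule.mkQ_surjective (BN N A))
    have : Finite ↥(KN (A := A) hφ.mem_decompositionSubgroup) := inferInstance
    have h3 := Nat.card_le_card_of_injective ι hinj
    rwa [Nat.card_eq_fintype_card, Fintype.card_coe] at h3
  have hfin : Finite (QN N A) := by
    by_contra hinf
    rw [not_finite_iff_infinite] at hinf
    obtain ⟨T, hT⟩ := Infinite.exists_subset_card_eq (QN N A)
      (Nat.card ↥(KN (A := A) hφ.mem_decompositionSubgroup) + 1)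
    have := key T
    omega
  refine ⟨hfin, ?_⟩
  have := Fintype.ofFinite (QN N A)
  rw [Nat.card_eq_fintype_card, ← Finset.card_univ]
  exact key Finset.univ

end Count

/-! ### (T-N): relaxing the condition at `N` -/

section Relax

variable {k : Type} [CommRing k] (N : ℕ) [Fact N.Prime] {A : Rep.{0} k GQ}

/-- the part of a space of global cocycle-functions which is unramified at `N` -/
def unrAt (Z : Submodule k (GQ → A)) : Submodule k (GQ → A) where
  carrier := {c | c ∈ Z ∧ IsUnramAt N c}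
  add_mem' := fun ha hb => ⟨Z.add_mem ha.1 hb.1, ha.2.add hb.2⟩
  zero_mem' := ⟨Z.zero_mem, isUnramAt_zero N⟩
  smul_mem' := fun r _ ha => ⟨Z.smul_mem r ha.1, ha.2.smul r⟩

theorem mem_unrAt {Z : Submodule k (GQ → A)} {c : GQ → A} :
    c ∈ unrAt N Z ↔ c ∈ Z ∧ IsUnramAt N c := Iff.rfl

theorem unrAt_le (Z : Submodule k (GQ → A)) : unrAt N Z ≤ Z := fun _ h => h.1

/-- restriction to `D_N` modulo the unramified local cocycles -/
noncomputable def relMap (Z : Submodule k (GQ → A)) (hZ : Z ≤ Z1g A) : ↥Z →ₗ[k] QN N A :=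
  ((Z1unr N A).comap (Z1 (Dq N) A).subtype).mkQ ∘ₗ resZ (Dq N) A ∘ₗ Submodule.inclusion hZ

theorem relMap_eq_zero_iff (Z : Submodule k (GQ → A)) (hZ : Z ≤ Z1g A) (c : ↥Z) :
    relMap N Z hZ c = 0 ↔ IsUnramAt N c.1 := by
  rw [relMap, LinearMap.comp_apply, LinearMap.comp_apply, Submodule.mkQ_apply,
    Submodule.Quotient.mk_eq_zero, Submodule.mem_comap, isUnramAt_iff_resFun_mem (hZ c.2)]
  rfl

/-- **(T-N), first form**: `# Z ≤ # (Z unramified at N) * # (Z¹(D_N, A) / Z¹_unr)`. -/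
theorem card_le_mul_quot (Z : Submodule k (GQ → A)) (hZ : Z ≤ Z1g A) [Finite (QN N A)] :
    Nat.card ↥Z ≤ Nat.card ↥(unrAt N Z) * Nat.card (QN N A) := by
  set ψ := relMap N Z hZ with hψ
  have h1 := Submodule.card_eq_card_quotient_mul_card (LinearMap.ker ψ)
  have e1 : ↥(LinearMap.ker ψ) ≃ ↥(unrAt N Z) :=
    { toFun := fun c => ⟨c.1.1, c.1.2, (relMap_eq_zero_iff N Z hZ c.1).1 c.2⟩
      invFun := fun c => ⟨⟨c.1, c.2.1⟩, (relMap_eq_zero_iff N Z hZ ⟨c.1, c.2.1⟩).2 c.2.2⟩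
      left_inv := fun _ => rfl
      right_inv := fun _ => rfl }
  have h2 : Nat.card (↥Z ⧸ LinearMap.ker ψ) ≤ Nat.card (QN N A) := by
    have e2 := (LinearMap.quotKerEquivRange ψ).toEquiv
    rw [Nat.card_congr e2]
    exact Nat.card_le_card_of_injective _ Subtype.val_injective
  rw [h1, Nat.card_congr e1]
  exact Nat.mul_le_mul_left _ h2

variable {N}

/-- **(T-N)**: `# Z ≤ # (Z unramified at N) * # ker (φ - N on A / B)`, for EVERY space `Z` of
global cocycles. -/
theorem card_le_mul [Finite A] {P j : ℕ} (hP : P.Prime) (hPN : P ≠ N)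
    (hsm : ∃ U ∈ levelsAll.sets, ∀ s ∈ U, ∀ a : A, A.ρ s a = a)
    (hU : ∀ s ∈ IN N, ∀ a : A, A.ρ s (A.ρ s a) + a = 2 • A.ρ s a)
    (hA : ∀ a : A, (P ^ j) • a = 0)
    {φ : GQ} (hφ : (padicPlace N).IsFrobeniusAt φ N)
    (Z : Submodule k (GQ → A)) (hZ : Z ≤ Z1g A) :
    Nat.card ↥Z ≤ Nat.card ↥(unrAt N Z) *
      Nat.card ↥(KN (A := A) hφ.mem_decompositionSubgroup) := by
  obtain ⟨hfin, hle⟩ := card_quot_le hP hPN hsm hU hA hφ
  exact (card_le_mul_quot N Z hZ).trans (Nat.mul_le_mul_left _ hle)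

/-- finiteness passes from the part unramified at `N` to the whole space -/
theorem finite_of_finite_unrAt [Finite A] {P j : ℕ} (hP : P.Prime) (hPN : P ≠ N)
    (hsm : ∃ U ∈ levelsAll.sets, ∀ s ∈ U, ∀ a : A, A.ρ s a = a)
    (hU : ∀ s ∈ IN N, ∀ a : A, A.ρ s (A.ρ s a) + a = 2 • A.ρ s a)
    (hA : ∀ a : A, (P ^ j) • a = 0)
    (Z : Submodule k (GQ → A)) (hZ : Z ≤ Z1g A) [Finite ↥(unrAt N Z)] : Finite ↥Z := by
  obtain ⟨φ, hφ⟩ := Fermat.Agent.Lib.FrobeniusExists.exists_isFrobeniusAt_algebraicClosure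
    (padicPlace N) (Fact.out : N.Prime) (liesOverPrime_padicPlace N)
  obtain ⟨hfin, -⟩ := card_quot_le hP hPN hsm hU hA hφ
  set ψ := relMap N Z hZ with hψ
  have e1 : ↥(LinearMap.ker ψ) ≃ ↥(unrAt N Z) :=
    { toFun := fun c => ⟨c.1.1, c.1.2, (relMap_eq_zero_iff N Z hZ c.1).1 c.2⟩
      invFun := fun c => ⟨⟨c.1, c.2.1⟩, (relMap_eq_zero_iff N Z hZ ⟨c.1, c.2.1⟩).2 c.2.2⟩
      left_inv := fun _ => rfl
      right_inv := fun _ => rfl }
  have : Finite ↥(LinearMap.ker ψ) := Finite.of_equiv _ e1.symm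
  have : Finite (↥Z ⧸ LinearMap.ker ψ) :=
    Finite.of_injective (fun x => ((LinearMap.quotKerEquivRange ψ) x).1)
      (fun x y h => (LinearMap.quotKerEquivRange ψ).injective (Subtype.ext h))
  have h1 := Submodule.card_eq_card_quotient_mul_card (LinearMap.ker ψ)
  apply Nat.finite_of_card_ne_zero
  rw [h1]
  exact Nat.mul_ne_zero Nat.card_pos.ne' Nat.card_pos.ne'

end Relax

/-! ### The shape consumed by the descent: strict versus `N`-relaxed Selmer cocycles -/

section Shape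

variable {k : Type} [CommRing k] {N : ℕ} [Fact N.Prime] {A : Rep.{0} k GQ}

/-- **(T-N) for Selmer cocycles with an arbitrary condition `L` (at `P`)**: if `S` is cut out by
"unramified at every `q ≠ P`" and `Srel` by "unramified at every `q ≠ P, N`", then
`# Srel ≤ # S * # ker (φ - N on A / B)`. -/
theorem card_relaxed_le [Finite A] {P j : ℕ} (hP : P.Prime) (hPN : P ≠ N)
    (hsm : ∃ U ∈ levelsAll.sets, ∀ s ∈ U, ∀ a : A, A.ρ s a = a)
    (hU : ∀ s ∈ IN N, ∀ a : A, A.ρ s (A.ρ s a) + a = 2 • A.ρ s a)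
    (hA : ∀ a : A, (P ^ j) • a = 0)
    {φ : GQ} (hφ : (padicPlace N).IsFrobeniusAt φ N)
    (L S Srel : Submodule k (GQ → A))
    (hS : ∀ c, c ∈ S ↔ c ∈ Z1g A ∧ (∀ (q : ℕ) [Fact q.Prime], q ≠ P → IsUnramAt q c) ∧ c ∈ L)
    (hSrel : ∀ c, c ∈ Srel ↔
      c ∈ Z1g A ∧ (∀ (q : ℕ) [Fact q.Prime], q ≠ P → q ≠ N → IsUnramAt q c) ∧ c ∈ L) :
    Nat.card ↥Srel ≤ Nat.card ↥S * Nat.card ↥(KN (A := A) hφ.mem_decompositionSubgroup) := by
  have hle : Srel ≤ Z1g A := fun c hc => ((hSrel c).1 hc).1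
  have heq : unrAt N Srel = S := by
    ext c
    rw [mem_unrAt, hS, hSrel]
    constructor
    · rintro ⟨⟨h1, h2, h3⟩, h4⟩
      refine ⟨h1, fun q _ hq => ?_, h3⟩
      by_cases hqN : q = N
      · subst hqN
        exact h4
      · exact h2 q hq hqN
    · rintro ⟨h1, h2, h3⟩
      exact ⟨⟨h1, fun q _ hq _ => h2 q hq, h3⟩, h2 N hPN.symm⟩
  have h := card_le_mul hP hPN hsm hU hA hφ Srel hle
  rwa [heq] at h

/-- finiteness of the `N`-relaxed Selmer cocycles from finiteness of the strict ones -/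
theorem finite_relaxed [Finite A] {P j : ℕ} (hP : P.Prime) (hPN : P ≠ N)
    (hsm : ∃ U ∈ levelsAll.sets, ∀ s ∈ U, ∀ a : A, A.ρ s a = a)
    (hU : ∀ s ∈ IN N, ∀ a : A, A.ρ s (A.ρ s a) + a = 2 • A.ρ s a)
    (hA : ∀ a : A, (P ^ j) • a = 0)
    (L S Srel : Submodule k (GQ → A))
    (hS : ∀ c, c ∈ S ↔ c ∈ Z1g A ∧ (∀ (q : ℕ) [Fact q.Prime], q ≠ P → IsUnramAt q c) ∧ c ∈ L)
    (hSrel : ∀ c, c ∈ Srel ↔
      c ∈ Z1g A ∧ (∀ (q : ℕ) [Fact q.Prime], q ≠ P → q ≠ N → IsUnramAt q c) ∧ c ∈ L)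
    [Finite ↥S] : Finite ↥Srel := by
  have hle : Srel ≤ Z1g A := fun c hc => ((hSrel c).1 hc).1
  have heq : unrAt N Srel = S := by
    ext c
    rw [mem_unrAt, hS, hSrel]
    constructor
    · rintro ⟨⟨h1, h2, h3⟩, h4⟩
      refine ⟨h1, fun q _ hq => ?_, h3⟩
      by_cases hqN : q = N
      · subst hqN
        exact h4
      · exact h2 q hq hqN
    · rintro ⟨h1, h2, h3⟩
      exact ⟨⟨h1, fun q _ hq _ => h2 q hq, h3⟩, h2 N hPN.symm⟩
  have : Finite ↥(unrAt N Srel) := by rw [heq]; infer_instance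
  exact finite_of_finite_unrAt hP hPN hsm hU hA Srel hle

end Shape

end Fermat.Agent.S15.D.RelaxN
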